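import Fermat.Agent.CFT.Global.Obstruction
import Fermat.Agent.GaloisBasic.FiniteFrobenius

/-!
Decomposition groups are generated by inertia and a Frobenius element, at every finite level.
-/

set_option autoImplicit false

noncomputable section

open scoped Classical Pointwise NumberField

namespace FermatAgent.CFT.Selmer

open GaloisBasic Global Local Coh

variable {q : ℕ} {A : ValuationSubring Qbar}

/-- A subgroup containing inertia, a Frobenius element and a level contains the decomposition
group. -/
theorem decomposition_le {S : Finset Nat.Primes} (hq : q.Prime) (hA : A.LiesOverPrime q) {σ : GQ}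
    (hσ : A.IsFrobeniusAt σ q) {H : Subgroup GQ} (hH : H ∈ LS S) (hσH : σ ∈ H)
    (hI : A.inertiaSubgroupIn ℚ ≤ H) : A.decompositionSubgroup ℚ ≤ H := by
  obtain ⟨M, hM, hMH, -⟩ := exists_normal_field hH
  have := hM.1
  intro g hg
  obtain ⟨j, ι, hι, u, hu, rfl⟩ := exists_frob_pow_mul_inertia hq hA hσ hg M
  exact mul_mem (mul_mem (pow_mem hσH j) (hI hι)) (hMH hu)

/-- At a finite level the decomposition group is the image of the local Galois group. -/
theorem exists_localGalois_eq (q : ℕ) [Fact q.Prime] (K : IntermediateField ℚ Qbar)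
    [FiniteDimensional ℚ K] {g : GQ} (hg : g ∈ (padicPlace q).decompositionSubgroup ℚ) :
    ∃ d : Gal' q, (localGaloisToGlobal q d)⁻¹ * g ∈ K.fixingSubgroup := by
  have h : ∀ a ∈ K, (‖emb q (1 : GQ) a‖ ≤ 1 ↔ ‖emb q g a‖ ≤ 1) := fun a _ => by
    have hh : g • padicPlace q = padicPlace q := hg
    have h1 : g • a ∈ g • padicPlace q ↔ a ∈ padicPlace q :=
      ValuationSubring.smul_mem_pointwise_smul_iff
    rw [hh, mem_padicPlace_iff, mem_padicPlace_iff, ← NNReal.coe_le_coe, ← NNReal.coe_le_coe,
      coe_nnnorm, coe_nnnorm, NNReal.coe_one] at h1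
    exact h1.symm
  obtain ⟨d, w, hw, hgw⟩ := exists_locHom_mul h
  refine ⟨d, ?_⟩
  rw [hgw, locHom_one, one_mul, inv_mul_cancel_left]
  exact hw

end FermatAgent.CFT.Selmer
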