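import Fermat.Agent.CFT.Selmer.Count

/-!
Local conditions stated for plain cocycles with values in trace free matrices.
-/

set_option autoImplicit false

noncomputable section

open scoped Classical

namespace FermatAgent.CFT.Selmer

open Coh Euler Pairing Global Local LocalEuler GaloisBasic

variable {k : Type} [Field k] (r : MatRep k)

/-- Cocycles for conjugation by the representation, with trace free values. -/
def adCoc : Submodule k (GQ → M22 k) where
  carrier := {c | (∀ g h, c (g * h) = c g + r g * c h * r g⁻¹) ∧ ∀ g, (c g).trace = 0}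
  zero_mem' := ⟨fun g h => by simp, fun g => by simp⟩
  add_mem' {a b} ha hb := ⟨fun g h => by
    simp only [Pi.add_apply, ha.1 g h, hb.1 g h, mul_add, add_mul]; abel, fun g => by
    simp [ha.2 g, hb.2 g]⟩
  smul_mem' t a ha := ⟨fun g h => by
    simp only [Pi.smul_apply, ha.1 g h, smul_add, mul_smul_comm, smul_mul_assoc], fun g => by
    simp [ha.2 g]⟩

/-- The deformation to dual numbers given by a cocycle. -/
def epsLift (c : GQ → M22 k) (g : GQ) : Matrix (Fin 2) (Fin 2) (DualNumber k) :=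
  fun i j => TrivSqZeroExt.inl (r g i j) + TrivSqZeroExt.inr ((c g * r g) i j)

/-- Functions which are coboundaries on a subgroup. -/
def locCob (H : Subgroup GQ) : Submodule k (GQ → M22 k) where
  carrier := {c | ∃ e : M22 k, ∀ g ∈ H, c g = r g * e * r g⁻¹ - e}
  zero_mem' := ⟨0, fun g _ => by simp⟩
  add_mem' {a b} := by
    rintro ⟨e, he⟩ ⟨e', he'⟩
    exact ⟨e + e',
      fun g hg => by simp only [Pi.add_apply, he g hg, he' g hg, mul_add, add_mul]; abel⟩
  smul_mem' t a := by
    rintro ⟨e, he⟩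
    exact ⟨t • e, fun g hg => by
      simp only [Pi.smul_apply, he g hg, smul_sub, mul_smul_comm, smul_mul_assoc]⟩

/-- Trace free matrices commuting with the representation on a subgroup. -/
def locFix (H : Subgroup GQ) : Submodule k (M22 k) where
  carrier := {X | X.trace = 0 ∧ ∀ g ∈ H, r g * X * r g⁻¹ = X}
  zero_mem' := ⟨Matrix.trace_zero _ _, fun g _ => by simp⟩
  add_mem' {a b} ha hb := ⟨by rw [Matrix.trace_add, ha.1, hb.1, add_zero], fun g hg => by
    rw [mul_add, add_mul, ha.2 g hg, hb.2 g hg]⟩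
  smul_mem' t a ha := ⟨by rw [Matrix.trace_smul, ha.1, smul_zero], fun g hg => by
    rw [mul_smul_comm, smul_mul_assoc, ha.2 g hg]⟩

variable [Finite k] {p : ℕ} [hp : Fact p.Prime] [CharP k p] {S : Finset Nat.Primes}
    {U : Subgroup GQ}
  {r}

omit hp [CharP k p] in
/-- The fixed elements of the adjoint module at a prime. -/
theorem finrank_locFix_le (v : Nat.Primes) [Fact (v : ℕ).Prime] :
    Module.finrank k (locFix r ((padicPlace (v : ℕ)).decompositionSubgroup ℚ)) * ldim p k ≤
      ldim p (h0Sub (Gal' (v : ℕ)) (Res (localGaloisToGlobal (v : ℕ)) (Ad0 r))) := by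
  set W := locFix r ((padicPlace (v : ℕ)).decompositionSubgroup ℚ)
  let φ : W →+ h0Sub (Gal' (v : ℕ)) (Res (localGaloisToGlobal (v : ℕ)) (Ad0 r)) :=
    AddMonoidHom.mk' (fun X => ⟨Res.of (localGaloisToGlobal (v : ℕ)) (Ad0 r) (Ad.mk X.1 X.2.1),
        fun d => Ad.ext (by
          show Ad.val (localGaloisToGlobal (v : ℕ) d • Ad.mk X.1 X.2.1) = _
          rw [Ad.val_smul, MonoidHom.one_apply, Units.val_one, one_smul, Ad.val_mk]
          exact X.2.2 _ (localGaloisToGlobal_mem_decompositionSubgroup _ d))⟩)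
      fun a b => Subtype.ext (Ad.ext (r := r) (ψ := 1) rfl)
  have : Finite (Res (localGaloisToGlobal (v : ℕ)) (Ad0 r)) := inferInstanceAs (Finite (Ad0 r))
  have : Finite (h0Sub (Gal' (v : ℕ)) (Res (localGaloisToGlobal (v : ℕ)) (Ad0 r))) := inferInstance
  rw [← ldim_module p (V := W)]
  refine ldim_le_of_injective p φ fun a b h => Subtype.ext ?_
  exact congrArg (fun X : Ad0 r => Ad.val X) (congrArg Subtype.val h : (Ad.mk a.1 a.2.1 : Ad0 r) =
    Ad.mk b.1 b.2.1)

/-- **A bound on cocycles bounds the local image.** -/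
theorem ldim_map_le_of_finrank (hp2 : p ≠ 2) (T : Setting p S U) (hker : ∀ g ∈ U, r g = 1)
    (v : S) (G : AddSubgroup (H1 (LS S) (Ad0 r)))
    (V : Submodule k (GQ → M22 k)) [Module.Finite k V]
    (hV : ∀ x ∈ G, ∃ z : ↥((LS S).Z1 ⊤ (Ad0 r)), cls1 (LS S) (Ad0 r) z = x ∧
      (fun g => Ad.val (z.1 g)) ∈ V)
    (n : ℕ) (hn : Module.finrank k V ≤ Module.finrank k
      (V ⊓ locCob r ((padicPlace ((v : Nat.Primes) : ℕ)).decompositionSubgroup ℚ) :
        Submodule k (GQ → M22 k)) + n) :
    ldim p (G.map (locAt T v (Ad0 r))) ≤ n * ldim p k := by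
  have := T.finite_H1 (good_ad0 (p := p) hker)
  set C := (locCob r ((padicPlace ((v : Nat.Primes) : ℕ)).decompositionSubgroup ℚ)).comap V.subtype
  have : Finite V := Module.finite_of_finite k
  have : Finite (V ⧸ C) := Finite.of_surjective _ (Submodule.Quotient.mk_surjective C)
  -- the representing cocycles
  have hW : ∀ y : G.map (locAt T v (Ad0 r)), ∃ w : ↥((LS S).Z1 ⊤ (Ad0 r)) × V,
      locAt T v (Ad0 r) (cls1 (LS S) (Ad0 r) w.1) = y.1 ∧ (fun g => Ad.val (w.1.1 g)) = w.2.1 := by
    rintro ⟨_, x, hx, rfl⟩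
    obtain ⟨z, hz, hzV⟩ := hV x hx
    exact ⟨⟨z, ⟨_, hzV⟩⟩, by rw [hz], rfl⟩
  choose w hw1 hw2 using hW
  let f : G.map (locAt T v (Ad0 r)) → V ⧸ C := fun y => Submodule.Quotient.mk (w y).2
  have hinj : Function.Injective f := fun y y' h => by
    obtain ⟨e, he⟩ := (Submodule.Quotient.eq C).mp h
    refine Subtype.ext ?_
    rw [← hw1, ← hw1, ← sub_eq_zero, ← map_sub, ← map_sub, locAt_cls_eq_zero_iff]
    have h2 : (2 : k) ≠ 0 := fun h0 => hp2 ((Nat.prime_dvd_prime_iff_eq hp.out Nat.prime_two).mp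
      ((CharP.cast_eq_zero_iff k p 2).mp (by exact_mod_cast h0)))
    refine ⟨Ad.mk (e - (e.trace / 2) • 1) ?_, fun d => Ad.ext ?_⟩
    · rw [Matrix.trace_sub, Matrix.trace_smul, Matrix.trace_one, Fintype.card_fin, Nat.cast_ofNat,
        smul_eq_mul, div_mul_cancel₀ _ h2, sub_self]
    · set g := localGaloisToGlobal ((v : Nat.Primes) : ℕ) d
      have hg := he g (localGaloisToGlobal_mem_decompositionSubgroup _ d)
      show Ad.val (((w y).1 - (w y').1 : ↥((LS S).Z1 ⊤ (Ad0 r))).1 g) = _
      have e1 : Ad.val (((w y).1 - (w y').1 : ↥((LS S).Z1 ⊤ (Ad0 r))).1 g) =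
          ((w y).2 - (w y').2 : V).1 g := by
        show Ad.val ((w y).1.1 g - (w y').1.1 g) = (w y).2.1 g - (w y').2.1 g
        rw [map_sub, congrFun (hw2 y) g, congrFun (hw2 y') g]
      rw [e1]
      refine hg.trans ?_
      rw [map_sub, Ad.val_smul, Ad.val_mk, MonoidHom.one_apply, Units.val_one, one_smul, mul_sub,
        sub_mul, mul_smul_comm, smul_mul_assoc, mul_one, rep_mul_inv]
      abel
  have hcard := Nat.card_le_card_of_injective f hinj
  rw [Module.natCard_eq_pow_finrank (K := k) (V := V ⧸ C)] at hcard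
  have hq : Module.finrank k (V ⧸ C) ≤ n := by
    have h1 := C.finrank_quotient_add_finrank
    have h3 : Module.finrank k C = Module.finrank k
        (V ⊓ locCob r ((padicPlace ((v : Nat.Primes) : ℕ)).decompositionSubgroup ℚ) :
          Submodule k (GQ → M22 k)) := by
      rw [← Submodule.map_comap_subtype]
      exact (Submodule.equivMapOfInjective _ V.injective_subtype C).finrank_eq
    omega
  have : Finite (H1v v (Ad0 r)) := finite_H1v T (good_ad0 (p := p) hker) v
  have hexp : ∀ x : G.map (locAt T v (Ad0 r)), p • x = 0 := fun x => by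
    obtain ⟨z, _, hz⟩ := x.2
    refine Subtype.ext ?_
    obtain ⟨c, rfl⟩ := QuotientAddGroup.mk'_surjective _ z
    show p • x.1 = 0
    rw [← hz, ← map_nsmul, ← map_nsmul, show p • c = 0 from Subtype.ext (funext fun g =>
      nsmul_ad_eq_zero p (c.1 g)), map_zero, map_zero]
  have hk : ∀ a : k, p • a = 0 := fun a => by rw [nsmul_eq_mul, CharP.cast_eq_zero, zero_mul]
  rw [card_eq_pow_ldim hexp, card_eq_pow_ldim hk, ← pow_mul] at hcard
  calc ldim p (G.map (locAt T v (Ad0 r))) ≤ ldim p k * Module.finrank k (V ⧸ C) :=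
        (Nat.pow_le_pow_iff_right hp.out.one_lt).mp hcard
    _ ≤ n * ldim p k := by rw [mul_comm]; exact Nat.mul_le_mul_right _ hq

end FermatAgent.CFT.Selmer
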