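import Fermat.Prelude.Def_GaloisRep_StrictOrdinary
import Fermat.Agent.RT.Cond.Flat

/-!
Local conditions along base change and equivalence.
-/

set_option autoImplicit false

noncomputable section

open IsLocalRing
open scoped TensorProduct Matrix

namespace FermatAgent.CFT.Selmer

open GaloisBasic

variable {A B : Type} [CommRing A] [IsLocalRing A] [CommRing B] [IsLocalRing B]

lemma rho_eq_conj {ρ₁ ρ₂ : GaloisRepAdic A} (e : GaloisRepAdic.Equiv ρ₁ ρ₂) (σ : GQ) :
    ρ₂.ρ σ = e.toLinearEquiv.conj (ρ₁.ρ σ) := by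
  ext x
  rw [LinearEquiv.conj_apply_apply, e.map_apply, LinearEquiv.apply_symm_apply]

omit [IsLocalRing A] [IsLocalRing B] in
lemma span_image_mem {I : Ideal A} (φ : A →+* B) {a : A} {m : ℕ}
    (hI : I = Ideal.span {((m : ℕ) : A)}) (h : a ∈ I) : φ a ∈ Ideal.span {((m : ℕ) : B)} := by
  rw [hI, Ideal.mem_span_singleton'] at h
  obtain ⟨c, rfl⟩ := h
  rw [map_mul, map_natCast]
  exact Ideal.mul_mem_left _ _ (Ideal.subset_span rfl)

/-- The cyclotomic determinant along base change and equivalence. -/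
theorem detIsCyclotomic_push {ρ : GaloisRepAdic A} {ρ' : GaloisRepAdic B} {p : ℕ}
    (φ : A →+* B) (hφ : IsLocalHom φ) (e : (ρ.baseChangeAlong φ hφ).IsEquiv ρ')
    (h : ρ.DetIsCyclotomic p) : ρ'.DetIsCyclotomic p := by
  obtain ⟨e⟩ := e
  refine ⟨by rw [← map_natCast φ]; exact map_nonunit φ _ h.1, fun n σ a ha => ?_⟩
  let : Algebra A B := φ.toAlgebra
  have hd : LinearMap.det (ρ'.ρ σ) = φ (LinearMap.det (ρ.ρ σ)) := by
    rw [rho_eq_conj e σ, LinearEquiv.conj_apply, LinearMap.comp_assoc, LinearMap.det_conj]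
    exact LinearMap.det_baseChange (ρ.ρ σ)
  rw [hd, ← map_natCast φ a, ← map_sub]
  exact span_image_mem φ rfl (h.2 n σ a ha)

/-- Being unramified along base change and equivalence. -/
theorem isUnramifiedAt_push {ρ : GaloisRepAdic A} {ρ' : GaloisRepAdic B} {q : ℕ}
    (φ : A →+* B) (hφ : IsLocalHom φ) (e : (ρ.baseChangeAlong φ hφ).IsEquiv ρ')
    (h : ρ.IsUnramifiedAt q) : ρ'.IsUnramifiedAt q := by
  obtain ⟨e⟩ := e
  intro P hP σ hσ
  let : Algebra A B := φ.toAlgebra
  rw [rho_eq_conj e σ]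
  show e.toLinearEquiv.conj ((ρ.ρ σ).baseChange B) = 1
  rw [h P hP σ hσ, LinearMap.baseChange_one]
  ext x
  exact e.toLinearEquiv.apply_symm_apply x

/-- Unipotent inertia along base change and equivalence. -/
theorem isUnipotentOnInertiaAt_push {ρ : GaloisRepAdic A} {ρ' : GaloisRepAdic B} {q : ℕ}
    (φ : A →+* B) (hφ : IsLocalHom φ) (e : (ρ.baseChangeAlong φ hφ).IsEquiv ρ')
    (h : ρ.IsUnipotentOnInertiaAt q) : ρ'.IsUnipotentOnInertiaAt q := by
  obtain ⟨e⟩ := e
  intro P hP σ hσ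
  let : Algebra A B := φ.toAlgebra
  rw [rho_eq_conj e σ, LinearEquiv.charpoly_conj]
  show ((ρ.ρ σ).baseChange B).charpoly = _
  rw [LinearMap.charpoly_baseChange, h P hP σ hσ]
  simp [Polynomial.map_sub, Polynomial.map_pow]

/-- The strictly ordinary condition along base change and equivalence. -/
theorem isStrictOrdinaryAt_push {ρ : GaloisRepAdic A} {ρ' : GaloisRepAdic B} {p : ℕ}
    (φ : A →+* B) (hφ : IsLocalHom φ) (e : (ρ.baseChangeAlong φ hφ).IsEquiv ρ')
    (h : ρ.IsStrictOrdinaryAt p) : ρ'.IsStrictOrdinaryAt p := by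
  obtain ⟨e⟩ := e
  refine ⟨by rw [← map_natCast φ]; exact map_nonunit φ _ h.1, fun P hP => ?_⟩
  let : Algebra A B := φ.toAlgebra
  obtain ⟨L, ⟨b, hb⟩, hD, hI, hs⟩ := h.2 P hP
  let E : (B ⊗[A] ρ.V) ≃ₗ[B] ρ'.V := e.toLinearEquiv
  let c : Module.Basis (Fin 2) B ρ'.V := (Algebra.TensorProduct.basis B b).map E
  set L' := B ∙ c 0 with hL'
  have hc : ∀ i, c i = E ((1 : B) ⊗ₜ[A] b i) := fun i =>
    congrArg E (Algebra.TensorProduct.basis_apply b i)
  have hρ : ∀ σ (x : B) (v : ρ.V), ρ'.ρ σ (E (x ⊗ₜ[A] v)) = E (x ⊗ₜ[A] ρ.ρ σ v) :=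
    fun σ x v => (e.map_apply σ (x ⊗ₜ[A] v)).symm
  have hsm : ∀ (y : B) (a : A) (v : ρ.V), y ⊗ₜ[A] (a • v) = φ a • (y ⊗ₜ[A] v) := fun y a v => by
    rw [TensorProduct.smul_tmul', ← TensorProduct.smul_tmul, Algebra.smul_def, smul_eq_mul]
    rfl
  have hmem : ∀ w ∈ L, ∀ x : B, E (x ⊗ₜ[A] w) ∈ L' := fun w hw x => by
    rw [hb, Submodule.mem_span_singleton] at hw
    obtain ⟨t, rfl⟩ := hw
    refine Submodule.mem_span_singleton.mpr ⟨φ t * x, ?_⟩
    rw [hc, ← LinearEquiv.map_smul E, TensorProduct.smul_tmul', smul_eq_mul, mul_one, hsm,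
      TensorProduct.smul_tmul', smul_eq_mul]
  have hb0 : b 0 ∈ L := hb ▸ Submodule.mem_span_singleton_self _
  refine ⟨L', ⟨c, rfl⟩, fun σ hσ v hv => ?_, fun σ hσ v => ?_, fun σ hσ => ?_⟩
  · obtain ⟨t, rfl⟩ := Submodule.mem_span_singleton.mp hv
    rw [map_smul]
    refine L'.smul_mem t ?_
    rw [hc, hρ]
    exact hmem _ (hD σ hσ _ hb0) 1
  · obtain ⟨w, rfl⟩ := E.surjective v
    induction w using TensorProduct.induction_on with
    | zero => simp
    | tmul x v =>
      rw [hρ, ← map_sub E, ← TensorProduct.tmul_sub]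
      exact hmem _ (hI σ hσ v) x
    | add x y hx hy =>
      rw [LinearEquiv.map_add E, map_add, add_sub_add_comm]
      exact add_mem hx hy
  · obtain ⟨x, z, hx, hz, hxz⟩ := hs σ hσ
    refine ⟨φ x, φ z, fun w hw => ?_, fun v => ?_, fun n a ha => ?_⟩
    · obtain ⟨t, rfl⟩ := Submodule.mem_span_singleton.mp hw
      rw [map_smul, hc, hρ, hx _ hb0, hsm, LinearEquiv.map_smul E]
      exact smul_comm t (φ x) _
    · obtain ⟨w, rfl⟩ := E.surjective v
      induction w using TensorProduct.induction_on with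
      | zero => simp
      | tmul y v =>
        rw [hρ, ← LinearEquiv.map_smul E, ← map_sub E, ← hsm, ← TensorProduct.tmul_sub]
        exact hmem _ (hz v) y
      | add y y' hy hy' =>
        rw [LinearEquiv.map_add E, map_add, smul_add, add_sub_add_comm]
        exact add_mem hy hy'
    · rw [← map_natCast φ a, ← map_mul, ← map_sub]
      exact span_image_mem φ rfl (hxz n a ha)

omit [IsLocalRing B] in
open FermatAgent.Flat RT in
/-- The flat condition gives coordinate systems at every finite base change. -/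
theorem isFlatAct_push {ρ : GaloisRepAdic A} {p : ℕ} [Fact p.Prime]
    (b : Module.Basis (Fin 2) A ρ.V) (φ : A →+* B) [Finite B] (h : ρ.IsFlatAt p) :
    IsFlatAct p (matAct (mapRep φ (matrixIn ρ b))) := by
  have : Finite (A ⧸ RingHom.ker φ) := Finite.of_injective _ φ.kerLift_injective
  have h0 := isFlatAct_mapRep φ.kerLift (isFlatAct_of_isFlatAt h b (RingHom.ker φ))
  rwa [mapRep_mapRep, show φ.kerLift.comp (Ideal.Quotient.mk (RingHom.ker φ)) = φ from
    RingHom.ext fun _ => rfl] at h0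

end FermatAgent.CFT.Selmer
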