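import Fermat.Agent.CFT.Selmer.Select
import Fermat.Agent.GaloisBasic.ResidualMatrix
import Fermat.Agent.RT.Pseudo
import Fermat.Prelude.Def_GaloisRep_LocalConditions

/-!
The residual hypotheses from absolute irreducibility and irreducibility on subgroups of index two.
-/

set_option autoImplicit false

noncomputable section

open scoped Classical TensorProduct

namespace FermatAgent.CFT.Selmer

open Global GaloisBasic

variable {k : Type} [Field k] {p : ℕ} [hp : Fact p.Prime] [CharP k p]

omit hp [CharP k p] in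
/-- A stable line of square zero matrices gives a stable line of vectors. -/
lemma exists_stable_of_nilpotent (r : MatRep k) {X : M22 k} (hX : X ≠ 0) (hX2 : X * X = 0)
    (h : ∀ g, ∃ c : k, r g * X * r g⁻¹ = c • X) :
    ∃ v : Fin 2 → k, v ≠ 0 ∧ ∀ g, ∃ c : k, (r g).mulVec v = c • v := by
  obtain ⟨w, hw⟩ : ∃ w, X.mulVec w ≠ 0 := by
    by_contra hall
    push Not at hall
    exact hX (Matrix.ext fun i j => by
      have := congrFun (hall (Pi.single j 1)) i
      rwa [Matrix.mulVec_single, MulOpposite.op_one, one_smul] at this)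
  have hXv : X.mulVec (X.mulVec w) = 0 := by rw [Matrix.mulVec_mulVec, hX2, Matrix.zero_mulVec]
  refine ⟨X.mulVec w, hw, fun g => ?_⟩
  have hind : LinearIndependent k ![X.mulVec w, w] := by
    rw [LinearIndependent.pair_iff]
    intro a b hab
    have h2 : b • X.mulVec w = 0 := by
      have := congrArg X.mulVec hab
      rwa [Matrix.mulVec_add, Matrix.mulVec_smul, Matrix.mulVec_smul, hXv, smul_zero, zero_add,
        Matrix.mulVec_zero] at this
    have hb := (smul_eq_zero.mp h2).resolve_right hw
    rw [hb, zero_smul, add_zero, smul_eq_zero] at hab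
    exact ⟨hab.resolve_right hw, hb⟩
  have hspan : Submodule.span k (Set.range ![X.mulVec w, w]) = ⊤ :=
    Submodule.eq_top_of_finrank_eq (by rw [finrank_span_eq_card hind, Module.finrank_fin_fun]; rfl)
  obtain ⟨c, hc⟩ := h g
  have e : r g * X = c • X * r g := by
    rw [← hc, mul_assoc, rep_inv_mul, mul_one]
  obtain ⟨a, b, hab⟩ : ∃ a b : k, a • X.mulVec w + b • w = (r g).mulVec w := by
    have := hspan.ge (Submodule.mem_top : (r g).mulVec w ∈ ⊤)
    rwa [Matrix.range_cons_cons_empty, Submodule.mem_span_pair] at this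
  refine ⟨c * b, ?_⟩
  rw [Matrix.mulVec_mulVec, e, smul_mul_assoc, Matrix.smul_mulVec, ← Matrix.mulVec_mulVec, ← hab,
    Matrix.mulVec_add, Matrix.mulVec_smul, Matrix.mulVec_smul, hXv, smul_zero, zero_add, smul_smul]

omit hp [CharP k p] in
/-- A semisimple stable line of trace free matrices gives a subgroup of index two commuting with
it. -/
lemma exists_index_two (r : MatRep k) {X : M22 k} (hXt : X.trace = 0) (hd : X.det ≠ 0)
    (h2 : (2 : k) ≠ 0) (hspan : Submodule.span k (Set.range r) = ⊤)
    (h : ∀ g, ∃ c : k, r g * X * r g⁻¹ = c • X) :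
    ∃ G : Subgroup GQ, G.index = 2 ∧ ∀ g ∈ G, r g * X = X * r g := by
  have hX : X ≠ 0 := fun h0 => hd (by rw [h0]; simp)
  choose c hc using h
  have hsq : ∀ g, c g = 1 ∨ c g = -1 := fun g => by
    have := congrArg Matrix.det (hc g)
    rw [Matrix.det_smul, Fintype.card_fin, Matrix.det_mul, Matrix.det_mul, mul_right_comm,
      ← Matrix.det_mul, rep_mul_inv, Matrix.det_one, one_mul] at this
    exact sq_eq_one_iff.mp (mul_right_cancel₀ hd (this.symm.trans (one_mul _).symm))
  have hmul : ∀ a b, c (a * b) = c a * c b := fun a b => by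
    refine smul_left_injective k hX ?_
    show c (a * b) • X = (c a * c b) • X
    rw [← hc, map_mul, mul_inv_rev, map_mul, show r a * r b * X * (r b⁻¹ * r a⁻¹) =
      r a * (r b * X * r b⁻¹) * r a⁻¹ by simp only [mul_assoc], hc, mul_smul_comm, smul_mul_assoc,
      hc, smul_smul, mul_comm]
  have hone : c 1 = 1 := by
    rcases hsq 1 with h | h
    · exact h
    · have := hmul 1 1
      rw [mul_one, h, neg_mul_neg, one_mul] at this
      rw [h]; exact this
  let G : Subgroup GQ :=
    { carrier := {g | c g = 1}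
      one_mem' := hone
      mul_mem' := fun {a b} ha hb => by
        show c (a * b) = 1
        rw [hmul, show c a = 1 from ha, show c b = 1 from hb, one_mul]
      inv_mem' := fun {a} ha => by
        show c a⁻¹ = 1
        have := hmul a a⁻¹
        rw [mul_inv_cancel, hone, show c a = 1 from ha, one_mul] at this
        exact this.symm }
  have hcomm : ∀ g ∈ G, r g * X = X * r g := fun g hg => by
    have := hc g
    rw [show c g = 1 from hg, one_smul] at this
    conv_rhs => rw [← this, mul_assoc, rep_inv_mul, mul_one]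
  obtain ⟨a, ha⟩ : ∃ a, c a = -1 := by
    by_contra hno
    push Not at hno
    have hall : ∀ A ∈ Submodule.span k (Set.range r), A * X = X * A := by
      intro A hA
      induction hA using Submodule.span_induction with
      | mem x hx =>
        obtain ⟨g, rfl⟩ := hx
        exact hcomm g ((hsq g).resolve_right (hno g))
      | zero => simp
      | add x y _ _ hx hy => rw [add_mul, mul_add, hx, hy]
      | smul t x _ hx => rw [smul_mul_assoc, mul_smul_comm, hx]
    have e := hall (Matrix.single 1 0 1) (hspan ▸ Submodule.mem_top)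
    have e' := hall (Matrix.single 0 1 1) (hspan ▸ Submodule.mem_top)
    have h01 := congrFun (congrFun e 0) 0
    have h10 := congrFun (congrFun e' 0) 0
    have h00 := congrFun (congrFun e' 0) 1
    simp [Matrix.mul_apply, Fin.sum_univ_two] at h01 h10 h00
    rw [Matrix.trace_fin_two, h00, ← two_mul, mul_eq_zero, or_iff_right h2] at hXt
    rw [Matrix.det_fin_two, h00, hXt, ← h01] at hd
    exact hd (by ring)
  refine ⟨G, Subgroup.index_eq_two_iff.mpr ⟨a, fun b => ?_⟩, hcomm⟩
  show Xor (c (b * a) = 1) (c b = 1)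
  have hne : (-1 : k) ≠ 1 := fun h1 => h2 (by linear_combination -h1)
  rcases hsq b with hb | hb
  · refine Or.inr ⟨hb, ?_⟩
    rw [hmul, hb, ha, one_mul]; exact hne
  · refine Or.inl ⟨by rw [hmul, hb, ha, neg_mul_neg, one_mul], ?_⟩
    rw [hb]; exact hne

/-- The determinant of the residual matrices is the cyclotomic character. -/
lemma det_residualMatrix (ρ : ResidualGaloisRep k)
    (hdet : (GaloisRepAdic.ofResidualGaloisRep ρ).DetIsCyclotomic p) (g : GQ) :
    (residualMatrix ρ g).det = (chiK k p g : k) := by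
  have : NeZero p := ⟨hp.out.ne_zero⟩
  have h := hdet.2 1 g ((chiQ p g : ZMod p)).val fun _ hμ => apply_root_chiQ p g hμ
  rw [pow_one, CharP.cast_eq_zero, Ideal.span_singleton_eq_bot.mpr rfl, Ideal.mem_bot,
    sub_eq_zero] at h
  rw [coe_chiK, ZMod.castHom_apply, ← ZMod.natCast_val, ← h]
  exact LinearMap.det_toMatrix (Module.finBasisOfFinrankEq k ρ.V ρ.finrank_eq) (ρ.ρ g)

omit hp [CharP k p] in
/-- A finite level on which the residual matrices are trivial. -/
lemma exists_residualMatrix_level (ρ : ResidualGaloisRep k) :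
    ∃ L : IntermediateField ℚ Qbar, FiniteDimensional ℚ L ∧
      ∀ σ ∈ L.fixingSubgroup, residualMatrix ρ σ = 1 := by
  obtain ⟨L, hL, hLr⟩ := ρ.factorsThroughFiniteLevel
  refine ⟨L, hL, fun σ hσ => ?_⟩
  show LinearMap.toMatrixAlgEquiv _ (ρ.ρ σ) = 1
  rw [hLr σ fun x hx => (IntermediateField.mem_fixingSubgroup_iff _ σ).mp hσ x hx, map_one]

/-- **The residual hypotheses.** -/
theorem resDatum_of (hp2 : p ≠ 2) (ρ : ResidualGaloisRep k) (habs : ρ.IsAbsolutelyIrreducible)
    (hdet : (GaloisRepAdic.ofResidualGaloisRep ρ).DetIsCyclotomic p)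
    (hTW : ∀ (K : Type) [Field K] [Algebra k K] (G : Subgroup GQ), G.index = 2 →
      ∀ V : Submodule K (ρ.baseChange K).V,
        (∀ σ ∈ G, ∀ x ∈ V, (ρ.baseChange K).ρ σ x ∈ V) → V = ⊥ ∨ V = ⊤) :
    ResDatum p (residualMatrix ρ) := by
  have hspan := span_range_eq_top_of_absIrr ρ habs
  have h2 : (2 : k) ≠ 0 := by
    intro h
    have h2 : ((2 : ℕ) : k) = 0 := by exact_mod_cast h
    rw [CharP.cast_eq_zero_iff k p] at h2
    exact hp2 ((Nat.prime_dvd_prime_iff_eq hp.out Nat.prime_two).mp h2)
  set r := residualMatrix ρ with hr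
  let b := Module.finBasisOfFinrankEq k ρ.V ρ.finrank_eq
  have hirr : ∀ v : Fin 2 → k, v ≠ 0 → ∃ g, ∀ c : k, (r g).mulVec v ≠ c • v :=
    fun v hv => FermatAgent.RT.exists_mulVec_ne_smul_of_span hspan hv
  refine ⟨hp2, fun g => det_residualMatrix ρ hdet g, hirr, fun X hXt hX => ?_⟩
  by_contra hno
  push Not at hno
  by_cases hd : X.det = 0
  · obtain ⟨v, hv, hst⟩ := exists_stable_of_nilpotent r hX
      (by rw [mul_self_eq, hXt, hd, zero_smul, zero_smul, sub_zero]) hno
    obtain ⟨g, hg⟩ := hirr v hv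
    obtain ⟨c, hc⟩ := hst g
    exact hg c hc
  obtain ⟨G, hG, hcomm⟩ := exists_index_two r hXt hd h2 hspan hno
  set K := AlgebraicClosure k
  let φ : k →+* K := algebraMap k K
  obtain ⟨μ, hμ⟩ := IsAlgClosed.exists_root (X.map φ).charpoly (by
    rw [Matrix.charpoly_degree_eq_dim]; simp)
  have hdetμ : ((X.map φ) - μ • 1).det = 0 := by
    rw [Polynomial.IsRoot, Matrix.eval_charpoly] at hμ
    rw [show X.map φ - μ • 1 = -(μ • 1 - X.map φ) by rw [neg_sub], Matrix.det_neg,
      Matrix.smul_one_eq_diagonal, ← Matrix.scalar_apply, hμ, mul_zero]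
  obtain ⟨v, hv, hXv⟩ := Matrix.exists_mulVec_eq_zero_iff.mpr hdetμ
  rw [Matrix.sub_mulVec, Matrix.smul_mulVec, Matrix.one_mulVec, sub_eq_zero] at hXv
  have hXK : (X.map φ).trace = 0 := by
    rw [Matrix.trace_fin_two] at hXt ⊢
    simp [← map_add, hXt]
  have hdK : (X.map φ).det ≠ 0 := fun h0 => hd (φ.injective (by
    rw [map_zero, RingHom.map_det]; exact h0))
  have hsq : X.map φ * X.map φ = -(X.map φ).det • 1 := by
    rw [mul_self_eq, hXK, zero_smul, zero_sub, neg_smul]
  have hμ2 : μ * μ = -(X.map φ).det := by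
    refine smul_left_injective K hv ?_
    show (μ * μ) • v = -(X.map φ).det • v
    rw [← smul_smul, ← hXv, ← Matrix.mulVec_smul, ← hXv, Matrix.mulVec_mulVec, hsq,
      Matrix.smul_mulVec, Matrix.one_mulVec]
  have hμ0 : μ ≠ 0 := fun h0 => hdK (by rw [h0, zero_mul, eq_comm, neg_eq_zero] at hμ2; exact hμ2)
  have hline : ∀ w, (X.map φ).mulVec w = μ • w → ∃ t : K, w = t • v := by
    intro w hw
    by_contra hnot
    push Not at hnot
    have hind : LinearIndependent K ![v, w] := by
      rw [LinearIndependent.pair_iff' hv]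
      exact fun c hc => hnot c hc.symm
    have htop : ∀ y : Fin 2 → K, (X.map φ).mulVec y = μ • y := fun y => by
      have hs : Submodule.span K (Set.range ![v, w]) = ⊤ := Submodule.eq_top_of_finrank_eq (by
        rw [finrank_span_eq_card hind, Module.finrank_fin_fun]; rfl)
      have := hs.ge (Submodule.mem_top : y ∈ ⊤)
      rw [Matrix.range_cons_cons_empty, Submodule.mem_span_pair] at this
      obtain ⟨a, b, rfl⟩ := this
      simp only [Matrix.mulVec_add, Matrix.mulVec_smul, hXv, hw, smul_add, smul_comm μ]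
    have e0 := congrFun (htop (Pi.single 0 1)) 0
    have e1 := congrFun (htop (Pi.single 1 1)) 1
    rw [Matrix.trace_fin_two] at hXK
    simp [Matrix.mulVec_single] at e0 e1
    simp [e0, e1] at hXK
    refine hμ0 ((mul_eq_zero.mp (show (2 : K) * μ = 0 by linear_combination hXK)).resolve_left ?_)
    rw [← map_ofNat φ 2]
    exact (map_ne_zero φ).mpr h2
  let bK : Module.Basis (Fin 2) K (ρ.baseChange K).V := Algebra.TensorProduct.basis K b
  have hmat : ∀ σ, LinearMap.toMatrix bK bK ((ρ.baseChange K).ρ σ) = (r σ).map φ := fun σ =>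
    LinearMap.toMatrix_baseChange (A := K) (ρ.ρ σ) b b
  have hact : ∀ σ x, bK.equivFun ((ρ.baseChange K).ρ σ x) = ((r σ).map φ).mulVec (bK.equivFun x) :=
    fun σ x => by
      rw [← hmat]
      exact (LinearMap.toMatrix_mulVec_repr bK bK _ x).symm
  set L : Submodule K (ρ.baseChange K).V := K ∙ bK.equivFun.symm v
  have hst : ∀ σ ∈ G, ∀ x ∈ L, (ρ.baseChange K).ρ σ x ∈ L := by
    intro σ hσ x hx
    rw [Submodule.mem_span_singleton] at hx ⊢
    obtain ⟨t, rfl⟩ := hx
    have hc : X.map φ * (r σ).map φ = (r σ).map φ * X.map φ := by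
      rw [← Matrix.map_mul, ← Matrix.map_mul, hcomm σ hσ]
    obtain ⟨u, hu⟩ := hline (((r σ).map φ).mulVec v) (by
      rw [Matrix.mulVec_mulVec, hc, ← Matrix.mulVec_mulVec, hXv, Matrix.mulVec_smul])
    refine ⟨t * u, bK.equivFun.injective ?_⟩
    rw [hact, map_smul, map_smul, LinearEquiv.apply_symm_apply, Matrix.mulVec_smul, hu, smul_smul]
  rcases hTW K G hG L hst with h | h
  · rw [Submodule.span_singleton_eq_bot, LinearEquiv.map_eq_zero_iff] at h
    exact hv h
  · have := congrArg (fun S : Submodule K (ρ.baseChange K).V => Module.finrank K S) h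
    simp only [finrank_top, (ρ.baseChange K).finrank_eq] at this
    rw [show Module.finrank K L = 1 from finrank_span_singleton (fun h0 => hv
      (LinearEquiv.map_eq_zero_iff _ |>.mp h0))] at this
    omega

end FermatAgent.CFT.Selmer
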