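import Fermat.Agent.RT.Cond.Tangent
import Fermat.Agent.RT.Eval
import Fermat.Agent.GaloisBasic.PowerSeriesComplete
import Fermat.Agent.GaloisBasic.Universal
import Fermat.Agent.GaloisBasic.ResidualMatrix
import Fermat.Prelude.Def_GaloisRep_DeformationRingData

/-!
A universal deformation ring is a quotient of a power series ring in as many variables as the
dimension of its space of tangent cocycles.
-/

set_option autoImplicit false

noncomputable section

open IsLocalRing GaloisRep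

namespace FermatAgent.CFT.Selmer

open GaloisBasic RT

variable {𝒪 : Type} [CommRing 𝒪]

attribute [local instance] dualAlgebra

section Generation

variable [IsLocalRing 𝒪] {R : Type} [CommRing R] [IsLocalRing R] [IsNoetherianRing R]
  [Algebra 𝒪 R] [IsLocalHom (algebraMap 𝒪 R)] [IsAdicComplete (maximalIdeal R) R]

/-- Generators of the relative cotangent space give a surjection from power series. -/
theorem exists_surjective_of_finrank_relCot [IsAdicComplete (maximalIdeal 𝒪) 𝒪] {ϖ : 𝒪}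
    (hϖ : maximalIdeal 𝒪 = Ideal.span {ϖ})
    (hs : Function.Surjective (residue R ∘ algebraMap 𝒪 R)) {m : ℕ}
    (hm : Module.finrank (ResidueField R) (RelCot R (algebraMap 𝒪 R ϖ)) ≤ m) :
    ∃ γ : MvPowerSeries (Fin m) 𝒪 →ₐ[𝒪] R, Function.Surjective γ := by
  classical
  have hϖR : algebraMap 𝒪 R ϖ ∈ maximalIdeal R :=
    map_nonunit (algebraMap 𝒪 R) ϖ (hϖ ▸ Ideal.subset_span rfl)
  let b := Module.finBasis (ResidueField R) (RelCot R (algebraMap 𝒪 R ϖ))
  have hx : ∀ j : Fin m, ∃ x ∈ maximalIdeal R, ∀ hj : j.1 < Module.finrank (ResidueField R)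
      (RelCot R (algebraMap 𝒪 R ϖ)), cotClass (algebraMap 𝒪 R ϖ) x = b ⟨j, hj⟩ := fun j => by
    by_cases hj : j.1 < Module.finrank (ResidueField R) (RelCot R (algebraMap 𝒪 R ϖ))
    · obtain ⟨x, hx, hxe⟩ := cotClass_surjective _ (b ⟨j, hj⟩)
      exact ⟨x, hx, fun _ => hxe⟩
    · exact ⟨0, Ideal.zero_mem _, fun h => absurd h hj⟩
  choose z hz hzb using hx
  refine ⟨evalAdic _ z hz, evalAdic_surjective hϖ hϖR hs hz fun f hf => ?_⟩
  have hle : Ideal.span (Set.range z) ≤ maximalIdeal R :=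
    Ideal.span_le.mpr (Set.range_subset_iff.mpr hz)
  have hspan : ∀ y : RelCot R (algebraMap 𝒪 R ϖ),
      ∃ f ∈ Ideal.span (Set.range z), cotClass _ f = y := by
    intro y
    have hy : y ∈ Submodule.span (ResidueField R) (Set.range b) := b.span_eq ▸ Submodule.mem_top
    induction hy using Submodule.span_induction with
    | mem y hy =>
      obtain ⟨j, rfl⟩ := hy
      exact ⟨_, Ideal.subset_span ⟨⟨j, j.2.trans_le hm⟩, rfl⟩, hzb _ j.2⟩
    | zero => exact ⟨0, Ideal.zero_mem _, cotClass_zero _⟩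
    | add a c _ _ ha hc =>
      obtain ⟨f, hf, rfl⟩ := ha; obtain ⟨f', hf', rfl⟩ := hc
      exact ⟨f + f', add_mem hf hf', cotClass_add _ (hle hf) (hle hf')⟩
    | smul c a _ ha =>
      obtain ⟨f, hf, rfl⟩ := ha
      obtain ⟨a', rfl⟩ := residue_surjective c
      exact ⟨a' * f, Ideal.mul_mem_left _ _ hf, cotClass_mul _ _ (hle hf)⟩
  obtain ⟨f', hf', he⟩ := hspan (cotClass _ f)
  obtain ⟨a, ha⟩ := exists_sub_mem_sq_of_cotClass_eq_zero _ hϖR (sub_mem hf (hle hf'))
    (by rw [cotClass_sub _ hf (hle hf'), he, sub_self])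
  rw [show f = (f' + a * algebraMap 𝒪 R ϖ) + (f - f' - a * algebraMap 𝒪 R ϖ) by ring]
  exact Submodule.add_mem_sup
    (Submodule.add_mem_sup hf' (Ideal.mul_mem_left _ a (Ideal.subset_span rfl))) ha

end Generation

/-- Cocycles giving deformations of the given type to dual numbers. -/
structure IsTanVec [IsLocalRing 𝒪]
    (𝒟 : ∀ ⦃A : Type⦄ [CommRing A] [IsLocalRing A] [Algebra 𝒪 A], GaloisRepAdic A → Prop)
    (rbar : MatRep (ResidueField 𝒪)) (c : GQ → Matrix (Fin 2) (Fin 2) (ResidueField 𝒪)) : Prop where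
  coc : ∀ g h, c (g * h) = c g + rbar g * c h * rbar g⁻¹
  cont : ∃ L : IntermediateField ℚ Qbar, FiniteDimensional ℚ L ∧ ∀ σ ∈ L.fixingSubgroup, c σ = 0
  lift : ∃ (N : MatRep (DualNumber (ResidueField 𝒪)))
    (hN : MatContinuous (DualNumber (ResidueField 𝒪)) N),
      (∀ g i j, N g i j = TrivSqZeroExt.inl (rbar g i j) + TrivSqZeroExt.inr ((c g * rbar g) i j)) ∧
        𝒟 (toRep N hN)

/-- Conjugates of continuous representations are continuous. -/
lemma matContinuous_conj {A : Type} [CommRing A] [IsLocalRing A] {M M' : MatRep A}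
    (h : MatContinuous A M) (hc : MatConj M M') : MatContinuous A M' := by
  obtain ⟨U, hU⟩ := hc
  intro n
  obtain ⟨L, hL, hM⟩ := h n
  refine ⟨L, hL, fun σ hσ i j => ?_⟩
  have e : M' σ - 1 = U.1 * (M σ - 1) * (U⁻¹).1 := by
    rw [mul_sub, sub_mul, mul_one, U.mul_inv, hU]
  have e' : M' σ i j - (1 : Matrix (Fin 2) (Fin 2) A) i j =
      (U.1 * (M σ - 1) * (U⁻¹).1) i j := by rw [← e, Matrix.sub_apply]
  rw [e', Matrix.mul_apply]
  refine Ideal.sum_mem _ fun a _ => Ideal.mul_mem_right _ _ ?_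
  rw [Matrix.mul_apply]
  refine Ideal.sum_mem _ fun b _ => Ideal.mul_mem_left _ _ ?_
  exact hM σ hσ b a

variable [IsDomain 𝒪] [IsDiscreteValuationRing 𝒪] [IsAdicComplete (maximalIdeal 𝒪) 𝒪]
  [Finite (ResidueField 𝒪)]

omit [IsAdicComplete (maximalIdeal 𝒪) 𝒪] [Finite (ResidueField 𝒪)] in
lemma residue_dual (x : DualNumber (ResidueField 𝒪)) :
    residue (DualNumber (ResidueField 𝒪)) x = iotaRes (DualNumber (ResidueField 𝒪)) x.fst := by
  obtain ⟨o, ho⟩ := residue_surjective x.fst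
  rw [← ho, iotaRes, ResidueField.map_residue, ← sub_eq_zero, ← map_sub, residue_eq_zero_iff,
    mem_maximalIdeal, mem_nonunits_iff, TrivSqZeroExt.isUnit_iff_isUnit_fst]
  simp [dual_algebraMap, ho]

variable {ρbar : ResidualGaloisRep (ResidueField 𝒪)}
  {𝒟 : ∀ ⦃A : Type⦄ [CommRing A] [IsLocalRing A] [Algebra 𝒪 A], GaloisRepAdic A → Prop}

/-- An invertible residual matrix lifts to an invertible matrix. -/
private lemma exists_unit_lift {R : Type} [CommRing R] [IsLocalRing R]
    (U : (Matrix (Fin 2) (Fin 2) (ResidueField R))ˣ) :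
    ∃ W : (Matrix (Fin 2) (Fin 2) R)ˣ, (residue R).mapMatrix W.1 = U.1 ∧
      (residue R).mapMatrix (W⁻¹).1 = (U⁻¹).1 := by
  have hsurj := residue_surjective (R := R)
  let W₀ : Matrix (Fin 2) (Fin 2) R := fun i j => Function.surjInv hsurj (U.1 i j)
  have hW₀ : (residue R).mapMatrix W₀ = U.1 := by
    ext i j; exact Function.surjInv_eq hsurj _
  have hu : IsUnit W₀ := by
    rw [Matrix.isUnit_iff_isUnit_det, ← residue_ne_zero_iff_isUnit, RingHom.map_det, hW₀]
    exact (Matrix.isUnit_iff_isUnit_det _).mp U.isUnit |>.ne_zero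
  refine ⟨hu.unit, hW₀, (U.inv_eq_of_mul_eq_one_right ?_).symm⟩
  conv_lhs => rw [← hW₀, ← map_mul]
  exact (congrArg _ hu.unit.mul_inv).trans (map_one _)

omit [Finite (ResidueField 𝒪)] in
/-- Matrices of the universal deformation with the given residual matrices. -/
private lemma exists_matRep_univ (DQ : DeformationRingData 𝒪 ρbar 𝒟) :
    ∃ (M : MatRep DQ.R) (hMc : MatContinuous DQ.R M), DQ.ρ.IsEquiv (toRep M hMc) ∧
      ∀ g, (M g).map (resK DQ.residue_surjective) = residualMatrix ρbar g := by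
  let b := Module.finBasisOfFinrankEq DQ.R DQ.ρ.V DQ.ρ.finrank_eq
  set M₀ := matrixIn DQ.ρ b
  obtain ⟨U, hU⟩ := (residual_isEquiv_baseChangeAlong_iff DQ.ρ b (iotaRes DQ.R) ρbar).mp
    DQ.residual_isEquiv
  obtain ⟨W, hW, hW'⟩ := exists_unit_lift U
  let M : MatRep DQ.R :=
    { toFun := fun g => W.1 * M₀ g * (W⁻¹).1
      map_one' := by rw [map_one, mul_one, W.mul_inv]
      map_mul' := fun g h => by
        rw [map_mul]
        simp only [mul_assoc]
        rw [← mul_assoc (W⁻¹).1, W.inv_mul, one_mul] }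
  have hMM₀ : MatConj M₀ M := ⟨W, fun σ => rfl⟩
  refine ⟨M, matContinuous_conj (matContinuous_matrixIn DQ.ρ b) hMM₀, ?_, fun g => ?_⟩
  · obtain ⟨e⟩ := isEquiv_toRep_matrixIn DQ.ρ b
    obtain ⟨e'⟩ := isEquiv_toRep_of_matConj (matContinuous_matrixIn DQ.ρ b)
      (matContinuous_conj (matContinuous_matrixIn DQ.ρ b) hMM₀) hMM₀
    exact ⟨e.trans e'⟩
  · have h1 : (residue DQ.R).mapMatrix (M g) =
        (iotaRes DQ.R).mapMatrix (residualMatrix ρbar g) := by
      show (residue DQ.R).mapMatrix (W.1 * M₀ g * (W⁻¹).1) = _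
      rw [map_mul, map_mul, hW, hW']
      exact (hU g).symm
    ext i j
    refine (iotaRes (𝒪 := 𝒪) DQ.R).injective ?_
    rw [Matrix.map_apply, iotaRes_resK]
    exact congrFun (congrFun h1 i) j

omit [IsAdicComplete (maximalIdeal 𝒪) 𝒪] in
/-- A continuous deformation to dual numbers has a continuous class. -/
private lemma exists_level_of_entries {N : MatRep (DualNumber (ResidueField 𝒪))}
    (hN : MatContinuous (DualNumber (ResidueField 𝒪)) N) {r : MatRep (ResidueField 𝒪)}
    {c : GQ → Matrix (Fin 2) (Fin 2) (ResidueField 𝒪)}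
    (hent : ∀ g i j, N g i j =
      TrivSqZeroExt.inl (r g i j) + TrivSqZeroExt.inr ((c g * r g) i j)) :
    ∃ L : IntermediateField ℚ Qbar,
      FiniteDimensional ℚ L ∧ ∀ σ ∈ L.fixingSubgroup, c σ = 0 := by
  obtain ⟨L, hL, hM⟩ := hN 2
  refine ⟨L, hL, fun σ hσ => ?_⟩
  have := (dual_test (𝒪 := 𝒪)).isArtinian
  have hbot : maximalIdeal (DualNumber (ResidueField 𝒪)) ^ 2 = ⊥ := by
    rw [pow_two, eq_bot_iff, Ideal.mul_le]
    intro x hx y hy
    rw [mem_maximalIdeal, mem_nonunits_iff, TrivSqZeroExt.isUnit_iff_isUnit_fst,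
      isUnit_iff_ne_zero, not_not] at hx hy
    rw [Ideal.mem_bot]
    exact TrivSqZeroExt.ext (by simp [hx]) (by simp [hx, hy])
  have h1 : ∀ i j, N σ i j = (1 : Matrix (Fin 2) (Fin 2) _) i j := fun i j => by
    have := hM σ hσ i j
    rwa [hbot, Ideal.mem_bot, sub_eq_zero] at this
  have hr : r σ = 1 := by
    ext i j
    have := congrArg TrivSqZeroExt.fst (h1 i j)
    rw [hent, TrivSqZeroExt.fst_add, TrivSqZeroExt.fst_inl, TrivSqZeroExt.fst_inr, add_zero,
      Matrix.one_apply, apply_ite TrivSqZeroExt.fst, TrivSqZeroExt.fst_one,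
      TrivSqZeroExt.fst_zero] at this
    rw [this, Matrix.one_apply]
  ext i j
  have := congrArg TrivSqZeroExt.snd (h1 i j)
  rw [hent, hr, mul_one, TrivSqZeroExt.snd_add, TrivSqZeroExt.snd_inl, TrivSqZeroExt.snd_inr,
    zero_add, Matrix.one_apply (i := i) (j := j), apply_ite TrivSqZeroExt.snd,
    TrivSqZeroExt.snd_one, TrivSqZeroExt.snd_zero, ite_self] at this
  exact this

section Tangent

variable {R : Type} [CommRing R] [IsLocalRing R] [Algebra 𝒪 R] [IsLocalHom (algebraMap 𝒪 R)]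
  {hs : Function.Surjective (residue R ∘ algebraMap 𝒪 R)} {ϖ : 𝒪}
  (hϖ : maximalIdeal 𝒪 = Ideal.span {ϖ})
  (f : Module.Dual (ResidueField R) (RelCot R (algebraMap 𝒪 R ϖ)))

omit [IsAdicComplete (maximalIdeal 𝒪) 𝒪] [Finite (ResidueField 𝒪)]

/-- The map to dual numbers of a tangent vector is local. -/
private lemma isLocalHom_tanHom :
    IsLocalHom (tanHom hs hϖ f : R →+* DualNumber (ResidueField 𝒪)) := by
  refine ((IsLocalRing.local_hom_TFAE (tanHom hs hϖ f : R →+* _)).out 1 0).mp ?_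
  rintro _ ⟨x, hx, rfl⟩
  show _ ∈ maximalIdeal _
  rw [mem_maximalIdeal, mem_nonunits_iff, TrivSqZeroExt.isUnit_iff_isUnit_fst]
  rw [RingHom.coe_coe, fst_tanHom, (resK_eq_zero_iff hs x).mpr hx]
  exact not_isUnit_zero

end Tangent

omit [IsAdicComplete (maximalIdeal 𝒪) 𝒪] [Finite (ResidueField 𝒪)] in
/-- A deformation to dual numbers of the given residual matrices has the given residual
representation. -/
private lemma residual_isEquiv_of_entries {N : MatRep (DualNumber (ResidueField 𝒪))}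
    (hN : MatContinuous (DualNumber (ResidueField 𝒪)) N)
    {c : GQ → Matrix (Fin 2) (Fin 2) (ResidueField 𝒪)}
    (hent : ∀ g i j, N g i j = TrivSqZeroExt.inl (residualMatrix ρbar g i j) +
      TrivSqZeroExt.inr ((c g * residualMatrix ρbar g) i j)) :
    (toRep N hN).residual.IsEquiv
      (ρbar.baseChangeAlong (iotaRes (DualNumber (ResidueField 𝒪)))) := by
  rw [residual_isEquiv_baseChangeAlong_iff _ (Pi.basisFun _ (Fin 2)), matrixIn_toRep]
  refine ⟨1, fun σ => ?_⟩
  rw [inv_one, Units.val_one, one_mul, mul_one]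
  ext i j
  rw [mapRep_apply, mapRep_apply, Matrix.map_apply, Matrix.map_apply, residue_dual, hent]
  simp

/-- **Tangent cocycles bound the number of generators.** -/
theorem exists_surjective_of_bound (DQ : DeformationRingData 𝒪 ρbar 𝒟) (m : ℕ)
    (hpush : ∀ (N : MatRep (DualNumber (ResidueField 𝒪)))
      (hN : MatContinuous (DualNumber (ResidueField 𝒪)) N)
      (φ : DQ.R →ₐ[𝒪] DualNumber (ResidueField 𝒪))
      (hφ : IsLocalHom (φ : DQ.R →+* DualNumber (ResidueField 𝒪))),
      (DQ.ρ.baseChangeAlong (φ : DQ.R →+* DualNumber (ResidueField 𝒪)) hφ).IsEquiv (toRep N hN) →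
        𝒟 (toRep N hN))
    (hbound : ∀ (V : Submodule (ResidueField 𝒪)
        (GQ → Matrix (Fin 2) (Fin 2) (ResidueField 𝒪))) [Module.Finite (ResidueField 𝒪) V],
      (∀ c ∈ V, IsTanVec 𝒟 (residualMatrix ρbar) c) →
      (∀ c ∈ V, (∃ e, ∀ g, c g = residualMatrix ρbar g * e * residualMatrix ρbar g⁻¹ - e) →
        c = 0) →
      Module.finrank (ResidueField 𝒪) V ≤ m) :
    ∃ γ : MvPowerSeries (Fin m) 𝒪 →ₐ[𝒪] DQ.R, Function.Surjective γ := by
  classical
  obtain ⟨ϖ, hirr⟩ := IsDiscreteValuationRing.exists_irreducible 𝒪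
  have hϖ := (IsDiscreteValuationRing.irreducible_iff_uniformizer ϖ).mp hirr
  have hs : Function.Surjective (residue DQ.R ∘ algebraMap 𝒪 DQ.R) := DQ.residue_surjective
  refine exists_surjective_of_finrank_relCot hϖ hs ?_
  set rbar := residualMatrix ρbar
  obtain ⟨M, hMc, ⟨e₁⟩, hres⟩ := exists_matRep_univ DQ
  -- the lifts
  let T := Module.Dual (ResidueField DQ.R) (RelCot DQ.R (algebraMap 𝒪 DQ.R ϖ))
  let N : T → MatRep (DualNumber (ResidueField 𝒪)) := fun f =>
    mapRep (tanHom hs hϖ f : DQ.R →+* DualNumber (ResidueField 𝒪)) M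
  have hloc := fun f : T => isLocalHom_tanHom (hs := hs) hϖ f
  have hNc : ∀ f, MatContinuous (DualNumber (ResidueField 𝒪)) (N f) := fun f =>
    haveI := hloc f; hMc.map _
  let c : T → GQ → Matrix (Fin 2) (Fin 2) (ResidueField 𝒪) := fun f => tanCocycle hs f M
  have hN := fun f : T => mapRep_tanHom_apply (hs := hs) hϖ f hres
  have hequiv : ∀ f, (DQ.ρ.baseChangeAlong
      (tanHom hs hϖ f : DQ.R →+* DualNumber (ResidueField 𝒪)) (hloc f)).IsEquiv
        (toRep (N f) (hNc f)) := fun f => by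
    obtain ⟨e⟩ := baseChangeAlong_toRep (tanHom hs hϖ f : DQ.R →+* DualNumber (ResidueField 𝒪))
      (hloc f) M hMc
    exact ⟨(GaloisRepAdic.Equiv.baseChangeAlong _ (hloc f) e₁).trans e⟩
  have h𝒟 : ∀ f, 𝒟 (toRep (N f) (hNc f)) := fun f => hpush _ _ _ _ (hequiv f)
  have hc0 : c 0 = 0 := tanCocycle_zero hs M
  -- the universal property
  have hzero : ∀ f : T, (∃ e, ∀ g, c f g = rbar g * e * rbar g⁻¹ - e) → f = 0 := by
    rintro f ⟨e, he⟩
    have := (dual_test (𝒪 := 𝒪)).isArtinian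
    have hconj : MatConj (N 0) (N f) := matConj_of_coboundary (r := rbar)
      (fun g i j => (hN 0 g i j).trans (by
        rw [show tanCocycle hs (0 : T) M g = 0 from congrFun hc0 g]
        simp [rbar])) (hN f) he
    obtain ⟨φ, -, hu⟩ := DQ.universal (DualNumber (ResidueField 𝒪))
      (dual_test (𝒪 := 𝒪)).residue_surjective (toRep (N f) (hNc f)) (h𝒟 f)
      (residual_isEquiv_of_entries (hNc f) (hN f))
    have h1 := hu _ ⟨hloc f, hequiv f⟩
    obtain ⟨e₀⟩ := hequiv 0
    obtain ⟨e₂⟩ := isEquiv_toRep_of_matConj (hNc 0) (hNc f) hconj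
    have h2 := hu _ ⟨hloc 0, ⟨e₀.trans e₂⟩⟩
    refine eq_zero_of_tanDer hs hϖ f fun x _ => ?_
    rw [← snd_tanHom hs hϖ f x, h1, ← h2, snd_tanHom]
    simp [tanDer]
  -- the space
  let Vs : Submodule (ResidueField 𝒪) (GQ → Matrix (Fin 2) (Fin 2) (ResidueField 𝒪)) :=
    { carrier := Set.range c
      zero_mem' := ⟨0, hc0⟩
      add_mem' := fun {x y} ⟨f, hf⟩ ⟨f', hf'⟩ => ⟨f + f', by
        rw [← hf, ← hf']; exact tanCocycle_functional_add hs f f' M⟩
      smul_mem' := fun a x ⟨f, hf⟩ => ⟨iotaRes DQ.R a • f, by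
        rw [← hf]; exact (tanCocycle_smul hs f _ M).trans (by rw [toBaseRes_iotaRes])⟩ }
  have : Finite (ResidueField DQ.R) :=
    Finite.of_surjective _ (iotaRes_bijective (𝒪 := 𝒪) hs).surjective
  have : Finite T := Module.finite_of_finite (ResidueField DQ.R)
  have : Finite Vs := Finite.of_surjective (fun f : T => (⟨c f, f, rfl⟩ : Vs))
    fun ⟨x, f, hf⟩ => ⟨f, Subtype.ext hf⟩
  have : Module.Finite (ResidueField 𝒪) Vs := Module.Finite.of_finite
  have hinj : Function.Injective fun f : T => (⟨c f, f, rfl⟩ : Vs) := fun f f' h => by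
    refine sub_eq_zero.mp (hzero _ ⟨0, fun g => ?_⟩)
    rw [mul_zero, zero_mul, sub_zero]
    have h' : c f = c f' := congrArg Subtype.val h
    have h3 : c (f - f') + c f' = c f := by
      rw [← show c (f - f' + f') = c (f - f') + c f' from tanCocycle_functional_add hs _ _ M,
        sub_add_cancel]
    rw [h'] at h3
    exact congrFun (add_eq_right.mp h3) g
  have hV : Module.finrank (ResidueField 𝒪) Vs ≤ m := by
    refine hbound Vs ?_ ?_
    · rintro _ ⟨f, rfl⟩
      refine ⟨fun g h => ?_, exists_level_of_entries (hNc f) (hN f), N f, hNc f, hN f, h𝒟 f⟩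
      have h0 := tanCocycle_mul hs hϖ f M g h
      rwa [hres, hres] at h0
    · rintro _ ⟨f, rfl⟩ he
      rw [hzero f he, hc0]
  have hcard := Nat.card_le_card_of_injective _ hinj
  rw [Module.natCard_eq_pow_finrank (K := ResidueField DQ.R) (V := T),
    Module.natCard_eq_pow_finrank (K := ResidueField 𝒪) (V := Vs),
    ← Nat.card_congr (Equiv.ofBijective _ (iotaRes_bijective (𝒪 := 𝒪) hs)),
    Subspace.dual_finrank_eq] at hcard
  exact ((Nat.pow_le_pow_iff_right Finite.one_lt_card).mp hcard).trans hV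

end FermatAgent.CFT.Selmer
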