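import Fermat.Agent.CFT.Selmer.Unipotent
import Fermat.Agent.CFT.Selmer.Tangent
import Fermat.Agent.CFT.Selmer.Push
import Fermat.Agent.CFT.Selmer.Residual

/-!
Auxiliary primes for which universal rings are quotients of power series in as many variables as
primes, given the bound on the local classes at the residue characteristic.
-/

set_option autoImplicit false

noncomputable section

open IsLocalRing GaloisRep Polynomial
open scoped Classical

namespace FermatAgent.CFT.Selmer

open Coh Euler Pairing Global Local LocalEuler GaloisBasic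

variable {𝒪 : Type} [CommRing 𝒪]

attribute [local instance] dualAlgebra

section Entries

variable {k : Type} [Field k] {r : MatRep k} {c : GQ → M22 k} {N : MatRep (DualNumber k)}
  (hN : ∀ g i j, N g i j = TrivSqZeroExt.inl (r g i j) + TrivSqZeroExt.inr ((c g * r g) i j))
include hN

/-- The derivative of the trace of a deformation. -/
lemma trace_entries (g : GQ) {t : k} (h : (N g).trace = TrivSqZeroExt.inl t) :
    (r g).trace = t ∧ (c g * r g).trace = 0 := by
  rw [Matrix.trace_fin_two, hN, hN] at h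
  constructor
  · have h1 := congrArg TrivSqZeroExt.fst h
    rw [Matrix.trace_fin_two]
    simpa using h1
  · have h1 := congrArg TrivSqZeroExt.snd h
    rw [Matrix.trace_fin_two]
    simpa using h1

/-- The derivative of the determinant of a deformation. -/
lemma trace_eq_zero_of_det (g : GQ) {t : k} (h : (N g).det = TrivSqZeroExt.inl t) :
    (c g).trace = 0 := by
  have h1 := congrArg TrivSqZeroExt.snd h
  rw [Matrix.det_fin_two, hN, hN, hN, hN] at h1
  simp [Matrix.mul_apply, Fin.sum_univ_two] at h1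
  have hd : (r g).det ≠ 0 := by
    have := congrArg Matrix.det (rep_mul_inv r g)
    rw [Matrix.det_mul, Matrix.det_one] at this
    exact left_ne_zero_of_mul_eq_one this
  refine (mul_eq_zero.mp (show (r g).det * (c g).trace = 0 from ?_)).resolve_left hd
  rw [Matrix.det_fin_two, Matrix.trace_fin_two]
  linear_combination h1

/-- Where the deformation is trivial the cocycle vanishes. -/
lemma eq_zero_of_entries (g : GQ) (h : N g = 1) : c g = 0 := by
  have h1 : ∀ i j, r g i j = (1 : M22 k) i j ∧ (c g * r g) i j = 0 := fun i j => by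
    have e := congrFun (congrFun h i) j
    rw [hN, Matrix.one_apply] at e
    rw [Matrix.one_apply]
    refine ⟨?_, ?_⟩
    · have := congrArg TrivSqZeroExt.fst e
      split_ifs at this ⊢ <;> simpa using this
    · have := congrArg TrivSqZeroExt.snd e
      split_ifs at this <;> simpa using this
  have hr : r g = 1 := Matrix.ext fun i j => (h1 i j).1
  rw [← mul_one (c g), ← hr]
  exact Matrix.ext fun i j => (h1 i j).2

/-- A unipotent value of a deformation: the trace and its derivative. -/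
private lemma trace_entries_of_charpoly (τ : GQ) (h : (N τ).charpoly = (X - 1) ^ 2) :
    (r τ).trace = 2 ∧ (c τ * r τ).trace = 0 := by
  refine trace_entries hN τ ?_
  rw [Matrix.charpoly_fin_two] at h
  have e1 := congrArg (fun f => Polynomial.coeff f 1) h
  simp [Polynomial.coeff_X, Polynomial.coeff_one, pow_two, sub_mul, mul_sub] at e1
  refine TrivSqZeroExt.ext ?_ ?_
  · have := congrArg TrivSqZeroExt.fst e1
    simp at this ⊢
    linear_combination -this
  · have := congrArg TrivSqZeroExt.snd e1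
    simp at this ⊢
    exact this

end Entries

section Lifts

variable {k : Type} [Field k] {r : MatRep k} {c : GQ → M22 k} {N : MatRep (DualNumber k)}
  {hN : MatContinuous (DualNumber k) N}
  (hent : ∀ g i j, N g i j = TrivSqZeroExt.inl (r g i j) + TrivSqZeroExt.inr ((c g * r g) i j))
include hent

/-- Where the deformation is unramified the cocycle vanishes. -/
private lemma eq_zero_of_unramified {q : ℕ} (h : (toRep N hN).IsUnramifiedAt q)
    {A : ValuationSubring Qbar} (hA : A.LiesOverPrime q) {τ : GQ}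
    (hτ : τ ∈ A.inertiaSubgroupIn ℚ) : c τ = 0 :=
  eq_zero_of_entries hent τ (Matrix.toLinAlgEquiv'.injective (by rw [map_one]; exact h A hA τ hτ))

/-- Where the deformation is unipotent on inertia the traces are those of unipotent matrices. -/
private lemma trace_entries_of_unipotent {q : ℕ} (h : (toRep N hN).IsUnipotentOnInertiaAt q)
    {A : ValuationSubring Qbar} (hA : A.LiesOverPrime q) {τ : GQ}
    (hτ : τ ∈ A.inertiaSubgroupIn ℚ) : (r τ).trace = 2 ∧ (c τ * r τ).trace = 0 := by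
  have h' := h A hA τ hτ
  rw [show LinearMap.charpoly ((toRep N hN).ρ τ) = (N τ).charpoly from
    (LinearMap.charpoly_toMatrix _ (Pi.basisFun _ (Fin 2))).symm.trans
      (congrArg Matrix.charpoly (LinearMap.toMatrix'_toLin' (N τ)))] at h'
  exact trace_entries_of_charpoly hent τ h'

end Lifts

section Local

variable {k : Type} [Field k] {p : ℕ} [hp : Fact p.Prime] [CharP k p]

omit hp in
/-- The prime vanishes in the dual numbers. -/
lemma natCast_pow_one_dual : ((p ^ 1 : ℕ) : DualNumber k) = 0 := by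
  rw [pow_one]
  refine TrivSqZeroExt.ext ?_ ?_ <;> simp [TrivSqZeroExt.fst_natCast, TrivSqZeroExt.snd_natCast]

/-- The cocycle of a deformation with cyclotomic determinant has trace zero. -/
private lemma trace_eq_zero_of_detIsCyclotomic {r : MatRep k} {c : GQ → M22 k}
    {N : MatRep (DualNumber k)} (hN : MatContinuous (DualNumber k) N)
    (hent : ∀ g i j, N g i j = TrivSqZeroExt.inl (r g i j) + TrivSqZeroExt.inr ((c g * r g) i j))
    (hd : (toRep N hN).DetIsCyclotomic p) (g : GQ) : (c g).trace = 0 := by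
  have : NeZero p := ⟨hp.out.ne_zero⟩
  set a := ((chiQ p g : ZMod p)).val
  have h := hd.2 1 g a fun _ hμ => apply_root_chiQ p g hμ
  rw [natCast_pow_one_dual, Ideal.span_singleton_eq_bot.mpr rfl, Ideal.mem_bot, sub_eq_zero] at h
  refine trace_eq_zero_of_det hent g (t := (a : k)) ?_
  rw [TrivSqZeroExt.inl_natCast]
  exact (LinearMap.det_toLin' (N g)).symm.trans h

variable {ρbar : ResidualGaloisRep k} (D : ResDatum p (residualMatrix ρbar))
include D

omit hp [CharP k p] D in
/-- At an unramified prime the residual matrices are trivial on inertia. -/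
private lemma residualMatrix_eq_one {q : ℕ} (h : ρbar.IsUnramifiedAt q)
    {A : ValuationSubring Qbar} (hA : A.LiesOverPrime q) {τ : GQ}
    (hτ : τ ∈ A.inertiaSubgroupIn ℚ) : residualMatrix ρbar τ = 1 := by
  show LinearMap.toMatrixAlgEquiv _ (ρbar.ρ τ) = 1
  rw [h A hA τ hτ, map_one]

/-- At an unramified prime with regular Frobenius the eigenvalues of Frobenius are distinct. -/
private lemma exists_ne_roots_of_frobenius
    (hsplit : ∀ σ : GQ, ∃ α β : k, LinearMap.charpoly (ρbar.ρ σ) = (X - C α) * (X - C β))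
    {q : ℕ} [hq : Fact q.Prime]
    (hun : ∀ A : ValuationSubring Qbar, A.LiesOverPrime q →
      ∀ τ ∈ A.inertiaSubgroupIn ℚ, residualMatrix ρbar τ = 1)
    {φ₀ : GQ} (hφ₀ : (padicPlace q).IsFrobeniusAt φ₀ q)
    (hreg : (residualMatrix ρbar φ₀).trace ^ 2 ≠ 4) (hcyc : chiQ p φ₀ = 1)
    {P : ValuationSubring Qbar} (hP : P.LiesOverPrime q) {φ : GQ} (hφ : P.IsFrobeniusAt φ q) :
    ∃ α β : k, α ≠ β ∧ LinearMap.charpoly (ρbar.ρ φ) = (X - C α) * (X - C β) := by
  set rbar := residualMatrix ρbar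
  obtain ⟨g, hg⟩ := exists_smul_eq hq.out liesOverPrime_padicPlace hP
  have h1 := conj_isFrobeniusAt hq.out liesOverPrime_padicPlace hφ₀ g
  rw [hg] at h1
  have h2 := hun P hP _ (mul_inv_mem_inertiaSubgroupIn hq.out hP hφ h1)
  have h3 : rbar φ = rbar (g * φ₀ * g⁻¹) := by
    have := congrArg (· * rbar (g * φ₀ * g⁻¹)) h2
    simp only [one_mul] at this
    rwa [← map_mul, inv_mul_cancel_right] at this
  obtain ⟨α, β, hαβ⟩ := hsplit φ
  refine ⟨α, β, fun heq => hreg ?_, hαβ⟩
  subst heq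
  have hd : (rbar φ).det = 1 := by
    rw [h3, map_mul, map_mul, Matrix.det_mul_right_comm, rep_mul_inv, one_mul, D.det, coe_chiK,
      hcyc, Units.val_one, map_one]
  have hcp : (rbar φ).charpoly = (X - C α) * (X - C α) := by
    rw [← hαβ]; exact LinearMap.charpoly_toMatrix (ρbar.ρ φ) _
  rw [Matrix.charpoly_fin_two, hd] at hcp
  have e1 := congrArg (fun f => Polynomial.coeff f 1) hcp
  have e0 := congrArg (fun f => Polynomial.coeff f 0) hcp
  simp [sub_mul, mul_sub, Polynomial.coeff_X, Polynomial.coeff_one, ← map_mul] at e1 e0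
  rw [h3, map_mul, map_mul, trace_rep_conj] at e1
  linear_combination (-(rbar φ₀).trace - 2 * α) * e1 - 4 * e0

/-- Where the deformation is unipotent on a ramified inertia group the cocycle is a coboundary. -/
private lemma exists_coboundary_at_ramified [Finite k] {S : Finset Nat.Primes} {U : Subgroup GQ}
    (hUn : U.Normal) (hU : U ∈ LS S) (hker : ∀ g ∈ U, residualMatrix ρbar g = 1)
    (hle : U ≤ (chiQ p).ker) (hpS : ExtCitation.pPrime p ∈ S) {c : GQ → M22 k}
    (hc : c ∈ adCoc (residualMatrix ρbar))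
    (hcont : ∃ L : IntermediateField ℚ Qbar, FiniteDimensional ℚ L ∧
      ∀ σ ∈ L.fixingSubgroup, c σ = 0)
    (hunc : ∀ q : Nat.Primes, q ∉ S → ∀ A : ValuationSubring Qbar, A.LiesOverPrime (q : ℕ) →
      ∀ τ ∈ A.inertiaSubgroupIn ℚ, c τ = 0)
    {q : ℕ} [hq : Fact q.Prime] (hqp : q ≠ p) (hram : ¬ ρbar.IsUnramifiedAt q)
    (htr : ∀ τ ∈ (padicPlace q).inertiaSubgroupIn ℚ,
      (residualMatrix ρbar τ).trace = 2 ∧ (c τ * residualMatrix ρbar τ).trace = 0) :
    ∃ e : M22 k, ∀ τ ∈ (padicPlace q).inertiaSubgroupIn ℚ,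
      c τ = residualMatrix ρbar τ * e * residualMatrix ρbar τ⁻¹ - e := by
  set rbar := residualMatrix ρbar
  have hA : (padicPlace q).LiesOverPrime q := liesOverPrime_padicPlace
  have hdet1 : ∀ τ ∈ (padicPlace q).inertiaSubgroupIn ℚ, (rbar τ).det = 1 := fun τ hτ => by
    obtain ⟨F, hF, hFU⟩ := ker_chiQ_mem_LS p (Finset.mem_singleton_self (ExtCitation.pPrime p))
    rw [D.det, coe_chiK, show chiQ p τ = 1 from hFU (hF.2 ⟨q, hq.out⟩
      (fun h => hqp (congrArg Subtype.val (Finset.mem_singleton.mp h))) _ hA hτ),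
      Units.val_one, map_one]
  simp only [ResidualGaloisRep.IsUnramifiedAt, not_forall] at hram
  obtain ⟨A', hA', τ', hτ', hne'⟩ := hram
  obtain ⟨g, hg⟩ := exists_smul_eq hq.out hA' hA
  have hτ₀ := conj_mem_inertiaSubgroupIn hq.out hA' hτ' g
  rw [hg] at hτ₀
  refine D.exists_coboundary_of_unipotent hUn hU hker hle hpS hc hcont hunc hq.out hqp hA
    (fun τ hτ => ⟨(htr τ hτ).1, hdet1 τ hτ⟩) hτ₀ ?_ fun τ hτ => (htr τ hτ).2
  intro h
  refine hne' ((LinearMap.toMatrixAlgEquiv
    (Module.finBasisOfFinrankEq k ρbar.V ρbar.finrank_eq)).injective ?_)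
  rw [map_one]
  show rbar τ' = 1
  have h' : rbar g⁻¹ * rbar (g * τ' * g⁻¹) * rbar g = 1 := by
    rw [h, mul_one, rep_inv_mul]
  rwa [← map_mul, ← map_mul, show g⁻¹ * (g * τ' * g⁻¹) * g = τ' by group] at h'

omit D in
/-- A space of cocycles without nonzero global coboundaries meets them in zero. -/
private lemma inf_locCob_top_eq_bot {r : MatRep k} {V : Submodule k (GQ → M22 k)}
    (h : ∀ c ∈ V, (∃ e, ∀ g, c g = r g * e * r g⁻¹ - e) → c = 0) : V ⊓ locCob r ⊤ = ⊥ :=
  (Submodule.eq_bot_iff _).mpr fun c hc => by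
    obtain ⟨e, he⟩ := hc.2
    exact h c hc.1 ⟨e, fun g => he g (Subgroup.mem_top g)⟩

end Local

variable [IsDomain 𝒪] [IsDiscreteValuationRing 𝒪] [IsAdicComplete (maximalIdeal 𝒪) 𝒪]
  [Finite (ResidueField 𝒪)] (p : ℕ) [hp : Fact p.Prime]

/-- The bound on local classes at `p` for a local condition. -/
def LocalBoundAt (ρbar : ResidualGaloisRep (ResidueField 𝒪))
    (Cp : ∀ ⦃A : Type⦄ [CommRing A] [IsLocalRing A], GaloisRepAdic A → Prop) : Prop :=
  ∀ (V : Submodule (ResidueField 𝒪) (GQ → M22 (ResidueField 𝒪)))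
    [Module.Finite (ResidueField 𝒪) V],
    V ≤ adCoc (residualMatrix ρbar) →
    (∀ c ∈ V, ∃ L : IntermediateField ℚ Qbar, FiniteDimensional ℚ L ∧
      ∀ σ ∈ L.fixingSubgroup, c σ = 0) →
    (∀ c ∈ V, ∃ (N : MatRep (DualNumber (ResidueField 𝒪)))
      (hN : MatContinuous (DualNumber (ResidueField 𝒪)) N),
      (∀ g i j, N g i j = TrivSqZeroExt.inl (residualMatrix ρbar g i j) +
        TrivSqZeroExt.inr ((c g * residualMatrix ρbar g) i j)) ∧ Cp (toRep N hN)) →
    Module.finrank (ResidueField 𝒪) V ≤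
      Module.finrank (ResidueField 𝒪)
        (V ⊓ locCob (residualMatrix ρbar) ((padicPlace p).decompositionSubgroup ℚ) :
          Submodule (ResidueField 𝒪) (GQ → M22 (ResidueField 𝒪))) +
      Module.finrank (ResidueField 𝒪)
        (locFix (residualMatrix ρbar) ((padicPlace p).decompositionSubgroup ℚ)) + 1

/-- Sets of auxiliary primes, as many as a fixed `r`, congruent to one modulo any power of `p`, with
distinct eigenvalues of Frobenius, such that universal rings for the condition `Cp` at `p`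
unramified outside `Smin` and the primes are quotients of power series in `r` variables. -/
def HasTWGenerators (ρbar : ResidualGaloisRep (ResidueField 𝒪)) (S Smin : Finset ℕ)
    (Cp : ∀ ⦃A : Type⦄ [CommRing A] [IsLocalRing A], GaloisRepAdic A → Prop) : Prop :=
  ∃ r : ℕ, ∀ n : ℕ, ∃ qv : Fin r → ℕ, Function.Injective qv ∧
    (∀ i, (qv i).Prime ∧ qv i ∉ S ∧ p ^ (n + 1) ∣ qv i - 1) ∧
    (∀ i, ∀ P : ValuationSubring Qbar, P.LiesOverPrime (qv i) →
      ∀ φ : GQ, P.IsFrobeniusAt φ (qv i) →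
        ∃ α β : ResidueField 𝒪, α ≠ β ∧
          LinearMap.charpoly (ρbar.ρ φ) = (X - C α) * (X - C β)) ∧
    ∀ DQ : GaloisRep.DeformationRingData 𝒪 ρbar (fun _A _ _ _ ρ =>
        (ρ.DetIsCyclotomic p ∧ Cp ρ ∧
            ∀ q : ℕ, q.Prime → q ∉ Smin ∪ Finset.univ.image qv → ρ.IsUnramifiedAt q) ∧
          ∀ q ∈ Smin, q.Prime → q ≠ p → ρ.IsUnipotentOnInertiaAt q),
      ∃ γ : MvPowerSeries (Fin r) 𝒪 →ₐ[𝒪] DQ.R, Function.Surjective γ

/-- **Auxiliary primes for a local condition at `p`.** -/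
theorem exists_primes_surjective (hp2 : p ≠ 2) (hp𝒪 : (p : 𝒪) ∈ maximalIdeal 𝒪)
    (ρbar : ResidualGaloisRep (ResidueField 𝒪)) (habs : ρbar.IsAbsolutelyIrreducible)
    (hdet : (GaloisRepAdic.ofResidualGaloisRep ρbar).DetIsCyclotomic p)
    (hsplit : ∀ σ : GQ, ∃ α β : ResidueField 𝒪,
      LinearMap.charpoly (ρbar.ρ σ) = (X - C α) * (X - C β))
    (hTW : ∀ (K : Type) [Field K] [Algebra (ResidueField 𝒪) K]
      (G : Subgroup GQ), G.index = 2 → ∀ V : Submodule K (ρbar.baseChange K).V,
        (∀ σ ∈ G, ∀ x ∈ V, (ρbar.baseChange K).ρ σ x ∈ V) → V = ⊥ ∨ V = ⊤)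
    (S Smin : Finset ℕ) (hpSmin : p ∈ Smin) (hSmin : Smin ⊆ S) (hS : ∀ q ∈ S, q.Prime)
    (hmin : ∀ q : ℕ, q.Prime → q ≠ p → (q ∈ Smin ↔ ¬ ρbar.IsUnramifiedAt q))
    (Cp : ∀ ⦃A : Type⦄ [CommRing A] [IsLocalRing A], GaloisRepAdic A → Prop)
    (hpush : ∀ {R : Type} [CommRing R] [IsLocalRing R] (ρ : GaloisRepAdic R)
      (φ : R →+* DualNumber (ResidueField 𝒪)) (hφ : IsLocalHom φ)
      (N : MatRep (DualNumber (ResidueField 𝒪)))
      (hN : MatContinuous (DualNumber (ResidueField 𝒪)) N),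
      (ρ.baseChangeAlong φ hφ).IsEquiv (toRep N hN) → Cp ρ → Cp (toRep N hN))
    (hlocal : LocalBoundAt p ρbar Cp) :
    HasTWGenerators p ρbar S Smin Cp := by
  have : CharP (ResidueField 𝒪) p := (CharP.charP_iff_prime_eq_zero hp.out).mpr (by
    rw [← map_natCast (residue 𝒪), residue_eq_zero_iff]; exact hp𝒪)
  have D := resDatum_of hp2 ρbar habs hdet hTW
  set rbar := residualMatrix ρbar with hrbar
  -- a level for the residual representation and its auxiliary primes
  let S₀ : Finset Nat.Primes :=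
    Smin.attach.image fun q => ⟨q.1, hS q.1 (hSmin q.2)⟩
  have hS₀ : ∀ v : Nat.Primes, v ∈ S₀ ↔ (v : ℕ) ∈ Smin := fun v => by
    refine ⟨fun h => ?_, fun h => ?_⟩
    · obtain ⟨a, -, rfl⟩ := Finset.mem_image.mp h
      exact a.2
    · exact Finset.mem_image.mpr ⟨⟨v, h⟩, Finset.mem_attach _ _, Subtype.ext rfl⟩
  have hpS₀ : ExtCitation.pPrime p ∈ S₀ := (hS₀ _).mpr hpSmin
  have hun : ∀ q : Nat.Primes, q ∉ S₀ → ∀ A : ValuationSubring Qbar, A.LiesOverPrime (q : ℕ) →
      ∀ τ ∈ A.inertiaSubgroupIn ℚ, rbar τ = 1 := fun q hq A hA τ hτ => by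
    have hqS : (q : ℕ) ∉ Smin := fun h => hq ((hS₀ q).mpr h)
    exact residualMatrix_eq_one (not_not.mp fun h =>
      hqS ((hmin q q.2 fun h' => hqS (h' ▸ hpSmin)).mpr h)) hA hτ
  obtain ⟨U, hUn, hU, hker, hle⟩ :=
    D.exists_level (S := S₀) (exists_residualMatrix_level ρbar) hun
  obtain ⟨m, hm₀⟩ := D.exists_twPrimes_ge hUn hU hker hle hpS₀
  have hm := hm₀ m le_rfl
  refine ⟨m, fun n => ?_⟩
  obtain ⟨qv, hinj, hgood, hbound⟩ := hm n S
  refine ⟨fun i => (qv i : ℕ), fun i j h => hinj (Subtype.ext h),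
    fun i => ⟨(qv i).2, (hgood i).1, (hgood i).2.2.1⟩, fun i P hP φ hφ => ?_, fun DQ => ?_⟩
  · have : Fact (qv i : ℕ).Prime := ⟨(qv i).2⟩
    obtain ⟨φ₀, hφ₀, hreg, hcyc⟩ := (hgood i).2.2.2
    exact exists_ne_roots_of_frobenius D hsplit (hun _ (hgood i).2.1) hφ₀ hreg hcyc hP hφ
  -- the universal ring
  refine exists_surjective_of_bound DQ m ?_ ?_
  · intro N hN φ hφ he
    obtain ⟨⟨hd, hP', hu⟩, hq⟩ := DQ.isOfType
    exact ⟨⟨detIsCyclotomic_push _ hφ he hd, hpush DQ.ρ _ hφ N hN he hP',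
      fun q hq hqS => isUnramifiedAt_push _ hφ he (hu q hq hqS)⟩,
      fun q hqS hqp hne => isUnipotentOnInertiaAt_push _ hφ he (hq q hqS hqp hne)⟩
  intro V _ hV hcob
  -- tangent vectors are cocycles unramified outside the primes
  have hdetV : ∀ c ∈ V, ∀ g, (c g).trace = 0 := fun c hc => by
    obtain ⟨N, hN, hent, ⟨hd, -, -⟩, -⟩ := (hV c hc).lift
    exact trace_eq_zero_of_detIsCyclotomic hN hent hd
  have hadV : V ≤ adCoc rbar := fun c hc => ⟨(hV c hc).coc, hdetV c hc⟩
  have hunV : ∀ c ∈ V, ∀ q : Nat.Primes, q ∉ S₀ → (∀ i, qv i ≠ q) →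
      ∀ A : ValuationSubring Qbar, A.LiesOverPrime (q : ℕ) →
        ∀ τ ∈ A.inertiaSubgroupIn ℚ, c τ = 0 := fun c hc q hq hqv A hA τ hτ => by
    obtain ⟨N, hN, hent, ⟨-, -, hu⟩, -⟩ := (hV c hc).lift
    refine eq_zero_of_unramified hent (hu q q.2 fun hmem => ?_) hA hτ
    rcases Finset.mem_union.mp hmem with h | h
    · exact hq ((hS₀ q).mpr h)
    · obtain ⟨i, -, hi⟩ := Finset.mem_image.mp h
      exact hqv i (Subtype.ext hi)
  -- at `p` the given bound, at the other primes of `Smin` coboundaries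
  have hcount := hbound V 0 hadV (fun c hc => (hV c hc).cont) hunV fun v hv => by
    have : Fact (v : ℕ).Prime := ⟨v.2⟩
    by_cases hvp : v = ExtCitation.pPrime p
    · subst hvp
      refine Or.inr ?_
      rw [if_pos rfl, Pi.zero_apply, add_zero]
      exact hlocal V hadV (fun c hc => (hV c hc).cont) fun c hc => by
        obtain ⟨N, hN, hent, ⟨-, hP', -⟩, -⟩ := (hV c hc).lift
        exact ⟨N, hN, hent, hP'⟩
    · refine Or.inl ⟨rfl, fun c hc => ?_⟩
      have hvne : (v : ℕ) ≠ p := fun h => hvp (Subtype.ext h)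
      have hvS : (v : ℕ) ∈ Smin := (hS₀ v).mp hv
      refine exists_coboundary_at_ramified D hUn (mem_LS_mono (S' := S₀ ∪ Finset.univ.image qv)
          Finset.subset_union_left hU) hker hle (Finset.mem_union_left _ hpS₀) (hadV hc)
        (hV c hc).cont (fun q hq A hA => hunV c hc q (fun h => hq (Finset.mem_union_left _ h))
          (fun i h => hq (Finset.mem_union_right _
            (h ▸ Finset.mem_image_of_mem _ (Finset.mem_univ i)))) A hA)
        hvne ((hmin v v.2 hvne).mp hvS) fun τ hτ => ?_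
      obtain ⟨N, hN, hent, -, hu⟩ := (hV c hc).lift
      exact trace_entries_of_unipotent hent (hu v hvS v.2 hvne) liesOverPrime_padicPlace hτ
  rw [inf_locCob_top_eq_bot hcob, finrank_bot, zero_add] at hcount
  simpa using hcount

omit [IsAdicComplete (maximalIdeal 𝒪) 𝒪] [Finite (ResidueField 𝒪)] hp in
/-- The strictly ordinary condition passes to deformations to dual numbers. -/
theorem push_strict {R : Type} [CommRing R] [IsLocalRing R] (ρ : GaloisRepAdic R)
    (φ : R →+* DualNumber (ResidueField 𝒪)) (hφ : IsLocalHom φ)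
    (N : MatRep (DualNumber (ResidueField 𝒪)))
    (hN : MatContinuous (DualNumber (ResidueField 𝒪)) N)
    (he : (ρ.baseChangeAlong φ hφ).IsEquiv (toRep N hN)) (h : ρ.IsStrictOrdinaryAt p) :
    (toRep N hN).IsStrictOrdinaryAt p :=
  isStrictOrdinaryAt_push φ hφ he h

omit [IsAdicComplete (maximalIdeal 𝒪) 𝒪] in
/-- The flat condition passes to deformations to dual numbers. -/
theorem push_flat {R : Type} [CommRing R] [IsLocalRing R] (ρ : GaloisRepAdic R)
    (φ : R →+* DualNumber (ResidueField 𝒪)) (hφ : IsLocalHom φ)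
    (N : MatRep (DualNumber (ResidueField 𝒪)))
    (hN : MatContinuous (DualNumber (ResidueField 𝒪)) N)
    (he : (ρ.baseChangeAlong φ hφ).IsEquiv (toRep N hN)) (h : ρ.IsFlatAt p) :
    (toRep N hN).IsFlatAt p := by
  have hA := dual_test (𝒪 := 𝒪)
  have := finite_of_isArtinianTestAlgebra hA
  have := hA.isLocalHom
  obtain ⟨b⟩ := RT.MatCond.exists_basis ρ
  obtain ⟨b'⟩ := RT.MatCond.exists_basis (ρ.baseChangeAlong φ hφ)
  refine RT.isFlatAt_of_flatMatCond p hA ?_
  rw [RT.MatCond.cond_toRep_iff _ hA]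
  have h2 := matConj_of_isEquiv b' (Pi.basisFun _ (Fin 2)) he
  rw [matrixIn_toRep] at h2
  exact (RT.flatMatCond (𝒪 := 𝒪) p).conj hA
    ((RT.MatCond.matConj_baseChangeAlong φ hφ ρ b b').trans h2) (isFlatAct_push b φ h)

end FermatAgent.CFT.Selmer
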