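import Fermat.Agent.CFT.Selmer.Select
import Fermat.Agent.CFT.Pairing.Global

/-!
The trace free adjoint module, twisted by a character, and its twisted dual.
-/

set_option autoImplicit false

noncomputable section

open scoped Classical

namespace FermatAgent.CFT.Selmer

open Coh Euler Pairing Global GaloisBasic

variable {k : Type} [Field k]

/-- Trace free matrices. -/
abbrev sl2Sub (k : Type) [Field k] : Submodule k (M22 k) :=
  LinearMap.ker (Matrix.traceLinearMap (Fin 2) k k)

/-- Trace free matrices with the twisted adjoint action of a representation. -/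
def Ad (_r : MatRep k) (_ψ : GQ →* kˣ) : Type := sl2Sub k

namespace Ad

variable {r : MatRep k} {ψ : GQ →* kˣ}

instance : AddCommGroup (Ad r ψ) := inferInstanceAs (AddCommGroup (sl2Sub k))
instance : Module k (Ad r ψ) := inferInstanceAs (Module k (sl2Sub k))
instance [Finite k] : Finite (Ad r ψ) := inferInstanceAs (Finite (sl2Sub k))

/-- The underlying matrix. -/
def val : Ad r ψ →ₗ[k] M22 k := (sl2Sub k).subtype

/-- An element from a trace free matrix. -/
def mk (X : M22 k) (hX : X.trace = 0) : Ad r ψ := (⟨X, hX⟩ : sl2Sub k)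

/-- The matrix of an adjoint element. -/
@[simp] lemma val_mk (X : M22 k) (hX : X.trace = 0) : val (mk (r := r) (ψ := ψ) X hX) = X := rfl

/-- Adjoint elements have trace zero. -/
lemma trace_val (X : Ad r ψ) : (val X).trace = 0 := Subtype.prop (show sl2Sub k from X)

lemma val_injective : Function.Injective (val : Ad r ψ → M22 k) := Subtype.val_injective

/-- Adjoint elements are determined by their matrices. -/
lemma ext {X Y : Ad r ψ} (h : val X = val Y) : X = Y := val_injective h

instance : DistribMulAction GQ (Ad r ψ) where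
  smul g X := mk ((ψ g : k) • (r g * val X * r g⁻¹)) (by
    rw [Matrix.trace_smul, trace_rep_conj, trace_val, smul_zero])
  one_smul X := ext (by
    show (ψ 1 : k) • (r 1 * val X * r (1 : GQ)⁻¹) = val X
    simp)
  mul_smul g h X := ext (by
    show (ψ (g * h) : k) • (r (g * h) * val X * r (g * h)⁻¹) =
      (ψ g : k) • (r g * ((ψ h : k) • (r h * val X * r h⁻¹)) * r g⁻¹)
    rw [show ψ (g * h) = ψ g * ψ h from map_mul ψ g h, mul_inv_rev, Units.val_mul]
    simp [map_mul, mul_assoc, smul_smul])
  smul_zero g := ext (by
    show (ψ g : k) • (r g * val 0 * r g⁻¹) = val 0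
    simp)
  smul_add g X Y := ext (by
    show (ψ g : k) • (r g * val (X + Y) * r g⁻¹) =
      val (mk ((ψ g : k) • (r g * val X * r g⁻¹)) _ + mk ((ψ g : k) • (r g * val Y * r g⁻¹)) _)
    simp [mul_add, add_mul, smul_add])

/-- The twisted conjugation action. -/
@[simp] lemma val_smul (g : GQ) (X : Ad r ψ) :
    val (g • X) = (ψ g : k) • (r g * val X * r g⁻¹) := rfl

/-- The action commutes with scalars. -/
lemma smul_comm_scalar (g : GQ) (c : k) (X : Ad r ψ) : g • (c • X) = c • (g • X) := ext (by
  simp [smul_comm c])

end Ad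

variable [Finite k] (p : ℕ) [hp : Fact p.Prime] [CharP k p]

/-- The untwisted adjoint module. -/
abbrev Ad0 (r : MatRep k) : Type := Ad r (1 : GQ →* kˣ)

/-- The cyclotomically twisted adjoint module. -/
abbrev Ad1 (r : MatRep k) : Type := Ad r (chiK k p)

omit [Finite k] hp in
/-- The adjoint module is killed by `p`. -/
lemma nsmul_ad_eq_zero {r : MatRep k} {ψ : GQ →* kˣ} (X : Ad r ψ) : p • X = 0 := by
  rw [← Nat.cast_smul_eq_nsmul k, CharP.cast_eq_zero, zero_smul]

omit [Finite k] in
/-- Trace zero matrices have dimension three. -/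
lemma finrank_sl2 : Module.finrank k (sl2Sub k) = 3 := by
  have hh := LinearMap.finrank_range_add_finrank_ker (Matrix.traceLinearMap (Fin 2) k k)
  have hs : LinearMap.range (Matrix.traceLinearMap (Fin 2) k k) = ⊤ :=
    LinearMap.range_eq_top.mpr fun c => ⟨!![c, 0; 0, 0], by simp [Matrix.trace_fin_two]⟩
  rw [hs, finrank_top, Module.finrank_self, Module.finrank_matrix, Fintype.card_fin,
    Module.finrank_self] at hh
  change _ + Module.finrank k (sl2Sub k) = _ at hh
  omega

omit [CharP k p] hp [Finite k] in
/-- The exponent of a finite vector space. -/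
lemma ldim_module {V : Type} [AddCommGroup V] [Module k V] [Finite V] :
    ldim p V = Module.finrank k V * ldim p k := by
  have : Module.Finite k V := Module.Finite.of_finite
  rw [ldim, ldim, Module.natCard_eq_pow_finrank (K := k) (V := V), Nat.factorization_pow]
  simp

/-- The exponent of the field is positive. -/
lemma ldim_field_pos : 0 < ldim p k := by
  by_contra h
  have h0 : ldim p k = 0 := Nat.eq_zero_of_not_pos h
  have := (ldim_eq_zero_iff (A := k) fun a => by
    rw [nsmul_eq_mul, CharP.cast_eq_zero, zero_mul]).mp h0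
  exact one_ne_zero (Subsingleton.elim (1 : k) 0)

/-- The trace form with values in the prime field. -/
def trForm (r : MatRep k) (X : Ad1 p r) : Ad0 r →+ ZMod p :=
  letI := ZMod.algebra k p
  AddMonoidHom.mk' (fun Y => Algebra.trace (ZMod p) k (Ad.val X * Ad.val Y).trace) fun Y Y' => by
    simp [mul_add]

omit [Finite k] in
lemma trForm_apply (r : MatRep k) (X : Ad1 p r) (Y : Ad0 r) :
    letI := ZMod.algebra k p
    trForm p r X Y = Algebra.trace (ZMod p) k (Ad.val X * Ad.val Y).trace := rfl

/-- The twisted adjoint module as the dual of the adjoint module. -/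
def dualIso (r : MatRep k) : Ad1 p r →+ Dual (chiQ p) (Ad0 r) :=
  AddMonoidHom.mk' (fun X => Dual.mk (chiQ p) (Ad0 r) (trForm p r X)) fun X X' =>
    AddMonoidHom.ext fun Y => by
      show trForm p r (X + X') Y = trForm p r X Y + trForm p r X' Y
      simp [trForm_apply, add_mul]

omit [Finite k] in
/-- The self-duality is equivariant. -/
lemma dualIso_smul (r : MatRep k) (g : GQ) (X : Ad1 p r) :
    dualIso p r (g • X) = g • dualIso p r X := AddMonoidHom.ext fun Y => by
  let := ZMod.algebra k p
  show trForm p r (g • X) Y = (chiQ p g : ZMod p) * trForm p r X (g⁻¹ • Y)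
  rw [trForm_apply, trForm_apply]
  refine Eq.trans ?_ (LinearMap.map_smul (Algebra.trace (ZMod p) k) _ _)
  congr 1
  rw [Ad.val_smul, Ad.val_smul, inv_inv, MonoidHom.one_apply, Units.val_one, one_smul,
    smul_mul_assoc, Matrix.trace_smul, smul_eq_mul, Algebra.smul_def (R := ZMod p), coe_chiK]
  congr 1
  rw [show Ad.val X * (r g⁻¹ * Ad.val Y * r g) = Ad.val X * r g⁻¹ * Ad.val Y * r g by
      simp only [mul_assoc],
    Matrix.trace_mul_comm _ (r g)]
  simp only [mul_assoc]

/-- The self-duality is bijective. -/
lemma dualIso_bijective (hp2 : p ≠ 2) (r : MatRep k) : Function.Bijective (dualIso p r) := by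
  let := ZMod.algebra k p
  have h2 : (2 : k) ≠ 0 := by
    intro h
    have h2 : ((2 : ℕ) : k) = 0 := by exact_mod_cast h
    rw [CharP.cast_eq_zero_iff k p] at h2
    exact hp2 ((Nat.prime_dvd_prime_iff_eq hp.out Nat.prime_two).mp h2)
  have hinj : Function.Injective (dualIso p r) := by
    refine (injective_iff_map_eq_zero _).mpr fun X hX => Ad.ext ?_
    rw [map_zero]
    have key : ∀ Y : M22 k, Y.trace = 0 → (Ad.val X * Y).trace = 0 := fun Y hY => by
      refine (traceForm_nondegenerate (ZMod p) k).1 _ fun c => ?_
      have h := DFunLike.congr_fun (show trForm p r X = 0 from hX)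
        (c • Ad.mk Y hY : Ad0 r)
      rw [trForm_apply, AddMonoidHom.zero_apply, LinearMap.map_smul, Ad.val_mk, mul_smul_comm,
        Matrix.trace_smul, smul_eq_mul] at h
      rw [Algebra.traceForm_apply, mul_comm]
      exact h
    have a1 := key !![1, 0; 0, -1] (by simp [Matrix.trace_fin_two])
    have a2 := key !![0, 1; 0, 0] (by simp [Matrix.trace_fin_two])
    have a3 := key !![0, 0; 1, 0] (by simp [Matrix.trace_fin_two])
    simp [Matrix.trace_fin_two, Matrix.mul_apply, Fin.sum_univ_two]
      at a1 a2 a3
    have ht := Ad.trace_val X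
    rw [Matrix.trace_fin_two] at ht
    have e00 : Ad.val X 0 0 = 0 :=
      (mul_eq_zero.mp
        (show (2 : k) * Ad.val X 0 0 = 0 by linear_combination a1 + ht)).resolve_left h2
    ext i j
    fin_cases i <;> fin_cases j
    · exact e00
    · exact a3
    · exact a2
    · show Ad.val X 1 1 = 0
      linear_combination ht - e00
  refine hinj.bijective_of_nat_card_le (le_of_eq ?_)
  exact (card_homZMod (A := Ad0 r) (nsmul_ad_eq_zero p)).trans (Nat.card_congr (Equiv.refl _))

variable {p} {r : MatRep k}

omit [Finite k] hp in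
/-- The adjoint module is good below the kernel of the representation. -/
lemma good_ad0 {U : Subgroup GQ} (hU : ∀ g ∈ U, r g = 1) : Good p U (Ad0 r) where
  triv g hg X := Ad.ext (by
    simp [hU g hg, show r g⁻¹ = 1 from hU _ (inv_mem hg)])
  killed := nsmul_ad_eq_zero p

variable (D : ResDatum p r)
include D

omit [Finite k] in
/-- The kernel of the representation fixes the roots of unity. -/
lemma ResDatum.ker_le_chiK {g : GQ} (hg : r g = 1) : chiQ p g = 1 := by
  have h := D.det g
  rw [hg, Matrix.det_one, coe_chiK, ← map_one (ZMod.castHom (dvd_refl p) k)] at h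
  exact Units.ext ((ZMod.castHom (dvd_refl p) k).injective h).symm

omit [Finite k] in
/-- No fixed elements. -/
lemma ResDatum.h0_eq_bot : h0Sub GQ (Ad0 r) = ⊥ := by
  refine (AddSubgroup.eq_bot_iff_forall _).mpr fun X hX => ?_
  by_contra hne
  obtain ⟨g, hg⟩ := D.adIrr _ (Ad.trace_val X) (fun h => hne (Ad.ext (h.trans (map_zero _).symm)))
  refine hg 1 ?_
  have := congrArg Ad.val (hX g)
  rw [Ad.val_smul, MonoidHom.one_apply, Units.val_one, one_smul] at this
  rw [one_smul, this]

/-- Complex conjugation fixes a line. -/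
lemma ResDatum.le_ldim_infFixed : ldim p k ≤ ldim p (infFixed (Ad0 r)) := by
  set c := complexConjugation
  have hd : (r c).det = -1 := by
    rw [D.det, coe_chiK, chiQ_complexConjugation D.hp2, map_neg, map_one]
  have hcc : r c * r c = 1 := by rw [← map_mul, complexConjugation_mul_self, map_one]
  have ht : (r c).trace = 0 := by
    have h := mul_self_eq (r c)
    rw [hcc, hd, neg_smul, one_smul, sub_neg_eq_add] at h
    have hz : (r c).trace • r c = 0 := add_eq_right.mp h.symm
    rcases smul_eq_zero.mp hz with h' | h'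
    · exact h'
    · rw [h', Matrix.trace_zero]
  let φ : k →+ infFixed (Ad0 r) := AddMonoidHom.mk' (fun a => ⟨a • Ad.mk (r c) ht, Ad.ext (by
      show Ad.val (c • a • Ad.mk (r c) ht) = _
      rw [Ad.val_smul, LinearMap.map_smul, Ad.val_mk, MonoidHom.one_apply, Units.val_one, one_smul,
        mul_smul_comm, smul_mul_assoc, mul_assoc, rep_mul_inv, mul_one])⟩)
    fun a b => Subtype.ext (add_smul a b _)
  have : Finite (infFixed (Ad0 r)) := inferInstance
  refine ldim_le_of_injective p φ fun a b h => ?_
  have h' := congrArg (fun x : infFixed (Ad0 r) => Ad.val x.1) h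
  simp only [φ, AddMonoidHom.mk'_apply, LinearMap.map_smul, Ad.val_mk] at h'
  exact smul_left_injective k (fun h0 => by rw [h0] at hd; simp at hd) h'

end FermatAgent.CFT.Selmer
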