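import Fermat.Agent.CFT.Selmer.LocalCond

/-!
Taylor-Wiles primes bounding spaces of cocycles with local conditions.

`ResDatum.exists_twPrimes_ge`: for every large `m` and every depth `n` there are `m` primes
congruent to one modulo `p ^ (n + 1)`, with regular Frobenius, such that a space of cocycles with
local conditions has dimension, plus the local terms, at most that of its coboundaries plus `m`.
Enlarging the set gives a `Setting` (`exists_setting`), continuous cocycles are read at its levels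
(`exists_Z1_of_adCoc`), and the new Frobenius elements detect the dual classes (`exists_detects`),
so that only the given primes contribute local corrections (`sum_correction`).
-/

set_option autoImplicit false

noncomputable section

open scoped Classical Pointwise

namespace FermatAgent.CFT.Selmer

open Coh Euler Pairing Global Local LocalEuler GaloisBasic

variable {p : ℕ} [hp : Fact p.Prime]

/-- Levels at a set are levels at a larger set. -/
lemma mem_LS_mono {S S' : Finset Nat.Primes} (h : S ⊆ S') {U : Subgroup GQ} (hU : U ∈ LS S) :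
    U ∈ LS S' := by
  obtain ⟨F, hF, hFU⟩ := hU
  exact ⟨F, hF.mono h, hFU⟩

/-- Enough primes to make every field below a level principal. -/
theorem exists_setting (hp2 : p ≠ 2) {S₀ : Finset Nat.Primes} {U : Subgroup GQ} (hUn : U.Normal)
    (hU : U ∈ LS S₀) (hle : U ≤ (chiQ p).ker) (hpS : ExtCitation.pPrime p ∈ S₀) :
    ∃ T₀ : Finset Nat.Primes, S₀ ⊆ T₀ ∧ ∀ S, T₀ ⊆ S → Setting p S U := by
  have := hUn
  have : U.FiniteIndex := (LS S₀).finiteIndex hU
  have : Finite (GQ ⧸ U) := inferInstance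
  have : Finite (Subgroup (GQ ⧸ U)) := inferInstance
  have : Finite {K : IntermediateField ℚ Qbar // U ≤ K.fixingSubgroup} :=
    Finite.of_injective (fun K => K.1.fixingSubgroup.map (QuotientGroup.mk' U)) fun K K' h => by
      have h' := congrArg (Subgroup.comap (QuotientGroup.mk' U)) h
      rw [Subgroup.comap_map_eq_self (by rw [QuotientGroup.ker_mk']; exact K.2),
        Subgroup.comap_map_eq_self (by rw [QuotientGroup.ker_mk']; exact K'.2)] at h'
      exact Subtype.ext (by
        rw [← InfiniteGalois.fixedField_fixingSubgroup K.1, h',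
          InfiniteGalois.fixedField_fixingSubgroup])
  have := Fintype.ofFinite {K : IntermediateField ℚ Qbar // U ≤ K.fixingSubgroup}
  have hfd : ∀ K : {K : IntermediateField ℚ Qbar // U ≤ K.fixingSubgroup},
      FiniteDimensional ℚ K.1 := fun K => by
    have hF := isUnramifiedOutside_of_mem hU
    refine (hF.of_le fun x hx => ?_).1
    exact fun g => IntermediateField.mem_fixingSubgroup_iff _ _ |>.mp (K.2 g.2) x hx
  have hgen : ∀ K : {K : IntermediateField ℚ Qbar // U ≤ K.fixingSubgroup},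
      ∃ t : Finset Nat.Primes, haveI := hfd K
        ∀ S, t ⊆ S → PrincipalOutside (above K.1 S) := fun K => by
    have := hfd K
    obtain ⟨G, hG⟩ := exists_generator (K := K.1)
    refine ⟨G.image qP, fun S hS P hP => ?_⟩
    have hmem : ∀ P', P' ∉ above K.1 S → P' ∉ G := fun P' hP' h =>
      hP' (mem_above.mpr (hS (Finset.mem_image_of_mem _ h)))
    obtain ⟨c, hc, hc0, h1, h2⟩ := hG P (hmem P hP)
    exact ⟨c, hc, hc0, h1, fun P' hP' => h2 P' (hmem P' hP')⟩
  choose t ht using hgen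
  refine ⟨S₀ ∪ Finset.univ.biUnion t, Finset.subset_union_left, fun S hS =>
    ⟨hp2, hS (Finset.mem_union_left _ hpS), hUn,
      mem_LS_mono (Finset.subset_union_left.trans hS) hU, hle, fun K _ hK => ?_⟩⟩
  exact ht ⟨K, hK⟩ S ((Finset.subset_biUnion_of_mem t (Finset.mem_univ _)).trans
    (Finset.subset_union_right.trans hS))

variable {k : Type} [Field k] [Finite k] [CharP k p] {r : MatRep k}

omit [Finite k] [CharP k p] hp in
/-- A continuous cocycle unramified outside a set as a cocycle of the levels of that set. -/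
theorem exists_Z1_of_adCoc {S : Finset Nat.Primes} {U : Subgroup GQ} (hU : U ∈ LS S)
    (hker : ∀ g ∈ U, r g = 1) {c : GQ → M22 k} (hc : c ∈ adCoc r)
    (hcont : ∃ L : IntermediateField ℚ Qbar, FiniteDimensional ℚ L ∧
      ∀ σ ∈ L.fixingSubgroup, c σ = 0)
    (hun : ∀ q : Nat.Primes, q ∉ S → ∀ A : ValuationSubring Qbar, A.LiesOverPrime (q : ℕ) →
      ∀ τ ∈ A.inertiaSubgroupIn ℚ, c τ = 0) :
    ∃ z : ↥((LS S).Z1 ⊤ (Ad0 r)), ∀ g, Ad.val (z.1 g) = c g := by
  let z : GQ → Ad0 r := fun g => Ad.mk (c g) (hc.2 g)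
  have hmul : ∀ g h, z (g * h) = g • z h + z g := fun g h => Ad.ext (by
    rw [map_add, Ad.val_smul, MonoidHom.one_apply, Units.val_one, one_smul, Ad.val_mk, Ad.val_mk,
      Ad.val_mk, hc.1, add_comm])
  have hz1 : z 1 = 0 := by
    have h := hmul 1 1
    rw [one_mul, one_smul] at h
    exact left_eq_add.mp h
  have htriv : ∀ g, r g = 1 → ∀ X : Ad0 r, g • X = X := fun g hg X => Ad.ext (by
    rw [Ad.val_smul, MonoidHom.one_apply, Units.val_one, one_smul, hg,
      show r g⁻¹ = 1 by simpa [hg] using rep_mul_inv r g, one_mul, mul_one])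
  let W : Subgroup GQ :=
    { carrier := {g | r g = 1 ∧ z g = 0}
      one_mem' := ⟨map_one r, hz1⟩
      mul_mem' := fun {a b} ha hb => ⟨by rw [map_mul, ha.1, hb.1, one_mul], by
        rw [hmul, htriv a ha.1, hb.2, ha.2, add_zero]⟩
      inv_mem' := fun {a} ha => ⟨by simpa [ha.1] using rep_mul_inv r a, by
        have e := hmul a a⁻¹
        rw [mul_inv_cancel, hz1, htriv a ha.1, ha.2, add_zero] at e
        exact e.symm⟩ }
  obtain ⟨L, hL, hLc⟩ := hcont
  obtain ⟨F, hF, hFU⟩ := hU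
  have := hF.1
  have hFL : (F ⊔ L).fixingSubgroup ≤ W := by
    rw [IntermediateField.fixingSubgroup_sup]
    exact fun g hg => ⟨hker g (hFU hg.1), Ad.ext (by rw [Ad.val_mk, map_zero]; exact hLc g hg.2)⟩
  have hWQ : W ∈ LQ := ⟨F ⊔ L, IntermediateField.finiteDimensional_sup F L, hFL⟩
  have hfix := fixingSubgroup_fixedField_of_mem hWQ
  have hWS : W ∈ LS S := by
    have hfd : FiniteDimensional ℚ (IntermediateField.fixedField W) := by
      have := IntermediateField.finiteDimensional_sup F L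
      have hle : IntermediateField.fixedField W ≤ F ⊔ L := fun x hx => by
        rw [← InfiniteGalois.fixedField_fixingSubgroup (F ⊔ L)]
        exact fun g => hx ⟨g.1, hFL g.2⟩
      exact FiniteDimensional.of_injective (IntermediateField.inclusion hle).toLinearMap
        (IntermediateField.inclusion_injective hle)
    refine hfix ▸ fixingSubgroup_mem_LS ⟨hfd, fun q hq A hA τ hτ => hfix.ge ⟨?_, ?_⟩⟩
    · exact hker τ (hFU (hF.2 q hq A hA hτ))
    · exact Ad.ext (by rw [Ad.val_mk, map_zero]; exact hun q hq A hA τ hτ)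
  refine ⟨⟨z, ⟨W, hWS, fun g _ s hs => ?_⟩, fun g _ h _ => ?_⟩, fun g => rfl⟩
  · rw [hmul, hs.2.2, smul_zero, zero_add]
  · show g • z h - z (g * h) + z g = 0
    rw [hmul]; abel

omit [Finite k] in
/-- A class with a coboundary representative on inertia has a representative vanishing there. -/
theorem exists_rep_of_coboundary {S : Finset Nat.Primes} (hp2 : p ≠ 2) {I : Subgroup GQ}
    (hsm : (LS S).Smooth (Ad0 r)) (z : ↥((LS S).Z1 ⊤ (Ad0 r))) (e : M22 k)
    (he : ∀ τ ∈ I, Ad.val (z.1 τ) = r τ * e * r τ⁻¹ - e) :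
    ∃ z' : ↥((LS S).Z1 ⊤ (Ad0 r)), cls1 (LS S) (Ad0 r) z' = cls1 (LS S) (Ad0 r) z ∧
      ∀ τ ∈ I, z'.1 τ = 0 := by
  have h2 : (2 : k) ≠ 0 := fun h0 => hp2 ((Nat.prime_dvd_prime_iff_eq hp.out Nat.prime_two).mp
    ((CharP.cast_eq_zero_iff k p 2).mp (by exact_mod_cast h0)))
  have htr : (e - (e.trace / 2) • (1 : M22 k)).trace = 0 := by
    rw [Matrix.trace_sub, Matrix.trace_smul, Matrix.trace_one, Fintype.card_fin, Nat.cast_ofNat,
      smul_eq_mul, div_mul_cancel₀ _ h2, sub_self]
  set m : Ad0 r := Ad.mk _ htr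
  have hd : (fun g => g • m - m) ∈ (LS S).Z1 ⊤ (Ad0 r) := by
    obtain ⟨W, hW, hWm⟩ := hsm m
    refine ⟨⟨W, hW, fun g _ s hs => ?_⟩, fun g _ h _ => ?_⟩
    · show (g * s) • m - m = g • m - m
      rw [mul_smul, hWm s hs.2]
    · show g • (h • m - m) - ((g * h) • m - m) + (g • m - m) = 0
      rw [smul_sub, mul_smul]; abel
  refine ⟨z - ⟨_, hd⟩, ?_, fun τ hτ => Ad.ext ?_⟩
  · rw [map_sub, sub_eq_self]
    exact cls1_eq_zero_iff.mpr ⟨m, fun g _ => rfl⟩
  · show Ad.val (z.1 τ - (τ • m - m)) = _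
    rw [map_sub, map_sub, he τ hτ, Ad.val_smul, MonoidHom.one_apply, Units.val_one, one_smul,
      Ad.val_mk, mul_sub, sub_mul, mul_smul_comm, smul_mul_assoc, mul_one, rep_mul_inv, map_zero]
    abel

omit [Finite k] in
/-- The auxiliary Frobenius elements detect the dual classes at the new primes. -/
private lemma exists_detects {m n : ℕ} {T₀ : Finset Nat.Primes} {qv : Fin m → Nat.Primes}
    {φ : Fin m → GQ} (hinj : Function.Injective qv) (hqT : ∀ i, qv i ∉ T₀)
    (hgood : ∀ i, p ^ (n + 1) ∣ (qv i : ℕ) - 1 ∧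
      (haveI : Fact (qv i : ℕ).Prime := ⟨(qv i).2⟩;
        (padicPlace (qv i : ℕ)).IsFrobeniusAt (φ i) (qv i)) ∧
      (r (φ i)).trace ^ 2 ≠ 4 ∧ chiQ p (φ i) = 1)
    (hkill : ∀ y : H1 (LS T₀) (Dual (chiQ p) (Ad0 r)),
      (∀ i, evalAt (LS T₀) (φ i) y = 0) → y = 0) :
    ∃ φv : ↥(T₀ ∪ Finset.univ.image qv) → GQ,
      Detects p r T₀ (T₀ ∪ Finset.univ.image qv) φv := by
  set S : Finset Nat.Primes := T₀ ∪ Finset.univ.image qv
  have hQS : ∀ i, qv i ∈ S := fun i =>
    Finset.mem_union_right _ (Finset.mem_image_of_mem _ (Finset.mem_univ i))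
  let φv : S → GQ := fun v => if h : ∃ i, qv i = (v : Nat.Primes) then φ h.choose else 1
  have hoff : ∀ v : S, (v : Nat.Primes) ∉ T₀ → ∃ i, qv i = (v : Nat.Primes) ∧ φv v = φ i :=
    fun v hv => by
      obtain ⟨i, -, hi⟩ := Finset.mem_image.mp ((Finset.mem_union.mp v.2).resolve_left hv)
      have he : ∃ i, qv i = (v : Nat.Primes) := ⟨i, hi⟩
      exact ⟨he.choose, he.choose_spec, dif_pos he⟩
  refine ⟨φv, fun v hv => ?_, fun v hv => ?_, fun v hv => ?_, fun y hy => hkill y fun i => ?_⟩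
  · obtain ⟨⟨w, hw⟩, hwS⟩ := v
    obtain ⟨i, hi, e⟩ := hoff _ hv
    rw [e]
    have h := (hgood i).2.1
    generalize_proofs at h
    revert h
    simp only [hi]
    exact fun h => h
  · obtain ⟨i, hi, e⟩ := hoff v hv
    rw [e]; exact (hgood i).2.2.1
  · obtain ⟨i, hi, e⟩ := hoff v hv
    rw [e]; exact (hgood i).2.2.2
  · obtain ⟨j, hj, e⟩ := hoff ⟨qv i, hQS i⟩ (hqT i)
    have h := hy ⟨qv i, hQS i⟩ (hqT i)
    rwa [e, hinj hj] at h

omit hp [Finite k] [CharP k p] in
/-- There are `m` new primes. -/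
private lemma card_new {m : ℕ} {T₀ : Finset Nat.Primes} {qv : Fin m → Nat.Primes}
    (hinj : Function.Injective qv) (hqT : ∀ i, qv i ∉ T₀) :
    (Finset.univ.filter fun v : ↥(T₀ ∪ Finset.univ.image qv) =>
      (v : Nat.Primes) ∉ T₀).card = m := by
  refine (Eq.trans ?_ (Fintype.card_fin m))
  rw [← Finset.card_univ, eq_comm]
  refine Finset.card_bij (fun i _ => (⟨qv i, Finset.mem_union_right _
      (Finset.mem_image_of_mem _ (Finset.mem_univ i))⟩ : ↥(T₀ ∪ Finset.univ.image qv)))
    (fun i _ => by simp [hqT i]) (fun i _ j _ h => hinj (congrArg Subtype.val h)) fun v hv => ?_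
  obtain ⟨i, -, hi⟩ :=
    Finset.mem_image.mp ((Finset.mem_union.mp v.2).resolve_left (Finset.mem_filter.mp hv).2)
  exact ⟨i, Finset.mem_univ _, Subtype.ext hi⟩

omit hp [Finite k] [CharP k p] in
/-- The local corrections are carried by the given primes. -/
private lemma sum_correction {S₀ T₀ S : Finset Nat.Primes} (hS₀ : S₀ ⊆ T₀) (hT₀ : T₀ ⊆ S)
    (a : Nat.Primes → ℕ) (f : ℕ) :
    ∑ v ∈ (Finset.univ.filter fun v : S => (v : Nat.Primes) ∈ T₀),
      (if (v : Nat.Primes) ∈ S₀ then a v * f else 0) = (∑ v ∈ S₀, a v) * f := by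
  rw [Finset.sum_mul, Finset.sum_filter]
  refine (Finset.sum_coe_sort S
    (fun v => if v ∈ T₀ then (if v ∈ S₀ then a v * f else 0) else 0)).trans ?_
  rw [← Finset.sum_filter, ← Finset.sum_filter, Finset.filter_filter]
  refine Finset.sum_congr (Finset.ext fun v => ?_) fun _ _ => rfl
  simp only [Finset.mem_filter]
  exact ⟨fun h => h.2.2, fun h => ⟨hT₀ (hS₀ h), hS₀ h, h⟩⟩

omit hp [Finite k] [CharP k p] in
/-- The classes killed by the map to cohomology are coboundaries. -/
private lemma ldim_ker_le {S : Finset Nat.Primes} {V : Submodule k (GQ → M22 k)} [Finite V]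
    (ψ : V →+ H1 (LS S) (Ad0 r)) (z : V → ↥((LS S).Z1 ⊤ (Ad0 r)))
    (hzv : ∀ c g, Ad.val ((z c).1 g) = c.1 g) (hψ : ∀ c, ψ c = cls1 (LS S) (Ad0 r) (z c)) :
    ldim p ψ.ker ≤
      Module.finrank k (V ⊓ locCob r ⊤ : Submodule k (GQ → M22 k)) * ldim p k := by
  have : Finite (V ⊓ locCob r ⊤ : Submodule k (GQ → M22 k)) :=
    Finite.of_injective _ (Submodule.inclusion_injective (inf_le_left : V ⊓ locCob r ⊤ ≤ V))
  rw [← ldim_module p (V := (V ⊓ locCob r ⊤ : Submodule k (GQ → M22 k)))]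
  refine ldim_le_of_injective p (AddMonoidHom.mk' (fun c => ⟨c.1.1, c.1.2, ?_⟩)
    fun c d => rfl) fun c d h => Subtype.ext (Subtype.ext (congrArg Subtype.val h :))
  obtain ⟨μ, hμ⟩ := cls1_eq_zero_iff.mp ((hψ c.1).symm.trans c.2)
  refine ⟨Ad.val μ, fun g hg => ?_⟩
  rw [← hzv c.1 g, hμ g hg]
  show Ad.val (g • μ - μ) = _
  rw [map_sub, Ad.val_smul, MonoidHom.one_apply, Units.val_one, one_smul]

/-- **Taylor-Wiles primes.** For every large `m` and every depth there are `m` auxiliary primes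
with which every space of cocycles with local conditions is bounded by `m`. -/
theorem ResDatum.exists_twPrimes_ge (D : ResDatum p r) {S₀ : Finset Nat.Primes} {U : Subgroup GQ}
    (hUn : U.Normal) (hU : U ∈ LS S₀) (hker : ∀ g ∈ U, r g = 1) (hle : U ≤ (chiQ p).ker)
    (hpS : ExtCitation.pPrime p ∈ S₀) :
    ∃ m₀ : ℕ, ∀ m : ℕ, m₀ ≤ m → ∀ (n : ℕ) (avoid : Finset ℕ), ∃ qv : Fin m → Nat.Primes,
      Function.Injective qv ∧
      (∀ i, (qv i : ℕ) ∉ avoid ∧ qv i ∉ S₀ ∧ p ^ (n + 1) ∣ (qv i : ℕ) - 1 ∧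
        ∃ φ : GQ, (haveI : Fact (qv i : ℕ).Prime := ⟨(qv i).2⟩;
            (padicPlace (qv i : ℕ)).IsFrobeniusAt φ (qv i)) ∧
          (r φ).trace ^ 2 ≠ 4 ∧ chiQ p φ = 1) ∧
      ∀ (V : Submodule k (GQ → M22 k)) [Module.Finite k V] (a : Nat.Primes → ℕ), V ≤ adCoc r →
        (∀ c ∈ V, ∃ L : IntermediateField ℚ Qbar, FiniteDimensional ℚ L ∧
          ∀ σ ∈ L.fixingSubgroup, c σ = 0) →
        (∀ c ∈ V, ∀ q : Nat.Primes, q ∉ S₀ → (∀ i, qv i ≠ q) →
          ∀ A : ValuationSubring Qbar, A.LiesOverPrime (q : ℕ) →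
            ∀ τ ∈ A.inertiaSubgroupIn ℚ, c τ = 0) →
        (∀ v ∈ S₀, haveI : Fact (v : ℕ).Prime := ⟨v.2⟩;
          (a v = 0 ∧ ∀ c ∈ V, ∃ e : M22 k, ∀ τ ∈ (padicPlace (v : ℕ)).inertiaSubgroupIn ℚ,
            c τ = r τ * e * r τ⁻¹ - e) ∨
          Module.finrank k V + a v ≤ Module.finrank k
              (V ⊓ locCob r ((padicPlace (v : ℕ)).decompositionSubgroup ℚ) :
                Submodule k (GQ → M22 k)) +
            Module.finrank k (locFix r ((padicPlace (v : ℕ)).decompositionSubgroup ℚ)) +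
            if v = ExtCitation.pPrime p then 1 else 0) →
        Module.finrank k V + ∑ v ∈ S₀, a v ≤
          Module.finrank k (V ⊓ locCob r ⊤ : Submodule k (GQ → M22 k)) + m := by
  obtain ⟨T₀, hS₀, hset⟩ := exists_setting D.hp2 hUn hU hle hpS
  have hM : Good p U (Ad0 r) := good_ad0 (p := p) hker
  have : Finite (H1 (LS T₀) (Dual (chiQ p) (Ad0 r))) :=
    (hset T₀ subset_rfl).finite_H1 (hM.dual hle)
  refine ⟨ldim p (⊤ : AddSubgroup (H1 (LS T₀) (Dual (chiQ p) (Ad0 r)))), fun m hm n avoid => ?_⟩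
  obtain ⟨qv, φ, hinj, hgood, hkill⟩ := D.exists_primes (mem_LS_mono hS₀ hU) hker n m
    (avoid ∪ T₀.image fun q : Nat.Primes => (q : ℕ)) ⊤ hm
  have hqT : ∀ i, qv i ∉ T₀ := fun i h =>
    (hgood i).1 (Finset.mem_union_right _ (Finset.mem_image_of_mem _ h))
  refine ⟨qv, hinj, fun i => ⟨fun h => (hgood i).1 (Finset.mem_union_left _ h),
    fun h => hqT i (hS₀ h), (hgood i).2.1, φ i, (hgood i).2.2⟩, ?_⟩
  intro V _ a hV hcont hun hloc
  set S : Finset Nat.Primes := T₀ ∪ Finset.univ.image qv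
  have T : Setting p S U := hset S Finset.subset_union_left
  have := T.finite_H1 hM
  have hUS : U ∈ LS S := T.level
  have hQS : ∀ i, qv i ∈ S := fun i =>
    Finset.mem_union_right _ (Finset.mem_image_of_mem _ (Finset.mem_univ i))
  -- the classes
  have hz : ∀ c : V, ∃ z : ↥((LS S).Z1 ⊤ (Ad0 r)), ∀ g, Ad.val (z.1 g) = c.1 g := fun c =>
    exists_Z1_of_adCoc hUS hker (hV c.2) (hcont _ c.2) fun q hq A hA => hun _ c.2 q
      (fun h => hq (Finset.mem_union_left _ (hS₀ h))) (fun i h => hq (h ▸ hQS i)) A hA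
  choose z hzv using hz
  let ψ : V →+ H1 (LS S) (Ad0 r) := AddMonoidHom.mk' (fun c => cls1 (LS S) (Ad0 r) (z c))
    fun c d => by
      rw [← map_add]
      congr 1
      exact Subtype.ext (funext fun g => Ad.ext (by
        show Ad.val ((z (c + d)).1 g) = Ad.val ((z c).1 g + (z d).1 g)
        rw [map_add, hzv, hzv, hzv]; rfl))
  have : Finite V := Module.finite_of_finite k
  have : Finite (M22 k) := inferInstance
  have hsm := T.smooth hM
  set f := ldim p k with hf
  have hf0 : 0 < f := ldim_field_pos p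
  -- the auxiliary data
  obtain ⟨φv, hQ⟩ := exists_detects (p := p) (r := r) hinj hqT (fun i => (hgood i).2)
    fun y hy => hkill y trivial hy
  let a' : S → ℕ := fun v => if (v : Nat.Primes) ∈ S₀ then a (v : Nat.Primes) * f else 0
  have hcount := ldim_add_le D T (mem_LS_mono hS₀ hU) hker (hS₀ hpS) hQ ψ.range a' fun v hv => by
    have : Fact ((v : Nat.Primes) : ℕ).Prime := ⟨(v : Nat.Primes).2⟩
    have hfix := finrank_locFix_le (p := p) (r := r) (v : Nat.Primes)
    by_cases hvS : (v : Nat.Primes) ∈ S₀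
    · simp only [a', if_pos hvS]
      rcases hloc _ hvS with ⟨ha, he⟩ | hle'
      · rw [ha, zero_mul, add_zero]
        refine (ldim_map_le_h0 T hM v ψ.range ?_).trans (Nat.le_add_right _ _)
        rintro x ⟨c, rfl⟩
        obtain ⟨e, hec⟩ := he _ c.2
        exact exists_rep_of_coboundary D.hp2 hsm (z c) e fun τ hτ => by rw [hzv]; exact hec τ hτ
      · set J := Module.finrank k (locFix r
          ((padicPlace ((v : Nat.Primes) : ℕ)).decompositionSubgroup ℚ))
        set b : ℕ := if (v : Nat.Primes) = ExtCitation.pPrime p then 1 else 0 with hb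
        have hInf : Module.finrank k (V ⊓ locCob r
            ((padicPlace ((v : Nat.Primes) : ℕ)).decompositionSubgroup ℚ) :
              Submodule k (GQ → M22 k)) ≤ Module.finrank k V := Submodule.finrank_mono inf_le_left
        have h1 := ldim_map_le_of_finrank D.hp2 T hker v ψ.range V
          (by rintro x ⟨c, rfl⟩; exact ⟨z c, rfl, by rw [funext (hzv c)]; exact c.2⟩)
          (J + b - a v) (by omega)
        have hbf : (if (v : Nat.Primes) = ExtCitation.pPrime p then f else 0) = b * f := by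
          rw [hb]; split_ifs <;> simp
        rw [hbf]
        have : (J + b - a (v : Nat.Primes)) * f + a (v : Nat.Primes) * f = (J + b) * f := by
          rw [← add_mul, Nat.sub_add_cancel (by omega)]
        rw [add_mul] at this
        rw [← hf] at h1 hfix
        omega
    · simp only [a', if_neg hvS, add_zero]
      refine (ldim_map_le_h0 T hM v ψ.range ?_).trans (Nat.le_add_right _ _)
      rintro x ⟨c, rfl⟩
      refine ⟨z c, rfl, fun τ hτ => Ad.ext ?_⟩
      rw [hzv, map_zero]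
      exact hun _ c.2 _ hvS (fun i h => hqT i (h ▸ hv)) _ liesOverPrime_padicPlace τ hτ
  -- evaluation of the count
  have hsum := sum_correction (S₀ := S₀) hS₀ (Finset.subset_union_left (s₂ := Finset.univ.image qv))
    a f
  rw [hsum, card_new hinj hqT] at hcount
  have hker' := ldim_ker_le (p := p) ψ z hzv fun _ => rfl
  have htot := ldim_eq_ker_add_range p ψ
  rw [ldim_module (k := k) p (V := V), ← hf] at htot
  rw [← hf] at hcount hker'
  refine Nat.le_of_mul_le_mul_right ?_ hf0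
  rw [add_mul, add_mul]
  omega

end FermatAgent.CFT.Selmer
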