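import Fermat.Agent.CFT.Selmer.LocalBounds

/-!
The number of classes of the adjoint module with local conditions, at auxiliary primes detecting
the dual classes.
-/

set_option autoImplicit false

noncomputable section

open scoped Classical Pointwise

namespace FermatAgent.CFT.Selmer

open Coh Euler Pairing Global Local LocalEuler GaloisBasic

variable {p : ℕ} [hp : Fact p.Prime] {k : Type} [Field k] [Finite k] [CharP k p] {r : MatRep k}
  {T₀ S : Finset Nat.Primes} {U : Subgroup GQ}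

/-- The auxiliary primes: Frobenius elements with distinct eigenvalues detecting every dual
class. -/
structure Detects (p : ℕ) [Fact p.Prime] [CharP k p] (r : MatRep k) (T₀ S : Finset Nat.Primes)
    (φv : S → GQ) : Prop where
  frob : ∀ v : S, (v : Nat.Primes) ∉ T₀ →
    (padicPlace ((v : Nat.Primes) : ℕ)).IsFrobeniusAt (φv v) ((v : Nat.Primes) : ℕ)
  regular : ∀ v : S, (v : Nat.Primes) ∉ T₀ → (r (φv v)).trace ^ 2 ≠ 4
  cyclo : ∀ v : S, (v : Nat.Primes) ∉ T₀ → chiQ p (φv v) = 1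
  kill : ∀ y : H1 (LS T₀) (Dual (chiQ p) (Ad0 r)),
    (∀ v : S, (v : Nat.Primes) ∉ T₀ → evalAt (LS T₀) (φv v) y = 0) → y = 0

/-- **The count of classes with local conditions.** -/
theorem ldim_add_le (D : ResDatum p r) (T : Setting p S U) (hU₀ : U ∈ LS T₀)
    (hker : ∀ g ∈ U, r g = 1) (hpT₀ : ExtCitation.pPrime p ∈ T₀) {φv : S → GQ}
    (hQ : Detects p r T₀ S φv) (G : AddSubgroup (H1 (LS S) (Ad0 r))) (a : S → ℕ)
    (hC : ∀ v : S, (v : Nat.Primes) ∈ T₀ →
      ldim p (G.map (locAt T v (Ad0 r))) + a v ≤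
        ldim p (h0Sub (Gal' ((v : Nat.Primes) : ℕ))
          (Res (localGaloisToGlobal ((v : Nat.Primes) : ℕ)) (Ad0 r))) +
          if (v : Nat.Primes) = ExtCitation.pPrime p then ldim p k else 0) :
    ldim p G + ∑ v ∈ (Finset.univ.filter fun v : S => (v : Nat.Primes) ∈ T₀), a v ≤
      (Finset.univ.filter fun v : S => (v : Nat.Primes) ∉ T₀).card * ldim p k := by
  have hM : Good p U (Ad0 r) := good_ad0 hker
  have := T.finite_H1 hM
  set P : Finset S := Finset.univ.filter fun v : S => (v : Nat.Primes) ∈ T₀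
  set C : ∀ v : S, AddSubgroup (H1v v (Ad0 r)) := fun v => G.map (locAt T v (Ad0 r))
  have hP : ∀ y : H1 (LS S) (Dual (chiQ p) (Ad0 r)),
      (∀ v ∉ P, locAt T v (Dual (chiQ p) (Ad0 r)) y = 0) → y = 0 := fun y hy => by
    have hN := hM.dual T.le_ker
    obtain ⟨z, hzy, hz₀⟩ := exists_descent T hU₀ hN.triv y fun v hv =>
      hy v (by simpa [P] using hv)
    have hcls : cls1 (LS T₀) _ (⟨z.1, hz₀⟩ : ↥((LS T₀).Z1 ⊤ (Dual (chiQ p) (Ad0 r)))) = 0 := by
      refine hQ.kill _ fun v hv => ?_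
      obtain ⟨m, hm⟩ := (locAt_cls_eq_zero_iff T v z).mp (hzy ▸ hy v (by simpa [P] using hv))
      obtain ⟨V, hV, hVc⟩ := z.2.1
      obtain ⟨K, hK, hKV, -⟩ := exists_normal_field ((LS S).inf_mem hV T.level)
      have := hK.1
      obtain ⟨d, hd⟩ := exists_localGalois_eq ((v : Nat.Primes) : ℕ) K
        (hQ.frob v hv).mem_decompositionSubgroup
      rw [evalAt_cls_eq_zero]
      refine mem_dRange.mpr ⟨m, ?_⟩
      set g := localGaloisToGlobal ((v : Nat.Primes) : ℕ) d
      have e1 : z.1 (φv v) = z.1 g := by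
        have := hVc g (Subgroup.mem_top _) _ ⟨Subgroup.mem_top _, (hKV hd).1⟩
        rwa [mul_inv_cancel_left] at this
      have e2 : φv v • m = g • m := by
        rw [show φv v = g * (g⁻¹ * φv v) by group, mul_smul, hN.triv _ (hKV hd).2]
      show φv v • m - m = z.1 (φv v)
      rw [e1, e2, hm d]
    rw [← hzy]
    obtain ⟨m, hm⟩ := cls1_eq_zero_iff.mp hcls
    exact cls1_eq_zero_iff.mpr ⟨m, hm⟩
  have hsel := ldim_selmer_add T hM P hP C
  have hG : ldim p G ≤ ldim p (selmer T (P : Set S) C) :=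
    ldim_le_of_injective p (AddSubgroup.inclusion (fun x hx => (mem_selmer T).mpr fun v _ =>
      AddSubgroup.mem_map_of_mem _ hx)) (AddSubgroup.inclusion_injective _)
  have hv1 : ∀ v : S, ldim p (H1v v (Ad0 r)) =
      ldim p (h0Sub (Gal' ((v : Nat.Primes) : ℕ))
        (Res (localGaloisToGlobal ((v : Nat.Primes) : ℕ)) (Ad0 r))) +
      ldim p (eqHom (chiQ p) (localGaloisToGlobal ((v : Nat.Primes) : ℕ)) (Ad0 r)) +
      lC p ((v : Nat.Primes) : ℕ) * ldim p (Ad0 r) := fun v => by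
    rw [ldim_H1v T hM v, ldim_eqHom_dual_at T hM v]
  simp only [hv1, Finset.sum_add_distrib, ← Finset.sum_mul] at hsel
  have hlC : (∑ v ∈ P, lC p ((v : Nat.Primes) : ℕ)) = 1 := by
    refine (Finset.sum_eq_single (⟨_, T.hpS⟩ : S) (fun w _ hw => ?_) (fun h => absurd ?_ h)).trans
      (if_pos rfl)
    · exact if_neg fun h => hw (Subtype.ext (Subtype.ext h.symm))
    · simpa [P] using hpT₀
  rw [hlC, one_mul, D.h0_eq_bot, ldim_of_subsingleton p (A := ↥(⊥ : AddSubgroup (Ad0 r)))] at hsel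
  have hinf := D.le_ldim_infFixed
  -- the auxiliary terms
  have hsplit := Finset.sum_filter_add_sum_filter_not (Finset.univ : Finset S)
    (fun v : S => (v : Nat.Primes) ∈ T₀)
    (fun v => ldim p (eqHom (chiQ p) (localGaloisToGlobal ((v : Nat.Primes) : ℕ)) (Ad0 r)))
  have hQle : ∑ v ∈ (Finset.univ : Finset S).filter (fun v : S => (v : Nat.Primes) ∉ T₀),
      ldim p (eqHom (chiQ p) (localGaloisToGlobal ((v : Nat.Primes) : ℕ)) (Ad0 r)) ≤
      ((Finset.univ : Finset S).filter fun v : S => (v : Nat.Primes) ∉ T₀).card * ldim p k := by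
    refine (Finset.sum_le_card_nsmul _ _ (ldim p k) fun v hv => ?_).trans
      (le_of_eq (smul_eq_mul _ _))
    rw [Finset.mem_filter] at hv
    exact ldim_eqHom_le T hker D v (hQ.frob v hv.2).mem_decompositionSubgroup (hQ.regular v hv.2)
      (hQ.cyclo v hv.2)
  have hCle : ∑ v ∈ P, (ldim p (C v) + a v) ≤ ∑ v ∈ P,
      (ldim p (h0Sub (Gal' ((v : Nat.Primes) : ℕ))
          (Res (localGaloisToGlobal ((v : Nat.Primes) : ℕ)) (Ad0 r))) +
        if (v : Nat.Primes) = ExtCitation.pPrime p then ldim p k else 0) :=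
    Finset.sum_le_sum fun v hv => hC v (by simpa [P] using hv)
  rw [Finset.sum_add_distrib, Finset.sum_add_distrib] at hCle
  have hite : (∑ v ∈ P, if (v : Nat.Primes) = ExtCitation.pPrime p then ldim p k else 0) =
      ldim p k := by
    refine (Finset.sum_eq_single (⟨_, T.hpS⟩ : S) (fun w _ hw => if_neg fun h => hw (Subtype.ext h))
      (fun h => absurd ?_ h)).trans (if_pos rfl)
    simpa [P] using hpT₀
  rw [hite] at hCle
  change ldim p G + ∑ v ∈ P, a v ≤ _
  have hPs : ∀ F : S → ℕ, ∑ v ∈ P, F v =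
      ∑ v ∈ (Finset.univ : Finset S).filter (fun v : S => (v : Nat.Primes) ∈ T₀), F v := fun F =>
    Finset.sum_congr (by ext v; simp [P]) fun _ _ => rfl
  simp only [hPs] at hsel hCle ⊢
  omega

end FermatAgent.CFT.Selmer
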