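import Fermat.Agent.CFT.Selmer.Decomp
import Fermat.Agent.CFT.Pairing.Global

/-!
Classes vanishing at auxiliary places come from the smaller set of primes.
-/

set_option autoImplicit false

noncomputable section

open scoped Classical Pointwise

namespace FermatAgent.CFT.Selmer

open GaloisBasic Global Local Coh Euler Pairing

variable {S₀ S : Finset Nat.Primes} {U : Subgroup GQ} {X : Type} [AddCommGroup X]
  [DistribMulAction GQ X]

/-- A cocycle vanishing on inertia outside a set of primes is constant modulo a level of that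
set. -/
theorem mem_Z1_of_unramified (hUn : U.Normal) (hU : U ∈ LS S₀) (hUS : U ∈ LS S)
    (hX : ∀ g ∈ U, ∀ x : X, g • x = x) {z : GQ → X} (hz : z ∈ (LS S).Z1 ⊤ X)
    (h : ∀ q : Nat.Primes, q ∈ S → q ∉ S₀ →
      ∃ A : ValuationSubring Qbar, A.LiesOverPrime (q : ℕ) ∧
        ∀ τ ∈ A.inertiaSubgroupIn ℚ, z τ = 0) : z ∈ (LS S₀).Z1 ⊤ X := by
  have hmul : ∀ g k, z (g * k) = g • z k + z g := fun g k =>
    Levels.Z1_apply_mul hz (Subgroup.mem_top g) (Subgroup.mem_top k)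
  let W : Subgroup GQ :=
    { carrier := {g | g ∈ U ∧ z g = 0}
      one_mem' := ⟨one_mem U, Levels.Z1_apply_one hz⟩
      mul_mem' :=
        fun {a b} ha hb => ⟨mul_mem ha.1 hb.1, by rw [hmul, hb.2, smul_zero, zero_add, ha.2]⟩
      inv_mem' := fun {a} ha => ⟨inv_mem ha.1, by
        have e := hmul a⁻¹ a
        rw [inv_mul_cancel, Levels.Z1_apply_one hz, ha.2, smul_zero, zero_add] at e
        exact e.symm⟩ }
  have hconj : ∀ g w, w ∈ W → g * w * g⁻¹ ∈ W := fun g w hw => by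
    refine ⟨hUn.conj_mem w hw.1 g, ?_⟩
    have e1 := hmul g g⁻¹
    rw [mul_inv_cancel, Levels.Z1_apply_one hz] at e1
    rw [hmul, hmul, hw.2, smul_zero, zero_add, mul_smul, hX w hw.1]
    exact e1.symm
  obtain ⟨V, hV, hVc⟩ := hz.1
  have hW : W ∈ LS S := Levels.mem_of_le ((LS S).inf_mem hV hUS) fun g hg => ⟨hg.2, by
    have e := hVc 1 (Subgroup.mem_top 1) g ⟨Subgroup.mem_top g, hg.1⟩
    rwa [one_mul, Levels.Z1_apply_one hz] at e⟩
  have hfix := fixingSubgroup_fixedField_of_mem (LS_le hW)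
  have hun : (IntermediateField.fixedField W).IsUnramifiedOutside S₀ := by
    have hF := isUnramifiedOutside_of_mem hW
    refine ⟨hF.1, fun q hq A hA σ hσ => ?_⟩
    by_cases hqS : q ∈ S
    · obtain ⟨B, hB, hBz⟩ := h q hqS hq
      obtain ⟨g, hg⟩ := exists_smul_eq q.2 hA hB
      have h1 := conj_mem_inertiaSubgroupIn q.2 hA hσ g
      rw [hg] at h1
      obtain ⟨F, hF0, hFU⟩ := hU
      have h2 : g * σ * g⁻¹ ∈ W := ⟨hFU (hF0.2 q hq B hB h1), hBz _ h1⟩
      have h3 := hconj g⁻¹ _ h2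
      rw [inv_inv, show g⁻¹ * (g * σ * g⁻¹) * g = σ by group] at h3
      exact hfix.ge h3
    · exact hF.2 q hqS A hA hσ
  refine ⟨⟨W, ?_, fun g _ s hs => ?_⟩, hz.2⟩
  · have := fixingSubgroup_mem_LS hun
    rwa [hfix] at this
  · rw [hmul, hs.2.2, smul_zero, zero_add]

variable {p : ℕ} [Fact p.Prime] (T : Setting p S U)

/-- A class which is trivial at a place vanishes on inertia there, up to the level. -/
theorem apply_inertia_eq_zero (hUS₀ : U ∈ LS S₀) (hX : ∀ g ∈ U, ∀ x : X, g • x = x)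
    (v : S) (hv : (v : Nat.Primes) ∉ S₀) {z : ↥((LS S).Z1 ⊤ X)}
    (hz : locAt T v X (cls1 (LS S) X z) = 0) :
    ∀ τ ∈ (padicPlace ((v : Nat.Primes) : ℕ)).inertiaSubgroupIn ℚ, z.1 τ = 0 := by
  intro τ hτ
  obtain ⟨m, hm⟩ := cls1_eq_zero_iff.mp hz
  obtain ⟨F, hF0, hFU⟩ := hUS₀
  have hτU : τ ∈ U := hFU (hF0.2 v hv _ liesOverPrime_padicPlace hτ)
  obtain ⟨V, hV, hVc⟩ := z.2.1
  obtain ⟨M, hM, hMV, -⟩ := exists_normal_field ((LS S).inf_mem hV T.level)
  have := hM.1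
  obtain ⟨d, hd⟩ := exists_localGalois_eq ((v : Nat.Primes) : ℕ) M
    (inertiaSubgroupIn_le_decompositionSubgroup _ hτ)
  have e1 : z.1 τ = z.1 (localGaloisToGlobal ((v : Nat.Primes) : ℕ) d) := by
    have := hVc (localGaloisToGlobal ((v : Nat.Primes) : ℕ) d) (Subgroup.mem_top _) _
      ⟨Subgroup.mem_top _, (hMV hd).1⟩
    rwa [mul_inv_cancel_left] at this
  have hdU : localGaloisToGlobal ((v : Nat.Primes) : ℕ) d ∈ U := by
    have := mul_mem hτU (inv_mem (hMV hd).2)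
    rwa [mul_inv_rev, inv_inv, mul_inv_cancel_left] at this
  rw [e1]
  exact (hm d (Subgroup.mem_top d)).trans (by
    show localGaloisToGlobal ((v : Nat.Primes) : ℕ) d • (show X from m) - (show X from m) = 0
    rw [hX _ hdU, sub_self])

/-- Classes of the large set which vanish at the new places come from the small set. -/
theorem exists_descent (hUS₀ : U ∈ LS S₀) (hX : ∀ g ∈ U, ∀ x : X, g • x = x) (x : H1 (LS S) X)
    (h : ∀ v : S, (v : Nat.Primes) ∉ S₀ → locAt T v X x = 0) :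
    ∃ (z : ↥((LS S).Z1 ⊤ X)), cls1 (LS S) X z = x ∧ z.1 ∈ (LS S₀).Z1 ⊤ X := by
  obtain ⟨z, rfl⟩ := cls1_surjective x
  exact ⟨z, rfl, mem_Z1_of_unramified T.normal hUS₀ T.level hX z.2 fun q hq hq₀ =>
    ⟨_, liesOverPrime_padicPlace, apply_inertia_eq_zero T hUS₀ hX ⟨q, hq⟩ hq₀ (h _ hq₀)⟩⟩

end FermatAgent.CFT.Selmer
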