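import Fermat.Agent.GaloisBasic.Inertia

/-!
Frobenius elements on roots of unity of order prime to the residue characteristic.
-/

set_option autoImplicit false

noncomputable section

namespace FermatAgent.CFT.Selmer

open GaloisBasic

/-- Frobenius raises roots of unity of order prime to `q` to their `q`-th power. -/
theorem frobenius_apply_root {A : ValuationSubring Qbar} {q : ℕ} (hq : q.Prime)
    (hA : A.LiesOverPrime q) {φ : GQ} (hφ : A.IsFrobeniusAt φ q) {m : ℕ} (hm : 0 < m)
    (hqm : ¬ q ∣ m) {μ : Qbar} (hμ : μ ^ m = 1) : φ μ = μ ^ q := by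
  let ζ : ZBar := ⟨μ, IsIntegral.of_pow hm (hμ.symm ▸ isIntegral_one)⟩
  have hζ : ζ ^ m = 1 := Subtype.ext hμ
  have hd := (isFrobeniusAt_iff hq hA φ).mp hφ ζ
  set x : ZBar := φ • ζ
  set y : ZBar := ζ ^ q
  have hx : x ^ m = 1 := Subtype.ext (by
    show φ μ ^ m = 1
    rw [← map_pow, hμ, map_one])
  have hy : y ^ m = 1 := by
    show (ζ ^ q) ^ m = 1
    rw [← pow_mul, mul_comm, pow_mul, hζ, one_pow]
  by_contra hne
  have hxy : x - y ≠ 0 := sub_ne_zero.mpr fun h => hne (by
    have := congrArg Subtype.val h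
    simpa [x, y, ζ] using this)
  have hsum : (∑ i ∈ Finset.range m, x ^ i * y ^ (m - 1 - i)) = 0 := by
    have h := geom_sum₂_mul x y m
    rw [hx, hy, sub_self] at h
    exact (mul_eq_zero.mp h).resolve_right hxy
  have hcl : ((m : ZBar)) * y ^ (m - 1) ∈ center A := by
    have h2 : (∑ i ∈ Finset.range m, x ^ i * y ^ (m - 1 - i)) - (m : ZBar) * y ^ (m - 1) ∈
        center A := by
      rw [← nsmul_eq_mul, show m • y ^ (m - 1) = ∑ _i ∈ Finset.range m, y ^ (m - 1) by simp,
        ← Finset.sum_sub_distrib]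
      refine Ideal.sum_mem _ fun i hi => ?_
      rw [Finset.mem_range] at hi
      have e : y ^ (m - 1) = y ^ i * y ^ (m - 1 - i) := by
        rw [← pow_add]; congr 1; omega
      rw [e, ← sub_mul]
      exact Ideal.mul_mem_right _ _ (Ideal.mem_of_dvd _ (sub_dvd_pow_sub_pow x y i) hd)
    rw [hsum, zero_sub, neg_mem_iff] at h2
    exact h2
  have hmc : (m : ZBar) ∈ center A := by
    have := Ideal.mul_mem_right y _ hcl
    rwa [mul_assoc, ← pow_succ, Nat.sub_add_cancel hm, hy, mul_one] at this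
  have h3 : (m : ℤ) ∈ (center A).under ℤ := by
    rw [Ideal.mem_comap]; simpa using hmc
  rw [under_int_eq hq (natCast_mem_center.mpr hA), Ideal.mem_span_singleton] at h3
  exact hqm (Int.natCast_dvd_natCast.mp h3)

end FermatAgent.CFT.Selmer
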