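import Fermat.Agent.CFT.Selmer.TwoByTwo

/-!
Finite groups of determinant one matrices containing the standard unipotent element and an element
moving its fixed line (`StdGroup`): their upper triangular, unipotent and scalar subgroups, the
order of the group, and elements with a repeated eigenvalue, for the count in `GroupTorus`.
-/

set_option autoImplicit false

noncomputable section

open scoped Classical Pointwise

namespace FermatAgent.CFT.Selmer

variable {k : Type} [Field k] [Finite k] {p : ℕ} [hp : Fact p.Prime] [CharP k p]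

/-- The hypotheses: determinant one, a standard unipotent element, an element moving its line. -/
structure StdGroup (H : Subgroup (M22 k)ˣ) : Prop where
  det_one : ∀ g ∈ H, (g : M22 k).det = 1
  unip : ∃ u ∈ H, (u : M22 k) = !![1, 1; 0, 1]
  moved : ∃ g ∈ H, (g : M22 k) 1 0 ≠ 0

variable {H : Subgroup (M22 k)ˣ}

/-- The matrix of an element. -/
def mat (g : H) : M22 k := ((g : (M22 k)ˣ) : M22 k)

section
omit [Finite k]

/-- Matrices multiply. -/
lemma mat_mul (g h : H) : mat (g * h) = mat g * mat h := rfl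

/-- The matrix of one. -/
lemma mat_one : mat (1 : H) = 1 := rfl

/-- Elements are determined by their matrices. -/
lemma mat_injective : Function.Injective (mat (H := H)) := fun _ _ h => Subtype.ext (Units.ext h)

lemma mat_mul_inv (g : H) : mat g * mat g⁻¹ = 1 := by rw [← mat_mul, mul_inv_cancel, mat_one]

lemma mul_upper {a b : M22 k} (ha : a 1 0 = 0) (hb : b 1 0 = 0) :
    (a * b) 1 0 = 0 ∧ (a * b) 0 0 = a 0 0 * b 0 0 := by
  simp [Matrix.mul_apply, Fin.sum_univ_two, ha, hb]

variable (H) in
/-- The stabiliser of the first line. -/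
def upperSub : Subgroup H where
  carrier := {g | mat g 1 0 = 0}
  one_mem' := by simp [mat_one]
  mul_mem' ha hb := (mul_upper ha hb).1
  inv_mem' {g} hg := by
    show mat g⁻¹ 1 0 = 0
    rw [show mat g⁻¹ = (((g : (M22 k)ˣ)⁻¹ : (M22 k)ˣ) : M22 k) from rfl, Matrix.coe_units_inv,
      Matrix.inv_def, Matrix.adjugate_fin_two]
    simp [show ((g : (M22 k)ˣ) : M22 k) 1 0 = 0 from hg]

/-- Membership in the stabiliser of the line. -/
lemma mem_upperSub {g : H} : g ∈ upperSub H ↔ mat g 1 0 = 0 := Iff.rfl

variable (H) in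
/-- The first diagonal entry. -/
def upperEntry : upperSub H →* kˣ :=
  MonoidHom.toHomUnits
    { toFun := fun g => mat (g : H) 0 0
      map_one' := by simp [mat_one]
      map_mul' := fun a b => (mul_upper a.2 b.2).2 }

lemma coe_upperEntry (g : upperSub H) : ((upperEntry H g : kˣ) : k) = mat (g : H) 0 0 := rfl

variable (H) in
/-- The action on the group of unipotent elements. -/
def upperWeight : upperSub H →* kˣ := (powMonoidHom 2).comp (upperEntry H)

/-- The weight is the square of the first entry. -/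
lemma coe_upperWeight (g : upperSub H) : ((upperWeight H g : kˣ) : k) = mat (g : H) 0 0 ^ 2 := rfl

variable (H) in
/-- The unipotent elements fixing the first line. -/
def unipSub : Subgroup H := (upperEntry H).ker.map (upperSub H).subtype

/-- Membership in the unipotent subgroup. -/
lemma mem_unipSub {g : H} : g ∈ unipSub H ↔ mat g 1 0 = 0 ∧ mat g 0 0 = 1 := by
  constructor
  · rintro ⟨b, hb, rfl⟩
    exact ⟨b.2, by
      have := congrArg Units.val (MonoidHom.mem_ker.mp hb)
      rwa [coe_upperEntry] at this⟩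
  · rintro ⟨h1, h2⟩
    exact ⟨⟨g, h1⟩, MonoidHom.mem_ker.mpr (Units.ext (by rw [coe_upperEntry]; exact h2)), rfl⟩

variable (H) in
/-- The scalar elements. -/
def scalSub : Subgroup H where
  carrier := {g | IsScal (mat g)}
  one_mem' := by simp [IsScal, mat_one]
  mul_mem' {a b} ha hb := by
    show IsScal (mat (a * b))
    rw [mat_mul, ha.eq, hb.eq, smul_mul_smul_comm, one_mul]
    exact isScal_smul_one _
  inv_mem' {a} ha := by
    show IsScal (mat a⁻¹)
    have h := mat_mul_inv a
    rw [ha.eq, smul_mul_assoc, one_mul] at h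
    have h0 : mat a 0 0 ≠ 0 := fun h0 => one_ne_zero (by rw [← h, h0, zero_smul] : (1 : M22 k) = 0)
    rw [show mat a⁻¹ = (mat a 0 0)⁻¹ • (mat a 0 0 • mat a⁻¹) by
      rw [inv_smul_smul₀ h0], h]
    exact isScal_smul_one _

/-- Membership in the scalars. -/
lemma mem_scalSub {g : H} : g ∈ scalSub H ↔ IsScal (mat g) := Iff.rfl

end

namespace StdGroup

variable (hH : StdGroup H)
include hH

section
omit [Finite k]

/-- The determinant is one. -/
lemma det (g : H) : (mat g).det = 1 := hH.det_one _ g.2

/-- The diagonal entries of a triangular element are inverse. -/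
lemma upper_11 {g : H} (hg : mat g 1 0 = 0) : mat g 0 0 * mat g 1 1 = 1 := by
  have := hH.det g
  rwa [Matrix.det_fin_two, hg, mul_zero, sub_zero] at this

/-- The shape of a unipotent element. -/
lemma unipSub_eq {g : H} (hg : g ∈ unipSub H) : mat g = !![1, mat g 0 1; 0, 1] := by
  obtain ⟨h1, h2⟩ := mem_unipSub.mp hg
  have h3 := hH.upper_11 h1
  rw [h2, one_mul] at h3
  ext i j; fin_cases i <;> fin_cases j <;> simp [h1, h2, h3]

/-- Scalars are `1` or `-1`. -/
lemma scal_pm {g : H} (hg : IsScal (mat g)) : mat g 0 0 = 1 ∨ mat g 0 0 = -1 := by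
  have h := hH.upper_11 hg.2.1
  rw [← hg.2.2] at h
  exact mul_self_eq_one_iff.mp h

/-- Scalars have squared trace four. -/
lemma trace_sq_scal {g : H} (hg : IsScal (mat g)) : (mat g).trace ^ 2 = 4 := by
  rw [Matrix.trace_fin_two, ← hg.2.2]
  rcases hH.scal_pm hg with h | h <;> rw [h] <;> ring

lemma pow_unip {g : H} (hg : g ∈ unipSub H) (j : ℕ) : mat (g ^ j) = !![1, j * mat g 0 1; 0, 1] := by
  induction j with
  | zero => simp [mat_one, Matrix.one_fin_two]
  | succ j ih =>
    rw [pow_succ, mat_mul, ih, hH.unipSub_eq hg]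
    ext a b; fin_cases a <;> fin_cases b <;> simp [Matrix.mul_apply, Fin.sum_univ_two]
    ring

include hp in
omit hp in
/-- Unipotent elements have order dividing `p`. -/
lemma pow_p_unip {g : H} (hg : g ∈ unipSub H) : g ^ p = 1 := by
  refine mat_injective ?_
  rw [hH.pow_unip hg, CharP.cast_eq_zero, zero_mul, mat_one, Matrix.one_fin_two]

include hp in
omit hp in
/-- The unipotent subgroup is a `p`-group. -/
lemma isPGroup_unipSub : IsPGroup p (unipSub H) := fun g =>
  ⟨1, Subtype.ext (by rw [pow_one]; exact hH.pow_p_unip g.2)⟩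

/-- An element commuting with a non scalar element of the first stabiliser's unipotent part. -/
lemma upper_of_commute_unip {g u : H} (hu : u ∈ unipSub H) (hu1 : mat u 0 1 ≠ 0)
    (h : u * g = g * u) : mat g 1 0 = 0 := by
  have e := congrFun (congrFun (congrArg mat h) 0) 0
  rw [mat_mul, mat_mul, hH.unipSub_eq hu] at e
  simp [Matrix.mul_apply, Fin.sum_univ_two] at e
  exact e.resolve_left hu1

/-- The standard unipotent element lies in the group. -/
lemma exists_unip : ∃ u : H, u ∈ unipSub H ∧ mat u = !![1, 1; 0, 1] := by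
  obtain ⟨u, hu, he⟩ := hH.unip
  have he' : mat (⟨u, hu⟩ : H) = !![1, 1; 0, 1] := he
  exact ⟨⟨u, hu⟩, mem_unipSub.mpr ⟨by simp [he'], by simp [he']⟩, he'⟩

/-- The unipotent elements act freely on the other lines. -/
lemma eq_one_of_fix {u g : H} (hu : u ∈ unipSub H) (hg : mat g 1 0 ≠ 0)
    (h : g⁻¹ * u * g ∈ upperSub H) : u = 1 := by
  have e : mat g * mat (g⁻¹ * u * g) = mat u * mat g := by rw [← mat_mul, ← mat_mul]; group
  have h00 := congrFun (congrFun e 0) 0
  have h10 := congrFun (congrFun e 1) 0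
  rw [hH.unipSub_eq hu] at h00 h10
  simp [Matrix.mul_apply, Fin.sum_univ_two, show mat (g⁻¹ * u * g) 1 0 = 0 from h] at h00 h10
  have hy : mat (g⁻¹ * u * g) 0 0 = 1 :=
    mul_left_cancel₀ hg (by rw [h10, mul_one])
  rw [hy, mul_one] at h00
  have : mat u 0 1 = 0 := by
    rcases mul_eq_zero.mp (show mat u 0 1 * mat g 1 0 = 0 by linear_combination -h00) with h' | h'
    · exact h'
    · exact absurd h' hg
  refine mat_injective ?_
  rw [hH.unipSub_eq hu, this, mat_one, Matrix.one_fin_two]

end

/-- The index of the stabiliser of the line. -/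
lemma exists_index : ∃ m : ℕ, 0 < m ∧ (upperSub H).index = 1 + Nat.card (unipSub H) * m := by
  let Y := {c : H ⧸ upperSub H // c ≠ ((1 : H) : H ⧸ upperSub H)}
  let : MulAction (unipSub H) Y :=
    { smul := fun u c => ⟨(u : H) • c.1, fun h => c.2 (by
        have h' := congrArg ((u : H)⁻¹ • ·) h
        simp only [inv_smul_smul] at h'
        rw [h', MulAction.Quotient.smul_coe, smul_eq_mul, mul_one, QuotientGroup.eq]
        simp only [inv_inv, mul_one]
        exact (mem_unipSub.mp u.2).1)⟩
      one_smul := fun c => Subtype.ext (one_smul H c.1)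
      mul_smul := fun u u' c => Subtype.ext (mul_smul (u : H) (u' : H) c.1) }
  have hfree : ∀ c : Y, MulAction.stabilizer (unipSub H) c = ⊥ := fun c => by
    refine (Subgroup.eq_bot_iff_forall _).mpr fun u hu => Subtype.ext ?_
    have hc := QuotientGroup.out_eq' c.1
    have hne : mat c.1.out 1 0 ≠ 0 := fun h0 => c.2 (by
      rw [← hc, QuotientGroup.eq, mul_one]
      exact inv_mem (mem_upperSub.mpr h0))
    refine hH.eq_one_of_fix u.2 hne ?_
    have h := congrArg Subtype.val hu
    rw [show ((u • c : Y) : H ⧸ upperSub H) = (u : H) • c.1 from rfl, ← hc,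
      MulAction.Quotient.smul_coe, smul_eq_mul, QuotientGroup.eq] at h
    have h' := inv_mem h
    rwa [mul_inv_rev, inv_inv, ← mul_assoc] at h'
  refine ⟨Nat.card (MulAction.orbitRel.Quotient (unipSub H) Y), ?_, ?_⟩
  · obtain ⟨g, hg, hg10⟩ := hH.moved
    have : Nonempty Y := ⟨⟨((⟨g, hg⟩ : H) : H ⧸ upperSub H), fun h => hg10 (by
      rw [QuotientGroup.eq, mul_one] at h
      exact mem_upperSub.mp (inv_mem_iff.mp h))⟩⟩
    have : Nonempty (MulAction.orbitRel.Quotient (unipSub H) Y) :=
      Nonempty.map (Quotient.mk _) ‹Nonempty Y›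
    exact Nat.card_pos
  · have e1 : Nat.card (H ⧸ upperSub H) = 1 + Nat.card Y := by
      have := Fintype.ofFinite (H ⧸ upperSub H)
      rw [Nat.card_eq_fintype_card, Nat.card_eq_fintype_card, Fintype.card_subtype_compl,
        Fintype.card_subtype_eq]
      have := Fintype.card_pos (α := H ⧸ upperSub H)
      omega
    rw [Subgroup.index_eq_card, e1, Nat.card_congr (MulAction.selfEquivOrbitsQuotientProd hfree),
      Nat.card_prod, mul_comm]

omit [Finite k] hH in
/-- Two is nonzero for odd `p`. -/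
lemma two_ne_zero_of (hp2 : p ≠ 2) : (2 : k) ≠ 0 := by
  intro h
  have h2 : ((2 : ℕ) : k) = 0 := by exact_mod_cast h
  rw [CharP.cast_eq_zero_iff k p] at h2
  exact hp2 ((Nat.prime_dvd_prime_iff_eq hp.out Nat.prime_two).mp h2)

section
omit [Finite k]

/-- A triangular element of weight one has equal diagonal entries and squared trace four. -/
lemma upper_pm {g : H} (hg : mat g 1 0 = 0) (h2 : mat g 0 0 ^ 2 = 1) :
    mat g 0 0 = mat g 1 1 ∧ (mat g).trace ^ 2 = 4 := by
  have h := hH.upper_11 hg
  have e : mat g 0 0 = mat g 1 1 := by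
    linear_combination mat g 1 1 * h2 - mat g 0 0 * h
  refine ⟨e, ?_⟩
  rw [Matrix.trace_fin_two, ← e]
  linear_combination 4 * h2

/-- The negative of the unit is present when a negative unipotent element is. -/
lemma scal_mul_unip (hp2 : p ≠ 2) {g : H} (hg : mat g 1 0 = 0) (h2 : mat g 0 0 ^ 2 = 1) :
    ∃ s u : H, IsScal (mat s) ∧ u ∈ unipSub H ∧ g = s * u := by
  rcases sq_eq_one_iff.mp h2 with h | h
  · exact ⟨1, g, by simp [IsScal, mat_one], mem_unipSub.mpr ⟨hg, h⟩, (one_mul g).symm⟩
  · have hgg : g * g ∈ unipSub H := mem_unipSub.mpr ⟨(mul_upper hg hg).1, by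
      rw [mat_mul, (mul_upper hg hg).2, h]; ring⟩
    obtain ⟨j, hj⟩ := Nat.Prime.odd_of_ne_two hp.out hp2
    have hgp : mat (g ^ p) 1 0 = 0 ∧ mat (g ^ p) 0 0 = -1 := by
      have hmem : g ^ p ∈ upperSub H := pow_mem (mem_upperSub.mpr hg) p
      refine ⟨hmem, ?_⟩
      have := congrArg Units.val (map_pow (upperEntry H) ⟨g, hg⟩ p)
      rw [Units.val_pow_eq_pow_val, coe_upperEntry, coe_upperEntry] at this
      refine this.trans ?_
      show mat g 0 0 ^ p = -1
      rw [h, hj]
      exact Odd.neg_one_pow ⟨j, rfl⟩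
    have hsq : mat (g ^ p * g ^ p) = 1 := by
      rw [← pow_add, ← two_mul, pow_mul, pow_two, hH.pow_p_unip hgg, mat_one]
    have hs : IsScal (mat (g ^ p)) := by
      have h01 := congrFun (congrFun hsq 0) 1
      have h11 := hH.upper_11 hgp.1
      rw [hgp.2] at h11
      simp [mat_mul, Matrix.mul_apply, Fin.sum_univ_two, hgp.2] at h01
      have e11 : mat (g ^ p) 1 1 = -1 := by linear_combination -h11
      rw [e11] at h01
      refine ⟨?_, hgp.1, hgp.2.trans e11.symm⟩
      exact (mul_eq_zero.mp (show (2 : k) * mat (g ^ p) 0 1 = 0 by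
        linear_combination -h01)).resolve_left (two_ne_zero_of hp2)
    refine ⟨g ^ p, (g ^ p)⁻¹ * g, hs, mem_unipSub.mpr ?_, (mul_inv_cancel_left _ _).symm⟩
    have hi : mat (g ^ p)⁻¹ 1 0 = 0 := mem_upperSub.mp (inv_mem (mem_upperSub.mpr hgp.1))
    have hi0 : mat (g ^ p)⁻¹ 0 0 = -1 := by
      have := congrFun (congrFun (mat_mul_inv (g ^ p)) 0) 0
      rw [(mul_upper hgp.1 hi).2, hgp.2, Matrix.one_apply_eq] at this
      linear_combination -this
    rw [mat_mul]
    exact ⟨(mul_upper hi hg).1, by rw [(mul_upper hi hg).2, hi0, h]; ring⟩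

/-- The kernel of the weight. -/
lemma card_ker_weight (hp2 : p ≠ 2) :
    Nat.card (upperWeight H).ker = Nat.card (scalSub H) * Nat.card (unipSub H) := by
  have hw : ∀ b : upperSub H, b ∈ (upperWeight H).ker ↔ mat (b : H) 0 0 ^ 2 = 1 := fun b => by
    rw [MonoidHom.mem_ker, Units.ext_iff, coe_upperWeight, Units.val_one]
  have hsu : ∀ (s : scalSub H) (u : unipSub H),
      mat ((s : H) * (u : H)) 1 0 = 0 ∧
        mat ((s : H) * (u : H)) 0 0 = mat (s : H) 0 0 := fun s u => by
    have h1 := mem_unipSub.mp u.2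
    rw [mat_mul]
    exact ⟨(mul_upper s.2.2.1 h1.1).1, by rw [(mul_upper s.2.2.1 h1.1).2, h1.2, mul_one]⟩
  rw [← Nat.card_prod]
  refine (Nat.card_eq_of_bijective (fun x : scalSub H × unipSub H =>
    (⟨⟨(x.1 : H) * (x.2 : H), (hsu x.1 x.2).1⟩, (hw _).mpr (by
      show mat ((x.1 : H) * (x.2 : H)) 0 0 ^ 2 = 1
      rw [(hsu x.1 x.2).2]
      rcases hH.scal_pm x.1.2 with h | h <;> rw [h] <;> ring)⟩ : (upperWeight H).ker))
        ⟨?_, ?_⟩).symm
  · rintro ⟨s, u⟩ ⟨s', u'⟩ h
    have h' : (s : H) * u = s' * u' :=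
      congrArg (fun b : (upperWeight H).ker => ((b : upperSub H) : H)) h
    have e := congrFun (congrFun (congrArg mat h') 0) 0
    rw [(hsu s u).2, (hsu s' u').2] at e
    have hs : s = s' := Subtype.ext (mat_injective (by
      rw [(show IsScal (mat (s : H)) from s.2).eq, (show IsScal (mat (s' : H)) from s'.2).eq, e]))
    subst hs
    exact Prod.ext rfl (Subtype.ext (mul_left_cancel h'))
  · rintro ⟨⟨g, hg⟩, hgk⟩
    obtain ⟨s, u, hs, hu, hgsu⟩ := hH.scal_mul_unip hp2 hg ((hw _).mp hgk)
    exact ⟨(⟨s, hs⟩, ⟨u, hu⟩), Subtype.ext (Subtype.ext hgsu.symm)⟩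

/-- The order of the group. -/
lemma card_eq (hp2 : p ≠ 2) :
    Nat.card H = (upperSub H).index * (Nat.card (upperWeight H).range *
      (Nat.card (scalSub H) * Nat.card (unipSub H))) := by
  rw [← hH.card_ker_weight hp2, ← Subgroup.index_ker, Subgroup.index_mul_card,
    Subgroup.index_mul_card]

end

/-- The unipotent elements form a Sylow subgroup. -/
lemma not_dvd_index_unipSub (hp2 : p ≠ 2) : ¬ p ∣ (unipSub H).index := by
  obtain ⟨m, -, hm⟩ := hH.exists_index
  have hq : p ∣ Nat.card (unipSub H) := by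
    obtain ⟨u, hu, hu1⟩ := hH.exists_unip
    have hne : (⟨u, hu⟩ : unipSub H) ≠ 1 := fun h => by
      have := congrFun (congrFun (congrArg mat (congrArg Subtype.val h)) 0) 1
      rw [hu1] at this
      simp [mat_one] at this
    have ho : orderOf (⟨u, hu⟩ : unipSub H) = p :=
      orderOf_eq_prime (Subtype.ext (hH.pow_p_unip hu)) hne
    exact ho ▸ orderOf_dvd_natCard _
  have e := Subgroup.index_mul_card (unipSub H)
  rw [hH.card_eq hp2] at e
  have hidx : (unipSub H).index =
      (upperSub H).index * (Nat.card (upperWeight H).range * Nat.card (scalSub H)) :=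
    Nat.eq_of_mul_eq_mul_right (Nat.card_pos) (e.trans (by ring))
  intro h
  rw [hidx] at h
  rcases hp.out.dvd_mul.mp h with h1 | h1
  · rw [hm, Nat.dvd_add_left (hq.mul_right m)] at h1
    exact hp.out.one_lt.ne' (Nat.dvd_one.mp h1)
  · rcases hp.out.dvd_mul.mp h1 with h2 | h2
    · obtain ⟨x, hx⟩ := exists_prime_orderOf_dvd_card' p h2
      have hxp : ((x : kˣ) : k) ^ p = 1 := by
        rw [← Units.val_pow_eq_pow_val, ← SubmonoidClass.coe_pow, ← hx, pow_orderOf_eq_one]
        rfl
      have hx1 : x = 1 := by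
        refine Subtype.ext (Units.ext ?_)
        have h0 : (((x : kˣ) : k) - 1) ^ p = 0 := by rw [sub_pow_char, hxp, one_pow, sub_self]
        exact sub_eq_zero.mp (pow_eq_zero_iff hp.out.ne_zero |>.mp h0)
      rw [hx1, orderOf_one] at hx
      exact hp.out.one_lt.ne hx
    · obtain ⟨x, hx⟩ := exists_prime_orderOf_dvd_card' p h2
      have h4 : x ^ 2 = 1 := Subtype.ext (mat_injective (by
        have hs : IsScal (mat (x : H)) := x.2
        rw [SubmonoidClass.coe_pow, pow_two, mat_mul, hs.eq, smul_mul_smul_comm, one_mul]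
        rcases hH.scal_pm hs with h | h <;> rw [h] <;> simp [mat_one]))
      have := orderOf_dvd_of_pow_eq_one h4
      rw [hx] at this
      exact hp2 ((Nat.prime_dvd_prime_iff_eq hp.out Nat.prime_two).mp this)

/-- A non scalar element with a repeated eigenvalue is conjugate into the first stabiliser. -/
lemma exists_conj_upper (hp2 : p ≠ 2) {g : H} (hg : ¬ IsScal (mat g))
    (ht : (mat g).trace ^ 2 = 4) : ∃ h : H, h * g * h⁻¹ ∈ upperSub H := by
  have h4 : mat (g * g) + mat (1 : H) = (mat g).trace • mat g := by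
    rw [mat_mul, mul_self_eq, hH.det, one_smul, mat_one, sub_add_cancel]
  -- the square is unipotent
  set N : M22 k := mat (g * g) - 1 with hN
  have hg2 : mat (g * g) = (mat g).trace • mat g - 1 := by
    rw [← h4, mat_one, add_sub_cancel_right]
  have hNN : N * N = 0 := by
    have hNe : N = (mat g).trace • mat g - (2 : k) • 1 := by
      rw [hN, hg2, two_smul]; abel
    have hGG : mat g * mat g = (mat g).trace • mat g - 1 := by rw [← mat_mul, hg2]
    have hT : (mat g).trace * (mat g).trace = 4 := by rw [← pow_two, ht]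
    rw [hNe, mul_sub, sub_mul, sub_mul, smul_mul_smul_comm, hGG, hT]
    simp only [smul_mul_assoc, mul_smul_comm, one_mul, mul_one, smul_smul]
    module
  have hpow : ∀ j : ℕ, mat ((g * g) ^ j) = 1 + (j : k) • N := fun j => by
    induction j with
    | zero => simp [mat_one]
    | succ j ih =>
      rw [pow_succ, mat_mul, ih, show mat (g * g) = 1 + N by rw [hN, add_sub_cancel], add_mul,
        one_mul, smul_mul_assoc, mul_add, mul_one, hNN, add_zero, Nat.cast_succ, add_smul, one_smul]
      abel
  have hgp : (g * g) ^ p = 1 := mat_injective (by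
    rw [hpow, CharP.cast_eq_zero, zero_smul, add_zero, mat_one])
  have hne : g * g ≠ 1 := fun h => hg (by
    rw [h, mat_one] at hg2
    have htne : (mat g).trace ≠ 0 := fun h0 => by
      rw [h0] at ht
      norm_num at ht
      exact two_ne_zero_of hp2 (by
        have : (2 : k) * 2 = 0 := by linear_combination -ht
        exact mul_self_eq_zero.mp this)
    have e : mat g = ((mat g).trace⁻¹ * 2) • 1 := by
      rw [mul_smul, two_smul, show (1 : M22 k) + 1 = (mat g).trace • mat g from
        (eq_add_of_sub_eq hg2.symm).symm, inv_smul_smul₀ htne]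
    rw [e]
    exact isScal_smul_one _)
  have hQ : IsPGroup p (Subgroup.zpowers (g * g)) := by
    refine IsPGroup.of_card (n := 1) ?_
    rw [Nat.card_zpowers, orderOf_eq_prime hgp hne, pow_one]
  obtain ⟨Q, hQle⟩ := hQ.exists_le_sylow
  obtain ⟨h, hh⟩ := MulAction.exists_smul_eq H Q
    ((hH.isPGroup_unipSub).toSylow (hH.not_dvd_index_unipSub hp2))
  refine ⟨h, ?_⟩
  have hmem : h * (g * g) * h⁻¹ ∈ unipSub H := by
    have h1 := Subgroup.smul_mem_pointwise_smul (g * g) (MulAut.conj h) (Q : Subgroup H)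
      (hQle (Subgroup.mem_zpowers _))
    rw [show MulAut.conj h • (Q : Subgroup H) = ((h • Q : Sylow p H) : Subgroup H) from rfl,
      hh] at h1
    simpa [MulAut.smul_def] using h1
  refine hH.upper_of_commute_unip hmem (fun h0 => hne ?_) (by group)
  have h1 : h * (g * g) * h⁻¹ = 1 := mat_injective (by
    rw [hH.unipSub_eq hmem, h0, mat_one, Matrix.one_fin_two])
  rwa [mul_inv_eq_one, mul_eq_left] at h1

end StdGroup

end FermatAgent.CFT.Selmer
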