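import Fermat.Agent.CFT.Selmer.GroupTorus

/-!
The first cohomology of the twisted adjoint module of a finite group of two by two matrices with
no stable line and with non square determinants vanishes.
-/

set_option autoImplicit false

noncomputable section

open scoped Classical

namespace FermatAgent.CFT.Selmer

variable {k : Type} [Field k]

/-- The twisted adjoint action. -/
def twAd (g : (M22 k)ˣ) (X : M22 k) : M22 k :=
  (g : M22 k).det • ((g : M22 k) * X * ((g⁻¹ : (M22 k)ˣ) : M22 k))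

lemma twAd_add (g : (M22 k)ˣ) (X Y : M22 k) : twAd g (X + Y) = twAd g X + twAd g Y := by
  simp [twAd, mul_add, add_mul, smul_add]

lemma twAd_sub (g : (M22 k)ˣ) (X Y : M22 k) : twAd g (X - Y) = twAd g X - twAd g Y := by
  simp [twAd, mul_sub, sub_mul, smul_sub]

lemma twAd_smul (g : (M22 k)ˣ) (c : k) (X : M22 k) : twAd g (c • X) = c • twAd g X := by
  simp [twAd, smul_comm c]

lemma twAd_one (X : M22 k) : twAd 1 X = X := by simp [twAd]

lemma twAd_mul (g h : (M22 k)ˣ) (X : M22 k) : twAd (g * h) X = twAd g (twAd h X) := by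
  simp [twAd, mul_inv_rev, smul_smul, mul_assoc]

lemma trace_twAd (g : (M22 k)ˣ) {X : M22 k} (hX : X.trace = 0) : (twAd g X).trace = 0 := by
  rw [twAd, Matrix.trace_smul, trace_conj_units, hX, smul_zero]

/-- Cocycles of the twisted adjoint module on a subgroup. -/
structure IsTwCocycle (G : Subgroup (M22 k)ˣ) (z : (M22 k)ˣ → M22 k) : Prop where
  trace_zero : ∀ g ∈ G, (z g).trace = 0
  map_mul : ∀ g ∈ G, ∀ h ∈ G, z (g * h) = z g + twAd g (z h)

/-- Coboundaries of the twisted adjoint module on a subgroup. -/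
def IsTwBoundary (G : Subgroup (M22 k)ˣ) (z : (M22 k)ˣ → M22 k) : Prop :=
  ∃ m : M22 k, m.trace = 0 ∧ ∀ g ∈ G, z g = twAd g m - m

lemma IsTwCocycle.sub_boundary {G : Subgroup (M22 k)ˣ} {z : (M22 k)ˣ → M22 k}
    (hz : IsTwCocycle G z) {m : M22 k} (hm : m.trace = 0) :
    IsTwCocycle G fun g => z g - (twAd g m - m) where
  trace_zero g hg := by
    simp [Matrix.trace_sub, hz.trace_zero g hg, trace_twAd g hm, hm]
  map_mul g hg h hh := by
    simp only [hz.map_mul g hg h hh, twAd_mul, twAd_sub]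
    abel

lemma IsTwCocycle.map_one {G : Subgroup (M22 k)ˣ} {z : (M22 k)ˣ → M22 k}
    (hz : IsTwCocycle G z) : z 1 = 0 := by
  have := hz.map_mul 1 (one_mem G) 1 (one_mem G)
  rwa [mul_one, twAd_one, left_eq_add] at this

/-- A cocycle vanishing on a subgroup of index prime to the characteristic is a coboundary. -/
lemma isTwBoundary_of_subgroup {G P : Subgroup (M22 k)ˣ} [Finite G] {z : (M22 k)ˣ → M22 k}
    (hz : IsTwCocycle G z) (hidx : ((P.subgroupOf G).index : k) ≠ 0)
    {m₀ : M22 k} (hm₀ : m₀.trace = 0) (hP : ∀ g ∈ P, z g = twAd g m₀ - m₀) :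
    IsTwBoundary G z := by
  set w : (M22 k)ˣ → M22 k := fun g => z g - (twAd g m₀ - m₀)
  have hw := hz.sub_boundary hm₀
  have hw0 : ∀ g ∈ P, w g = 0 := fun g hg => by simp [w, hP g hg]
  have hwm : ∀ a ∈ G, ∀ b ∈ G, w (a * b) = w a + twAd a (w b) := hw.map_mul
  let N := G ⧸ P.subgroupOf G
  have : Fintype N := Fintype.ofFinite _
  let val : N → M22 k := fun c => w (c.out : (M22 k)ˣ)
  set S := ∑ c : N, val c
  have key : ∀ g : G, twAd (g : (M22 k)ˣ) S = S - ((P.subgroupOf G).index : k) • w g := fun g => by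
    have h1 : ∀ c : N, twAd (g : (M22 k)ˣ) (val c) = val (g • c) - w g := fun c => by
      obtain ⟨ν, hν⟩ := QuotientGroup.mk_out_eq_mul (P.subgroupOf G) (g * c.out)
      have e : g • c = ((g * c.out : G) : N) := by
        conv_lhs => rw [← QuotientGroup.out_eq' c]
        rfl
      show twAd _ _ = w ((g • c).out : (M22 k)ˣ) - w g
      rw [e, hν]
      rw [show (((g * c.out * ν : G)) : (M22 k)ˣ) =
          (g : (M22 k)ˣ) * (c.out : (M22 k)ˣ) * (ν : G) from rfl,
        hwm _ (mul_mem g.2 (c.out).2) _ (ν : G).2,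
        hw0 _ (show ((ν : G) : (M22 k)ˣ) ∈ P from ν.2), hwm _ g.2 _ (c.out).2]
      simp [twAd, val]
    have hlin : twAd (g : (M22 k)ˣ) S = ∑ c : N, twAd (g : (M22 k)ˣ) (val c) :=
      map_sum (AddMonoidHom.mk' (twAd (g : (M22 k)ˣ)) (twAd_add _)) val Finset.univ
    rw [hlin, Finset.sum_congr rfl fun c _ => h1 c, Finset.sum_sub_distrib,
      show ∑ c : N, val (g • c) = S from Equiv.sum_comp (MulAction.toPerm g) val,
      Finset.sum_const, Finset.card_univ, ← Nat.card_eq_fintype_card, ← Subgroup.index_eq_card,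
      ← Nat.cast_smul_eq_nsmul k]
  have hSt : S.trace = 0 := by
    simp only [S, Matrix.trace_sum]
    exact Finset.sum_eq_zero fun c _ => hw.trace_zero _ (c.out).2
  refine ⟨m₀ - ((P.subgroupOf G).index : k)⁻¹ • S, by simp [hm₀, hSt], fun g hg => ?_⟩
  rw [twAd_sub, twAd_smul, key ⟨g, hg⟩, smul_sub, inv_smul_smul₀ hidx]
  show z g = _ - (_ - (z g - (twAd g m₀ - m₀))) - _
  abel

/-- The standard unipotent elements. -/
def unipU (a : k) : (M22 k)ˣ :=
  ⟨!![1, a; 0, 1], !![1, -a; 0, 1],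
    by ext i j; fin_cases i <;> fin_cases j <;> simp [Matrix.mul_apply, Fin.sum_univ_two],
    by ext i j; fin_cases i <;> fin_cases j <;> simp [Matrix.mul_apply, Fin.sum_univ_two]⟩

lemma coe_unipU (a : k) : ((unipU a : (M22 k)ˣ) : M22 k) = !![1, a; 0, 1] := rfl

lemma unipU_add (a b : k) : unipU (a + b) = unipU a * unipU b :=
  Units.ext (by
    ext i j; fin_cases i <;> fin_cases j <;>
      simp [coe_unipU, Matrix.mul_apply, Fin.sum_univ_two]
    exact add_comm _ _)

lemma det_unipU (a : k) : ((unipU a : (M22 k)ˣ) : M22 k).det = 1 := by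
  simp [coe_unipU, Matrix.det_fin_two]

lemma twAd_unipU (a : k) {X : M22 k} (hX : X.trace = 0) :
    twAd (unipU a) X 1 0 = X 1 0 ∧ twAd (unipU a) X 0 0 = X 0 0 + a * X 1 0 ∧
      twAd (unipU a) X 0 1 = X 0 1 - 2 * a * X 0 0 - a ^ 2 * X 1 0 := by
  have h11 : X 1 1 = -X 0 0 := by
    rw [Matrix.trace_fin_two] at hX; linear_combination hX
  rw [twAd, det_unipU, one_smul,
    show (((unipU a)⁻¹ : (M22 k)ˣ) : M22 k) = !![1, -a; 0, 1] from rfl, coe_unipU]
  refine ⟨?_, ?_, ?_⟩ <;> simp [Matrix.mul_apply, Fin.sum_univ_two, Matrix.vecMul,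
    dotProduct, h11]; ring

/-- An upper triangular element conjugates a unipotent element. -/
lemma upper_mul_unipU {d : (M22 k)ˣ} (hd : (d : M22 k) 1 0 = 0) (b : k) :
    d * unipU b = unipU ((d : M22 k) 0 0 / (d : M22 k) 1 1 * b) * d := by
  have hdet : IsUnit (d : M22 k).det := (Matrix.isUnit_iff_isUnit_det _).mp d.isUnit
  rw [Matrix.det_fin_two, hd, mul_zero, sub_zero] at hdet
  have h1 : (d : M22 k) 1 1 ≠ 0 := (mul_ne_zero_iff.mp hdet.ne_zero).2
  refine Units.ext ?_
  ext i j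
  fin_cases i <;> fin_cases j <;>
    simp [coe_unipU, Matrix.mul_apply, Fin.sum_univ_two, hd]
  field_simp
  ring

lemma twAd_upper {d : (M22 k)ˣ} (hd : (d : M22 k) 1 0 = 0) {X : M22 k} :
    twAd d X 1 0 = (d : M22 k) 1 1 ^ 2 * X 1 0 ∧
      (X 1 0 = 0 → X 0 0 = 0 → X 1 1 = 0 →
        twAd d X 0 0 = 0 ∧ twAd d X 0 1 = (d : M22 k) 0 0 ^ 2 * X 0 1) := by
  have hdet : IsUnit (d : M22 k).det := (Matrix.isUnit_iff_isUnit_det _).mp d.isUnit
  have hne := hdet.ne_zero
  rw [Matrix.det_fin_two, hd, mul_zero, sub_zero] at hne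
  rw [twAd, Matrix.coe_units_inv, Matrix.inv_def, Matrix.adjugate_fin_two, Ring.inverse_eq_inv',
    Matrix.det_fin_two, hd, mul_zero, sub_zero]
  obtain ⟨h0, h1⟩ := mul_ne_zero_iff.mp hne
  refine ⟨?_, fun a b c => ⟨?_, ?_⟩⟩
  · simp [Matrix.mul_apply, Fin.sum_univ_two, hd]
    field_simp
  · simp [Matrix.mul_apply, Fin.sum_univ_two, a, b, c]
  · simp [Matrix.mul_apply, Fin.sum_univ_two, a, b, c]
    field_simp

/-! ### Groups containing the standard unipotent element -/

variable {G : Subgroup (M22 k)ˣ} {z : (M22 k)ˣ → M22 k}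

/-- The elements of determinant one. -/
private def detOnePart (G : Subgroup (M22 k)ˣ) : Subgroup (M22 k)ˣ :=
  G ⊓ (Units.map (Matrix.detMonoidHom : M22 k →* k)).ker

/-- Membership in the part of determinant one. -/
private lemma mem_detOnePart {g : (M22 k)ˣ} :
    g ∈ detOnePart G ↔ g ∈ G ∧ (g : M22 k).det = 1 := by
  rw [detOnePart, Subgroup.mem_inf, MonoidHom.mem_ker, Units.ext_iff]
  rfl

/-- The part of determinant one is normalised by the group. -/
private lemma conj_mem_detOnePart {g u : (M22 k)ˣ} (hg : g ∈ G) (hu : u ∈ detOnePart G) :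
    g * u * g⁻¹ ∈ detOnePart G := by
  rw [mem_detOnePart] at hu ⊢
  exact ⟨mul_mem (mul_mem hg hu.1) (inv_mem hg), by
    rw [Units.val_mul, Units.val_mul, det_conj_units, hu.2]⟩

/-- The part of determinant one is a standard group. -/
private lemma stdGroup_detOnePart (hu : unipU (1 : k) ∈ G)
    (hmov : ∃ g ∈ G, (g : M22 k) 1 0 ≠ 0) : StdGroup (detOnePart G) := by
  have huH : unipU (1 : k) ∈ detOnePart G := mem_detOnePart.mpr ⟨hu, det_unipU 1⟩
  refine ⟨fun g hg => (mem_detOnePart.mp hg).2, ⟨_, huH, rfl⟩, ?_⟩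
  obtain ⟨g, hg, hg10⟩ := hmov
  refine ⟨_, conj_mem_detOnePart hg huH, ?_⟩
  rw [Units.val_mul, Units.val_mul, coe_unipU, conj_unip_10]
  have hne : (g : M22 k).det ≠ 0 := ((Matrix.isUnit_iff_isUnit_det _).mp g.isUnit).ne_zero
  simp [hg10, hne]

/-- The parameters of the unipotent elements of the group. -/
private def unipParams (G : Subgroup (M22 k)ˣ) : AddSubgroup k where
  carrier := {a | unipU a ∈ G}
  zero_mem' := by
    show unipU (0 : k) ∈ G
    rw [show unipU (0 : k) = 1 from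
      Units.ext (by rw [coe_unipU, Units.val_one, Matrix.one_fin_two])]
    exact one_mem G
  add_mem' {a b} ha hb := by
    show unipU (a + b) ∈ G
    rw [unipU_add]; exact mul_mem ha hb
  neg_mem' {a} ha := by
    show unipU (-a) ∈ G
    rw [show unipU (-a) = (unipU a)⁻¹ from Units.ext rfl]; exact inv_mem ha

/-- An upper triangular element multiplies the parameters by the ratio of its diagonal. -/
private lemma div_mul_mem_unipParams {d : (M22 k)ˣ} (hd : d ∈ G) (hd0 : (d : M22 k) 1 0 = 0)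
    {b : k} (hb : b ∈ unipParams G) :
    (d : M22 k) 0 0 / (d : M22 k) 1 1 * b ∈ unipParams G := by
  show unipU _ ∈ G
  rw [show unipU ((d : M22 k) 0 0 / (d : M22 k) 1 1 * b) = d * unipU b * d⁻¹ by
    rw [upper_mul_unipU hd0, mul_inv_cancel_right]]
  exact mul_mem (mul_mem hd hb) (inv_mem hd)

/-- The cocycle relation on the unipotent part. -/
private lemma IsTwCocycle.map_unipU_add (hz : IsTwCocycle G z) {a b : k} (ha : a ∈ unipParams G)
    (hb : b ∈ unipParams G) :
    z (unipU (a + b)) = z (unipU a) + twAd (unipU a) (z (unipU b)) := by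
  rw [unipU_add, hz.map_mul _ ha _ hb]

/-- The lower left entry is linear on the unipotent part. -/
private lemma IsTwCocycle.unipU_lower (hz : IsTwCocycle G z) (h1 : (1 : k) ∈ unipParams G) {a : k}
    (ha : a ∈ unipParams G) : z (unipU a) 1 0 = a * z (unipU 1) 1 0 := by
  have e := congrFun (congrFun ((hz.map_unipU_add ha h1).symm.trans
    ((congrArg (fun x => z (unipU x)) (add_comm a 1)).trans (hz.map_unipU_add h1 ha))) 0) 0
  rw [Matrix.add_apply, Matrix.add_apply, (twAd_unipU a (hz.trace_zero _ h1)).2.1,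
    (twAd_unipU 1 (hz.trace_zero _ ha)).2.1] at e
  linear_combination -e

/-- The cocycle relation for conjugation of a unipotent element by an upper triangular one. -/
private lemma IsTwCocycle.upper_conj (hz : IsTwCocycle G z) {d : (M22 k)ˣ} (hd : d ∈ G)
    (hd0 : (d : M22 k) 1 0 = 0) {b : k} (hb : b ∈ unipParams G) :
    z d + twAd d (z (unipU b)) = z (unipU ((d : M22 k) 0 0 / (d : M22 k) 1 1 * b)) +
      twAd (unipU ((d : M22 k) 0 0 / (d : M22 k) 1 1 * b)) (z d) := by
  rw [← hz.map_mul _ hd _ hb, upper_mul_unipU hd0,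
    hz.map_mul _ (div_mul_mem_unipParams hd hd0 hb) _ hd]

/-- A coboundary removes the diagonal of the cocycle on the unipotent part. -/
private lemma IsTwCocycle.exists_offDiag (hz : IsTwCocycle G z) (h2 : (2 : k) ≠ 0)
    (h1 : (1 : k) ∈ unipParams G) (h10 : z (unipU 1) 1 0 = 0) :
    ∃ m : M22 k, m.trace = 0 ∧ ∀ a ∈ unipParams G,
      (z (unipU a) - (twAd (unipU a) m - m)) 1 0 = 0 ∧
      (z (unipU a) - (twAd (unipU a) m - m)) 0 0 = 0 ∧
      (z (unipU a) - (twAd (unipU a) m - m)) 1 1 = 0 := by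
  set m : M22 k := !![0, 0; z (unipU 1) 0 0, 0] with hm
  have hmt : m.trace = 0 := by simp [hm, Matrix.trace_fin_two]
  refine ⟨m, hmt, fun a ha => ?_⟩
  have hf : z (unipU a) 1 0 = 0 := by rw [hz.unipU_lower h1 ha, h10, mul_zero]
  have hlin : z (unipU a) 0 0 = a * z (unipU 1) 0 0 := by
    have e := congrFun (congrFun ((hz.map_unipU_add ha h1).symm.trans
      ((congrArg (fun x => z (unipU x)) (add_comm a 1)).trans (hz.map_unipU_add h1 ha))) 0) 1
    rw [Matrix.add_apply, Matrix.add_apply, (twAd_unipU a (hz.trace_zero _ h1)).2.2,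
      (twAd_unipU 1 (hz.trace_zero _ ha)).2.2, h10, hf] at e
    exact mul_left_cancel₀ h2 (by linear_combination e)
  obtain ⟨e1, e2, -⟩ := twAd_unipU a hmt
  have h00 : (z (unipU a) - (twAd (unipU a) m - m)) 0 0 = 0 := by
    simp only [Matrix.sub_apply, e2, hlin]
    simp [hm]
  refine ⟨?_, h00, ?_⟩
  · simp only [Matrix.sub_apply, e1, hf]
    ring
  · have := (hz.sub_boundary hmt).trace_zero _ ha
    rwa [Matrix.trace_fin_two, h00, zero_add] at this

/-- The multipliers of `A` through which the additive map `E` is affine. -/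
private def affineRing (A : AddSubgroup k) (E : k → k)
    (hE : ∀ a ∈ A, ∀ b ∈ A, E (a + b) = E a + E b) : Subring k where
  carrier := {s | (∀ b ∈ A, s * b ∈ A) ∧ ∃ c, ∀ b ∈ A, E (s * b) = s * E b + c * b}
  zero_mem' := ⟨fun b _ => by simp, 0, fun b _ => by
    have h := hE 0 (zero_mem A) 0 (zero_mem A)
    rw [add_zero, left_eq_add] at h
    simp [h]⟩
  one_mem' := ⟨fun b hb => by simpa using hb, 0, fun b _ => by simp⟩
  add_mem' {s s'} hs hs' := by
    obtain ⟨hsA, c, hc⟩ := hs
    obtain ⟨hs'A, c', hc'⟩ := hs'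
    refine ⟨fun b hb => by rw [add_mul]; exact add_mem (hsA b hb) (hs'A b hb), c + c',
      fun b hb => ?_⟩
    rw [add_mul, hE _ (hsA b hb) _ (hs'A b hb), hc b hb, hc' b hb]
    ring
  mul_mem' {s s'} hs hs' := by
    obtain ⟨hsA, c, hc⟩ := hs
    obtain ⟨hs'A, c', hc'⟩ := hs'
    refine ⟨fun b hb => by rw [mul_assoc]; exact hsA _ (hs'A b hb), s * c' + c * s',
      fun b hb => ?_⟩
    rw [mul_assoc, hc _ (hs'A b hb), hc' b hb]
    ring
  neg_mem' {s} hs := by
    obtain ⟨hsA, c, hc⟩ := hs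
    refine ⟨fun b hb => by rw [neg_mul]; exact neg_mem (hsA b hb), -c, fun b hb => ?_⟩
    have h := hE _ (hsA b hb) _ (neg_mem (hsA b hb))
    have h0 := hE 0 (zero_mem A) 0 (zero_mem A)
    rw [add_zero, left_eq_add] at h0
    rw [add_neg_cancel, h0] at h
    rw [neg_mul]
    linear_combination -h - hc b hb

/-- A cocycle vanishing outside the upper right entry is a coboundary on the unipotent part,
provided that entry is linear. -/
private lemma eq_boundary_of_linear (h2 : (2 : k) ≠ 0) {a : k}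
    (hz0 : z (unipU a) 1 0 = 0 ∧ z (unipU a) 0 0 = 0 ∧
      z (unipU a) 1 1 = 0) (e : k) (he : z (unipU a) 0 1 = a * e) :
    z (unipU a) = twAd (unipU a) !![-(e / 2), 0; 0, e / 2] - !![-(e / 2), 0; 0, e / 2] := by
  set m : M22 k := !![-(e / 2), 0; 0, e / 2] with hm
  have hmt : m.trace = 0 := by simp [hm, Matrix.trace_fin_two]
  obtain ⟨e10, e00, e01⟩ := twAd_unipU a hmt
  obtain ⟨u10, u00, u11⟩ := hz0
  have e11 : twAd (unipU a) m 1 1 = e / 2 := by
    have := trace_twAd (unipU a) hmt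
    rw [Matrix.trace_fin_two, e00] at this
    simp [hm] at this ⊢
    linear_combination this
  ext i j
  fin_cases i <;> fin_cases j
  · show z (unipU a) 0 0 = twAd (unipU a) m 0 0 - m 0 0
    rw [u00, e00]
    simp [hm]
  · show z (unipU a) 0 1 = twAd (unipU a) m 0 1 - m 0 1
    rw [he, e01]
    simp [hm]
    field_simp
  · show z (unipU a) 1 0 = twAd (unipU a) m 1 0 - m 1 0
    rw [u10, e10]
    simp [hm]
  · show z (unipU a) 1 1 = twAd (unipU a) m 1 1 - m 1 1
    rw [u11, e11]
    simp [hm]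

variable [Finite k] {p : ℕ} [hp : Fact p.Prime] [CharP k p]

omit [Finite k] in
/-- The parameters are as many as the unipotent elements of determinant one. -/
private lemma card_unipParams (hH : StdGroup (detOnePart G)) :
    Nat.card (unipParams G) = Nat.card (unipSub (detOnePart G)) := by
  refine Nat.card_congr
    { toFun := fun a => ⟨⟨unipU a, mem_detOnePart.mpr ⟨a.2, det_unipU _⟩⟩, mem_unipSub.mpr
        ⟨by simp [mat, coe_unipU], by simp [mat, coe_unipU]⟩⟩
      invFun := fun u => ⟨mat (u : detOnePart G) 0 1, by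
        show unipU _ ∈ G
        rw [show unipU (mat (u : detOnePart G) 0 1) = ((u : detOnePart G) : (M22 k)ˣ) from
          Units.ext (by rw [coe_unipU]; exact (hH.unipSub_eq u.2).symm)]
        exact (mem_detOnePart.mp (u : detOnePart G).2).1⟩
      left_inv := fun a => Subtype.ext (by simp [mat, coe_unipU])
      right_inv := fun u => Subtype.ext (Subtype.ext (Units.ext (by
        rw [coe_unipU]; exact (hH.unipSub_eq u.2).symm))) }

/-- If the ratio of the diagonal is the square of the lower right entry, then the unipotent part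
has order `p`. -/
private lemma card_unipParams_eq (hp2 : p ≠ 2) (hH : StdGroup (detOnePart G))
    (h1 : (1 : k) ∈ unipParams G) (hrel : ∀ d ∈ G, (d : M22 k) 1 0 = 0 →
      (d : M22 k) 0 0 / (d : M22 k) 1 1 = (d : M22 k) 1 1 ^ 2) :
    Nat.card (unipParams G) = p := by
  set H := detOnePart G
  have hw2 : ∀ w : (upperWeight H).range, (w : kˣ) ^ 2 = 1 := fun w => by
    obtain ⟨b, hb⟩ := w.2
    have hb1 := hH.upper_11 b.2
    have h3 := hrel _ (mem_detOnePart.mp (b : H).2).1 b.2
    change mat (b : H) 0 0 / mat (b : H) 1 1 = mat (b : H) 1 1 ^ 2 at h3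
    have h11 : mat (b : H) 1 1 ≠ 0 := fun h0 => by
      rw [h0, mul_zero] at hb1; exact zero_ne_one hb1
    rw [div_eq_iff h11] at h3
    refine Units.ext ?_
    rw [← hb, Units.val_pow_eq_pow_val, coe_upperWeight, Units.val_one]
    linear_combination (mat (b : H) 0 0 ^ 3) * h3 +
      (mat (b : H) 1 1 ^ 2 * mat (b : H) 0 0 ^ 2 + mat (b : H) 1 1 * mat (b : H) 0 0 + 1) * hb1
  have ht2 : Nat.card (upperWeight H).range ≤ 2 := by
    obtain ⟨w₀, hw₀⟩ := IsCyclic.exists_generator (α := (upperWeight H).range)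
    rw [← orderOf_eq_card_of_forall_mem_zpowers hw₀]
    exact Nat.le_of_dvd two_pos (orderOf_dvd_of_pow_eq_one (Subtype.ext (hw2 w₀)))
  have htorus := hH.card_unipSub_le hp2
  obtain ⟨j, hj⟩ := (hH.isPGroup_unipSub (p := p)).exists_card_eq
  rw [← card_unipParams hH] at hj htorus
  have hp3 : 3 ≤ p := lt_of_le_of_ne hp.out.two_le (Ne.symm hp2)
  rcases j with - | - | j
  · rw [pow_zero] at hj
    have := (Nat.card_eq_one_iff_unique.mp hj).1
    exact absurd (congrArg Subtype.val (Subsingleton.elim (⟨1, h1⟩ : unipParams G) 0))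
      one_ne_zero
  · rw [hj, pow_one]
  · exfalso
    have : p ^ 2 ≤ p ^ (j + 2) := Nat.pow_le_pow_right hp.out.pos (by omega)
    rw [hj] at htorus
    nlinarith

/-- An additive group of order `p` containing `1` consists of fixed points of Frobenius. -/
private lemma pow_eq_self_of_card_eq {A : AddSubgroup k} (h1 : (1 : k) ∈ A)
    (hA : Nat.card A = p) {a : k} (ha : a ∈ A) : a ^ p = a := by
  let c : ZMod p → A := fun i => ⟨(i.val : k), by
    rw [← nsmul_one]; exact A.nsmul_mem h1 _⟩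
  have hc : Function.Injective c := fun i j h => by
    have h' : ((i.val : ℕ) : k) = (j.val : k) := congrArg Subtype.val h
    rw [CharP.natCast_eq_natCast k p, Nat.ModEq, Nat.mod_eq_of_lt i.val_lt,
      Nat.mod_eq_of_lt j.val_lt] at h'
    exact ZMod.val_injective p h'
  obtain ⟨i, hi⟩ := (hc.bijective_of_nat_card_le (by rw [hA, Nat.card_zmod])).2 ⟨a, ha⟩
  rw [show a = ((i.val : ℕ) : k) from (congrArg Subtype.val hi).symm]
  rw [← map_natCast (ZMod.castHom (dvd_refl p) k), ← map_pow, ZMod.pow_card]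

/-- Every determinant is attained on an upper triangular element. -/
private lemma exists_upper_det_eq (hp2 : p ≠ 2) (hH : StdGroup (detOnePart G))
    (hu : unipU (1 : k) ∈ G) {g : (M22 k)ˣ} (hg : g ∈ G) :
    ∃ d ∈ G, (d : M22 k) 1 0 = 0 ∧ (d : M22 k).det = (g : M22 k).det := by
  set H := detOnePart G
  have hgu : g * unipU 1 * g⁻¹ ∈ H :=
    conj_mem_detOnePart hg (mem_detOnePart.mpr ⟨hu, det_unipU 1⟩)
  have hns' : ¬ IsScal (mat (⟨_, hgu⟩ : H)) := fun hs => by
    have e := hs.conj (g⁻¹ : (M22 k)ˣ)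
    rw [inv_inv] at e
    have e2 : mat (⟨_, hgu⟩ : H) = !![1, 1; 0, 1] := by
      refine e.symm.trans ?_
      simp [mat, coe_unipU, mul_assoc]
    rw [e2] at hs
    simp [IsScal] at hs
  obtain ⟨h, hh⟩ := hH.exists_conj_upper hp2 hns' (by
    rw [show (mat (⟨_, hgu⟩ : H)).trace = (!![1, 1; 0, 1] : M22 k).trace from
      trace_conj_units _ _]
    simp [Matrix.trace_fin_two]; norm_num)
  refine ⟨(h : (M22 k)ˣ) * g, mul_mem (mem_detOnePart.mp h.2).1 hg, ?_, ?_⟩
  · set d : (M22 k)ˣ := (h : (M22 k)ˣ) * g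
    have e : ((d : M22 k) * (!![1, 1; 0, 1] : M22 k) * ((d⁻¹ : (M22 k)ˣ) : M22 k)) 1 0 = 0 := by
      have : mat (h * ⟨_, hgu⟩ * h⁻¹) 1 0 = 0 := hh
      simpa [mat, d, coe_unipU, mul_assoc] using this
    rw [conj_unip_10] at e
    have hne : (d : M22 k).det ≠ 0 := ((Matrix.isUnit_iff_isUnit_det _).mp d.isUnit).ne_zero
    simpa [hne] using e
  · show (((h : (M22 k)ˣ) : M22 k) * (g : M22 k)).det = _
    rw [Matrix.det_mul, (mem_detOnePart.mp h.2).2, one_mul]

/-- The lower left entry vanishes on the standard unipotent element. -/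
private lemma IsTwCocycle.unipU_one_lower (hz : IsTwCocycle G z) (hp2 : p ≠ 2)
    (hdet : ∀ g ∈ G, (g : M22 k).det ^ (p - 1) = 1)
    (hns : ∃ g ∈ G, (g : M22 k).det ^ ((p - 1) / 2) ≠ 1)
    (hH : StdGroup (detOnePart G)) (hu : unipU (1 : k) ∈ G) : z (unipU 1) 1 0 = 0 := by
  have hA1 : (1 : k) ∈ unipParams G := hu
  by_contra hlam
  have hrel : ∀ d ∈ G, (d : M22 k) 1 0 = 0 →
      (d : M22 k) 0 0 / (d : M22 k) 1 1 = (d : M22 k) 1 1 ^ 2 := fun d hd hd0 => by
    have e := congrFun (congrFun (hz.upper_conj hd hd0 hA1) 1) 0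
    have hr1 := div_mul_mem_unipParams hd hd0 hA1
    rw [mul_one] at hr1
    rw [Matrix.add_apply, Matrix.add_apply, (twAd_upper hd0).1,
      (twAd_unipU _ (hz.trace_zero d hd)).1, mul_one, hz.unipU_lower hA1 hr1] at e
    exact mul_right_cancel₀ hlam (by linear_combination -e)
  obtain ⟨g, hg, hgd⟩ := hns
  obtain ⟨d, hdG, hd0, hdd⟩ := exists_upper_det_eq hp2 hH hu hg
  have hr := hrel d hdG hd0
  set r := (d : M22 k) 0 0 / (d : M22 k) 1 1
  have hrA : r ∈ unipParams G := by simpa using div_mul_mem_unipParams hdG hd0 hA1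
  have h1 : (d : M22 k).det = r ^ 2 := by
    rw [Matrix.det_fin_two, hd0, mul_zero, sub_zero]
    have hne : (d : M22 k) 1 1 ≠ 0 := fun h0 => by
      have := ((Matrix.isUnit_iff_isUnit_det _).mp d.isUnit).ne_zero
      rw [Matrix.det_fin_two, hd0, h0] at this
      simp at this
    conv_rhs => rw [pow_two]; arg 2; rw [hr]
    simp only [r]
    field_simp
  refine hgd ?_
  have hr0 : r ≠ 0 := fun h0 => by
    have := hdet g hg
    rw [← hdd, h1, h0, zero_pow (two_ne_zero), zero_pow (by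
      have := hp.out.two_le; omega)] at this
    exact zero_ne_one this
  rw [← hdd, h1, ← pow_mul]
  have hpodd : 2 * ((p - 1) / 2) = p - 1 := by
    obtain ⟨j, hj⟩ := hp.out.odd_of_ne_two hp2; omega
  rw [hpodd]
  refine mul_left_cancel₀ hr0 ?_
  rw [← pow_succ', Nat.sub_add_cancel hp.out.one_le,
    pow_eq_self_of_card_eq hA1 (card_unipParams_eq hp2 hH hA1 hrel) hrA, mul_one]

/-- A subring of multipliers of `A` with more elements than the square root of the order of `A`
contains `A`. -/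
private lemma mem_of_card_lt {A : AddSubgroup k} {S : Subring k} (h1 : (1 : k) ∈ A)
    (hS : ∀ s ∈ S, ∀ b ∈ A, s * b ∈ A) (hcard : Nat.card A < Nat.card S * Nat.card S)
    {a : k}
    (ha : a ∈ A) : a ∈ S := by
  by_contra hal
  let ψ : S × S → A := fun x => ⟨x.1 + x.2 * a,
    add_mem (by simpa using hS _ x.1.2 1 h1) (hS _ x.2.2 a ha)⟩
  have hψ : Function.Injective ψ := by
    rintro ⟨x, y⟩ ⟨x', y'⟩ h
    have h' : (x : k) + y * a = x' + y' * a := congrArg Subtype.val h
    by_cases hy : (y : k) = y'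
    · rw [hy] at h'
      exact Prod.ext (Subtype.ext (add_right_cancel h')) (Subtype.ext hy)
    refine absurd ?_ hal
    have hne : (y : k) - y' ≠ 0 := sub_ne_zero.mpr hy
    have := Fintype.ofFinite k
    have hinv : ((y : k) - y') ^ (Fintype.card k - 2) * ((y : k) - y') = 1 := by
      rw [← pow_succ, show Fintype.card k - 2 + 1 = Fintype.card k - 1 by
        have := Fintype.one_lt_card (α := k); omega]
      exact FiniteField.pow_card_sub_one_eq_one _ hne
    have ea : a = ((y : k) - y') ^ (Fintype.card k - 2) * ((x' : k) - x) := by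
      linear_combination ((y : k) - y') ^ (Fintype.card k - 2) * h' - a * hinv
    rw [ea]
    exact mul_mem (pow_mem (sub_mem y.2 y'.2) _) (sub_mem x'.2 x.2)
  have := Nat.card_le_card_of_injective ψ hψ
  rw [Nat.card_prod] at this
  omega

/-- An additive map affine through all elements of `A` is linear on `A`. -/
private lemma eq_mul_of_affine {A : AddSubgroup k} {E : k → k}
    {hE : ∀ a ∈ A, ∀ b ∈ A, E (a + b) = E a + E b} (h1 : (1 : k) ∈ A)
    (hA : ∀ a ∈ A, a ∈ affineRing A E hE) {a : k} (ha : a ∈ A) : E a = a * E 1 := by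
  have hLA : ∀ s ∈ affineRing A E hE, s ∈ A := fun s hs => by simpa using hs.1 1 h1
  have hD : ∀ s ∈ affineRing A E hE, ∀ b ∈ A, E (s * b) - s * b * E 1 =
      s * (E b - b * E 1) + b * (E s - s * E 1) := by
    rintro s ⟨hsA, c, hc⟩ b hb
    have hc1 := hc 1 h1
    rw [mul_one] at hc1
    linear_combination hc b hb - b * hc1
  have hpow : ∀ j : ℕ, E (a ^ (j + 1)) - a ^ (j + 1) * E 1 =
      (j + 1 : k) * a ^ j * (E a - a * E 1) := fun j => by
    induction j with
    | zero => simp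
    | succ j ih =>
      have h3 := hD a (hA a ha) (a ^ (j + 1)) (hLA _ (pow_mem (hA a ha) _))
      rw [ih, ← pow_succ'] at h3
      rw [h3]
      push_cast
      ring
  have := Fintype.ofFinite k
  have h := hpow (Fintype.card k - 1)
  rw [Nat.sub_add_cancel Fintype.card_pos, FiniteField.pow_card,
    show ((Fintype.card k - 1 : ℕ) : k) + 1 = 0 by
      rw [← Nat.cast_add_one, Nat.sub_add_cancel Fintype.card_pos, Nat.cast_card_eq_zero],
    zero_mul, zero_mul] at h
  exact sub_eq_zero.mp h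

omit [Finite k] in
/-- The squares of the diagonal of determinant one are affine multipliers. -/
private lemma IsTwCocycle.sq_mem_affine (hz : IsTwCocycle G z) (hH : StdGroup (detOnePart G))
    (hz0 : ∀ a ∈ unipParams G,
      z (unipU a) 1 0 = 0 ∧ z (unipU a) 0 0 = 0 ∧ z (unipU a) 1 1 = 0) :
    ∀ b : upperSub (detOnePart G),
      (∀ a ∈ unipParams G, mat (b : detOnePart G) 0 0 ^ 2 * a ∈ unipParams G) ∧
      ∃ c, ∀ a ∈ unipParams G, z (unipU (mat (b : detOnePart G) 0 0 ^ 2 * a)) 0 1 =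
        mat (b : detOnePart G) 0 0 ^ 2 * z (unipU a) 0 1 + c * a := by
  set H := detOnePart G
  intro b
  have hbG := (mem_detOnePart.mp (b : H).2).1
  have h1 := hH.upper_11 b.2
  have h11 : mat (b : H) 1 1 ≠ 0 := fun h0 => by
    rw [h0, mul_zero] at h1; exact zero_ne_one h1
  have hr : mat (b : H) 0 0 / mat (b : H) 1 1 = mat (b : H) 0 0 ^ 2 := by
    rw [div_eq_iff h11]; linear_combination -(mat (b : H) 0 0) * h1
  have hmulA : ∀ a ∈ unipParams G, mat (b : H) 0 0 ^ 2 * a ∈ unipParams G := fun a ha => by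
    have := div_mul_mem_unipParams hbG b.2 ha
    change mat (b : H) 0 0 / mat (b : H) 1 1 * a ∈ unipParams G at this
    rwa [hr] at this
  refine ⟨hmulA, 2 * mat (b : H) 0 0 ^ 2 * z (b : H) 0 0, fun a ha => ?_⟩
  have e : z (b : H) + twAd ((b : H) : (M22 k)ˣ) (z (unipU a)) =
      z (unipU (mat (b : H) 0 0 ^ 2 * a)) +
        twAd (unipU (mat (b : H) 0 0 ^ 2 * a)) (z (b : H)) := by
    have e' := upper_mul_unipU (d := ((b : H) : (M22 k)ˣ)) b.2 a
    change _ = unipU (mat (b : H) 0 0 / mat (b : H) 1 1 * a) * _ at e'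
    rw [hr] at e'
    rw [← hz.map_mul _ hbG _ ha, ← hz.map_mul _ (hmulA a ha) _ hbG, e']
  obtain ⟨t10, t00, t01⟩ := twAd_unipU (mat (b : H) 0 0 ^ 2 * a) (hz.trace_zero _ hbG)
  obtain ⟨q00, q01⟩ := (twAd_upper (d := ((b : H) : (M22 k)ˣ)) b.2 (X := z (unipU a))).2
    (hz0 a ha).1 (hz0 a ha).2.1 (hz0 a ha).2.2
  have e00 := congrFun (congrFun e 0) 0
  have e01 := congrFun (congrFun e 0) 1
  rw [Matrix.add_apply, Matrix.add_apply, q00, t00, (hz0 _ (hmulA a ha)).2.1] at e00
  rw [Matrix.add_apply, Matrix.add_apply, q01, t01] at e01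
  show z (unipU (mat (b : H) 0 0 ^ 2 * a)) 0 1 = _ * z (unipU a) 0 1 + _
  change _ + mat (b : H) 0 0 ^ 2 * _ = _ at e01
  linear_combination -e01 - (mat (b : H) 0 0 ^ 2 * a) * e00

/-- The upper right entry is linear on the unipotent part. -/
private lemma IsTwCocycle.upperRight_linear (hz : IsTwCocycle G z) (hp2 : p ≠ 2)
    (hH : StdGroup (detOnePart G)) (h1 : (1 : k) ∈ unipParams G)
    (hz0 : ∀ a ∈ unipParams G,
      z (unipU a) 1 0 = 0 ∧ z (unipU a) 0 0 = 0 ∧ z (unipU a) 1 1 = 0) {a : k}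
    (ha : a ∈ unipParams G) : z (unipU a) 0 1 = a * z (unipU 1) 0 1 := by
  set H := detOnePart G
  have hadd : ∀ a ∈ unipParams G, ∀ b ∈ unipParams G,
      z (unipU (a + b)) 0 1 = z (unipU a) 0 1 + z (unipU b) 0 1 := fun a ha b hb => by
    rw [hz.map_unipU_add ha hb, Matrix.add_apply, (twAd_unipU a (hz.trace_zero _ hb)).2.2,
      (hz0 b hb).1, (hz0 b hb).2.1]
    simp
  let S := affineRing (unipParams G) (fun a => z (unipU a) 0 1) hadd
  refine eq_mul_of_affine (E := fun a => z (unipU a) 0 1) (hE := hadd) h1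
    (fun c hc => mem_of_card_lt (S := S) h1 (fun s hs => hs.1) ?_ hc) ha
  have h3 : Nat.card (upperWeight H).range + 1 ≤ Nat.card S := by
    let χ : Option (upperWeight H).range → S := fun w => w.elim 0 fun w => ⟨((w : kˣ) : k), by
      obtain ⟨b, hb⟩ := w.2
      rw [← hb, coe_upperWeight]
      exact hz.sq_mem_affine hH hz0 b⟩
    have hχ : Function.Injective χ := by
      rintro (- | w) (- | w') h
      · rfl
      · exact absurd (congrArg Subtype.val h).symm (Units.ne_zero _)
      · exact absurd (congrArg Subtype.val h) (Units.ne_zero _)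
      · exact congrArg some (Subtype.ext (Units.ext (congrArg Subtype.val h)))
    have := Fintype.ofFinite (upperWeight H).range
    have := Nat.card_le_card_of_injective χ hχ
    rwa [Nat.card_eq_fintype_card, Fintype.card_option, ← Nat.card_eq_fintype_card] at this
  have htorus := hH.card_unipSub_le hp2
  rw [← card_unipParams hH] at htorus
  have : 0 < Nat.card (upperWeight H).range := Nat.card_pos
  nlinarith

/-- The unipotent part has index prime to `p`. -/
private lemma index_unipotent_ne_zero (hp2 : p ≠ 2) (hH : StdGroup (detOnePart G))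
    (hdet : ∀ g ∈ G, (g : M22 k).det ^ (p - 1) = 1) :
    ((((unipSub (detOnePart G)).map (detOnePart G).subtype).subgroupOf G).index : k) ≠ 0 := by
  set H := detOnePart G with hHdef
  set P := (unipSub H).map H.subtype
  set dh : (M22 k)ˣ →* kˣ := Units.map (Matrix.detMonoidHom : M22 k →* k)
  rw [Ne, CharP.cast_eq_zero_iff k p]
  intro hdvd
  have hHG : H ≤ G := inf_le_left
  have hPH : P ≤ H := by rintro _ ⟨g, -, rfl⟩; exact g.2
  have e : P.relIndex G = P.relIndex H * H.relIndex G :=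
    (Subgroup.relIndex_mul_relIndex P H G hPH hHG).symm
  rw [show (P.subgroupOf G).index = P.relIndex G from rfl, e] at hdvd
  rcases hp.out.dvd_mul.mp hdvd with h | h
  · refine hH.not_dvd_index_unipSub hp2 ?_
    rwa [show (unipSub H) = P.subgroupOf H from
      (Subgroup.comap_map_eq_self_of_injective H.subtype_injective _).symm]
  · have h1 : H.relIndex G = (dh.comp G.subtype).ker.index := by
      show (H.subgroupOf G).index = _
      congr 1
      ext g
      simp only [Subgroup.mem_subgroupOf, hHdef, detOnePart, dh, Subgroup.mem_inf,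
        MonoidHom.mem_ker,
        MonoidHom.coe_comp, Subgroup.coe_subtype, Function.comp_apply, SetLike.coe_mem, true_and]
    rw [h1, Subgroup.index_ker] at h
    obtain ⟨x, hx⟩ := exists_prime_orderOf_dvd_card' p h
    obtain ⟨g, hg⟩ := x.2
    have h4 : x ^ (p - 1) = 1 := Subtype.ext (Units.ext (by
      rw [SubmonoidClass.coe_pow, ← hg, Units.val_pow_eq_pow_val]
      exact hdet _ g.2))
    have h5 := orderOf_dvd_of_pow_eq_one h4
    rw [hx] at h5
    have := Nat.le_of_dvd (Nat.sub_pos_of_lt hp.out.one_lt) h5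
    have := hp.out.pos
    omega

/-- The vanishing for groups containing the standard unipotent element. -/
theorem isTwBoundary_std (hp2 : p ≠ 2) {G : Subgroup (M22 k)ˣ} {z : (M22 k)ˣ → M22 k}
    (hz : IsTwCocycle G z) (hdet : ∀ g ∈ G, (g : M22 k).det ^ (p - 1) = 1)
    (hns : ∃ g ∈ G, (g : M22 k).det ^ ((p - 1) / 2) ≠ 1)
    (hu : unipU (1 : k) ∈ G) (hmov : ∃ g ∈ G, (g : M22 k) 1 0 ≠ 0) : IsTwBoundary G z := by
  have hH := stdGroup_detOnePart hu hmov
  have h2 : (2 : k) ≠ 0 := StdGroup.two_ne_zero_of hp2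
  -- remove the diagonal on the unipotent part
  obtain ⟨m₁, hm₁, hz0⟩ :=
    hz.exists_offDiag h2 hu (hz.unipU_one_lower hp2 hdet hns hH hu)
  -- what remains there is linear, hence a coboundary
  have hz' := hz.sub_boundary hm₁
  set e := (z (unipU 1) - (twAd (unipU 1) m₁ - m₁)) 0 1
  set m₂ : M22 k := !![-(e / 2), 0; 0, e / 2] with hm₂
  refine isTwBoundary_of_subgroup hz (index_unipotent_ne_zero hp2 hH hdet) (m₀ := m₁ + m₂)
    (by simp [hm₁, hm₂, Matrix.trace_fin_two]) ?_
  rintro _ ⟨u, hu', rfl⟩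
  have hueq : (u : (M22 k)ˣ) = unipU (mat u 0 1) :=
    Units.ext (by rw [coe_unipU]; exact hH.unipSub_eq hu')
  show z (u : (M22 k)ˣ) = twAd (u : (M22 k)ˣ) (m₁ + m₂) - (m₁ + m₂)
  have ha : mat u 0 1 ∈ unipParams G :=
    show unipU _ ∈ G from hueq ▸ (mem_detOnePart.mp u.2).1
  have h := eq_boundary_of_linear (z := fun g => z g - (twAd g m₁ - m₁)) h2 (hz0 _ ha) e
    (hz'.upperRight_linear hp2 hH hu hz0 ha)
  rw [hueq, twAd_add, sub_eq_iff_eq_add.mp h]
  abel

omit [Finite k] in
/-- An element of order `p` is unipotent of Jordan form with respect to some basis. -/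
private lemma exists_unip_basis {u : M22 k} (hup : u ^ p = 1) (hu1 : u ≠ 1) :
    ∃ v w : Fin 2 → k, v ≠ 0 ∧ (!![v 0, w 0; v 1, w 1] : M22 k).det ≠ 0 ∧
      u * !![v 0, w 0; v 1, w 1] = !![v 0, w 0; v 1, w 1] * !![1, 1; 0, 1] := by
  set N : M22 k := u - 1 with hN
  have hNp : N ^ p = 0 := by
    rw [hN, sub_pow_char_of_commute (p := p) (Commute.one_right _), hup, one_pow, sub_self]
  have hNd : N.det = 0 := by
    have := congrArg Matrix.det hNp
    rw [Matrix.det_pow, Matrix.det_zero] at this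
    exact pow_eq_zero_iff hp.out.ne_zero |>.mp this
  have hN2 : N * N = N.trace • N := by rw [mul_self_eq, hNd, zero_smul, sub_zero]
  have hNpow : ∀ j : ℕ, N ^ (j + 1) = N.trace ^ j • N := fun j => by
    induction j with
    | zero => simp
    | succ j ih => rw [pow_succ, ih, smul_mul_assoc, hN2, smul_smul, ← pow_succ]
  have hN0 : N ≠ 0 := fun h0 => hu1 (sub_eq_zero.mp h0)
  have htr : N.trace = 0 := by
    have h := hNpow (p - 1)
    rw [Nat.sub_add_cancel hp.out.one_le, hNp, eq_comm, smul_eq_zero] at h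
    exact pow_eq_zero_iff (by have := hp.out.two_le; omega) |>.mp (h.resolve_right hN0)
  obtain ⟨w, hw⟩ : ∃ w, N.mulVec w ≠ 0 := by
    by_contra hall
    push Not at hall
    exact hN0 (Matrix.ext fun i j => by
      have := congrFun (hall (Pi.single j 1)) i
      rwa [Matrix.mulVec_single, MulOpposite.op_one, one_smul] at this)
  set v := N.mulVec w with hv
  have hNv : N.mulVec v = 0 := by
    rw [hv, Matrix.mulVec_mulVec, hN2, htr, zero_smul, Matrix.zero_mulVec]
  set B : M22 k := !![v 0, w 0; v 1, w 1]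
  have hB : B.det ≠ 0 := fun h0 => by
    obtain ⟨x, hx, hBx⟩ := Matrix.exists_mulVec_eq_zero_iff.mpr h0
    have e : x 0 • v + x 1 • w = 0 := funext fun i => by
      have := congrFun hBx i
      fin_cases i <;> simp [B, Matrix.mulVec, dotProduct, Fin.sum_univ_two] at this ⊢ <;>
        linear_combination this
    have e' : x 1 • v = 0 := by
      have := congrArg N.mulVec e
      rwa [Matrix.mulVec_add, Matrix.mulVec_smul, Matrix.mulVec_smul, hNv, smul_zero, zero_add,
        Matrix.mulVec_zero] at this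
    have x1 : x 1 = 0 := (smul_eq_zero.mp e').resolve_right hw
    rw [x1, zero_smul, add_zero, smul_eq_zero] at e
    exact hx (funext fun i => by fin_cases i <;> simp [x1, e.resolve_right hw])
  refine ⟨v, w, hw, hB, ?_⟩
  have e : u = 1 + N := by rw [hN]; abel
  rw [e, add_mul, one_mul]
  have hNB : N * B = !![0, v 0; 0, v 1] := by
    ext i j
    fin_cases i <;> fin_cases j
    · simpa [B, Matrix.mul_apply, Matrix.mulVec, dotProduct, Fin.sum_univ_two] using congrFun hNv 0
    · simp [B, hv, Matrix.mul_apply, Fin.sum_univ_two]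
    · simpa [B, Matrix.mul_apply, Matrix.mulVec, dotProduct, Fin.sum_univ_two] using congrFun hNv 1
    · simp [B, hv, Matrix.mul_apply, Fin.sum_univ_two]
  rw [hNB]
  ext i j
  fin_cases i <;> fin_cases j <;>
    simp [Matrix.mul_apply, Fin.sum_univ_two, add_comm]

/-- **The twisted adjoint module has no first cohomology.** -/
theorem isTwBoundary_of_no_stable_line (hp2 : p ≠ 2) {G : Subgroup (M22 k)ˣ}
    {z : (M22 k)ˣ → M22 k} (hz : IsTwCocycle G z)
    (hdet : ∀ g ∈ G, (g : M22 k).det ^ (p - 1) = 1)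
    (hns : ∃ g ∈ G, (g : M22 k).det ^ ((p - 1) / 2) ≠ 1)
    (hline : ∀ v : Fin 2 → k, v ≠ 0 → ∃ g ∈ G, ∀ c : k, (g : M22 k).mulVec v ≠ c • v) :
    IsTwBoundary G z := by
  by_cases hdvd : p ∣ Nat.card G
  swap
  · refine isTwBoundary_of_subgroup hz (P := ⊥) ?_ (m₀ := 0) (Matrix.trace_zero _ _) ?_
    · rw [Ne, Subgroup.bot_subgroupOf, Subgroup.index_bot, CharP.cast_eq_zero_iff k p]
      exact hdvd
    · intro g hg
      rw [Subgroup.mem_bot.mp hg, hz.map_one, twAd_one, sub_zero]
  obtain ⟨u, hu⟩ := exists_prime_orderOf_dvd_card' p hdvd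
  obtain ⟨v, w, hv, hB, huB⟩ := exists_unip_basis (k := k) (u := ((u : (M22 k)ˣ) : M22 k))
    (by rw [← Units.val_pow_eq_pow_val, ← SubmonoidClass.coe_pow, ← hu, pow_orderOf_eq_one]; rfl)
    (fun h0 => hp.out.one_lt.ne (by rw [← hu, show u = 1 from
      Subtype.ext (Units.ext h0), orderOf_one]))
  set B : M22 k := !![v 0, w 0; v 1, w 1]
  let U : (M22 k)ˣ := Matrix.GeneralLinearGroup.mkOfDetNeZero B hB
  have hU : (U : M22 k) = B := rfl
  let c : (M22 k)ˣ →* (M22 k)ˣ := (MulAut.conj U⁻¹).toMonoidHom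
  have hc : ∀ g, c g = U⁻¹ * g * U := fun g => by simp [c]
  let G' := G.map c
  let z' : (M22 k)ˣ → M22 k := fun g =>
    ((U⁻¹ : (M22 k)ˣ) : M22 k) * z (U * g * U⁻¹) * (U : M22 k)
  have hmem : ∀ g ∈ G', U * g * U⁻¹ ∈ G := by
    rintro _ ⟨g, hg, rfl⟩
    rw [hc, show U * (U⁻¹ * g * U) * U⁻¹ = g by group]
    exact hg
  have hdetc : ∀ g : (M22 k)ˣ,
      (((U⁻¹ * g * U : (M22 k)ˣ)) : M22 k).det = (g : M22 k).det := fun g => by
    have h := det_conj_units U⁻¹ (g : M22 k)
    rwa [inv_inv] at h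
  have htw : ∀ (g : (M22 k)ˣ) X, twAd g (((U⁻¹ : (M22 k)ˣ) : M22 k) * X * (U : M22 k)) =
      ((U⁻¹ : (M22 k)ˣ) : M22 k) * twAd (U * g * U⁻¹) X * (U : M22 k) := fun g X => by
    rw [twAd, twAd, show ((U * g * U⁻¹ : (M22 k)ˣ) : M22 k).det = (g : M22 k).det from
      det_conj_units U _]
    simp [mul_assoc]
  have hz' : IsTwCocycle G' z' := by
    refine ⟨fun g hg => ?_, fun g hg h hh => ?_⟩
    · have := trace_conj_units U⁻¹ (z (U * g * U⁻¹))
      rw [inv_inv, hz.trace_zero _ (hmem g hg)] at this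
      exact this
    · show _ = _ + twAd g (((U⁻¹ : (M22 k)ˣ) : M22 k) * z (U * h * U⁻¹) * (U : M22 k))
      rw [htw, ← add_mul, ← mul_add, ← hz.map_mul _ (hmem g hg) _ (hmem h hh)]
      simp [z', mul_assoc]
  obtain ⟨m, hm, hmz⟩ := isTwBoundary_std hp2 hz'
    (by
      rintro _ ⟨g, hg, rfl⟩
      rw [hc, hdetc]
      exact hdet g hg)
    (by
      obtain ⟨g, hg, hgd⟩ := hns
      exact ⟨c g, ⟨g, hg, rfl⟩, by rwa [hc, hdetc]⟩)
    ⟨(u : (M22 k)ˣ), u.2, by
      rw [hc]
      refine Units.ext ?_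
      rw [Units.val_mul, Units.val_mul, hU, mul_assoc, huB, ← mul_assoc, ← hU, Units.inv_mul,
        one_mul, coe_unipU]⟩
    (by
      obtain ⟨g, hg, hgv⟩ := hline v hv
      refine ⟨c g, ⟨g, hg, rfl⟩, fun h10 => hgv ((c g : M22 k) 0 0) ?_⟩
      have e : (g : M22 k) * B = B * (c g : M22 k) := by
        rw [hc, Units.val_mul, Units.val_mul, ← hU, ← mul_assoc, ← mul_assoc, Units.mul_inv,
          one_mul]
      funext i
      have := congrFun (congrFun e i) 0
      fin_cases i <;>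
        simpa [B, Matrix.mul_apply, Matrix.mulVec, dotProduct, Fin.sum_univ_two, h10, mul_comm]
          using this)
  refine ⟨(U : M22 k) * m * ((U⁻¹ : (M22 k)ˣ) : M22 k), by rw [trace_conj_units, hm],
    fun g hg => ?_⟩
  have h := congrArg (fun X : M22 k => (U : M22 k) * X * ((U⁻¹ : (M22 k)ˣ) : M22 k))
    (hmz (c g) ⟨g, hg, rfl⟩)
  have hg' : U * c g * U⁻¹ = g := by rw [hc]; group
  have hL : (U : M22 k) * z' (c g) * ((U⁻¹ : (M22 k)ˣ) : M22 k) = z g := by
    simp only [z']
    rw [hg']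
    simp [mul_assoc]
  have hR : (U : M22 k) * twAd (c g) m * ((U⁻¹ : (M22 k)ˣ) : M22 k) =
      twAd g ((U : M22 k) * m * ((U⁻¹ : (M22 k)ˣ) : M22 k)) := by
    conv_lhs => rw [show m = ((U⁻¹ : (M22 k)ˣ) : M22 k) *
      ((U : M22 k) * m * ((U⁻¹ : (M22 k)ˣ) : M22 k)) * (U : M22 k) by simp [mul_assoc]]
    rw [htw, hg']
    simp [mul_assoc]
  simp only [mul_sub, sub_mul, hL, hR] at h
  exact h

end FermatAgent.CFT.Selmer
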