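import Fermat.Agent.CFT.Selmer.GroupCount

/-!
The class equation along centralisers and the resulting bound for the torus.

`card_unipSub_le`: for a finite group `H` of matrices as in `StdGroup` and `p` odd, the unipotent
subgroup has at most `2 t + 1` elements, `t` the size of the image of `upperWeight`.
The group is split into scalars, elements with a repeated eigenvalue and regular elements
(`card_eq_add_add`), the latter counted by conjugates of their centralisers (`exists_torus_part`,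
`exists_orb_card`); the inequality is the arithmetic of this class equation
(`two_mul_add_one_ge_of_equation`).
-/

set_option autoImplicit false

noncomputable section

open scoped Classical

namespace FermatAgent.CFT.Selmer

/-- The arithmetic of the class equation. -/
lemma two_mul_add_one_ge_of_equation {n q t z o f R m : ℤ} (hn : n = 1 + q * m) (hm : 0 < m)
    (hq : 3 ≤ q) (ht : 0 < t) (hz : 0 < z) (hf : t = 1 ∨ f = 1 ∨ f = 2)
    (ho : t = 1 ∨ o * f = n * q)
    (heq : n * q * t * z - z = n * (z * q - z) + o * (z * t - z) + R)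
    (hR : R = 0 ∨ ∃ o₁ d R', 2 ≤ d ∧ R = o₁ * (z * d - z) + R' ∧ 0 ≤ R' ∧
      ((o₁ * d = n * q * t) ∨
        (o₁ * d * 2 = n * q * t ∧ (R' = 0 ∨ n * q * t * z ≤ 4 * R')))) :
    q ≤ 2 * t + 1 := by
  have hn1 : q + 1 ≤ n := by nlinarith
  have hnq : 0 < n * q := by nlinarith
  have hq3 : n * 3 ≤ n * q := mul_le_mul_of_nonneg_left hq (by linarith)
  have hnqt : 0 < n * q * t := mul_pos hnq ht
  -- the part coming from one conjugacy class
  have key : R = 0 ∨ ∃ a R', 0 ≤ R' ∧ R = z * a + R' ∧ (n * q * t ≤ 2 * a ∨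
      (n * q * t ≤ 4 * a ∧ (R' = 0 ∨ n * q * t * z ≤ 4 * R'))) := by
    rcases hR with h | ⟨o₁, d, R', hd, hR, hR', h⟩
    · exact Or.inl h
    have ho1 : 0 ≤ o₁ := by
      rcases h with h | ⟨h, -⟩ <;> nlinarith
    have hod : o₁ * d ≤ 2 * (o₁ * (d - 1)) := by nlinarith
    refine Or.inr ⟨o₁ * (d - 1), R', hR', by rw [hR]; ring, ?_⟩
    rcases h with h | ⟨h, h'⟩
    · exact Or.inl (by linarith)
    · exact Or.inr ⟨by linarith, h'⟩
  have hle : ∀ {a b : ℤ}, z * a ≤ z * b → a ≤ b := fun h => le_of_mul_le_mul_left h hz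
  by_cases ht1 : t = 1
  · -- no torus
    subst ht1
    have e : R = z * (n - 1) := by linear_combination -heq
    by_contra hlt
    have hq4 : n * 4 ≤ n * q := mul_le_mul_of_nonneg_left (by omega) (by linarith)
    rcases key with h | ⟨a, R', hR', hR, h⟩
    · have : n - 1 = 0 := (mul_eq_zero.mp (e.symm.trans h)).resolve_left hz.ne'
      linarith
    have e3 : a ≤ n - 1 := hle (by linarith)
    rcases h with h | ⟨h, -⟩ <;> linarith
  have ho' := ho.resolve_left ht1
  have ht2 : n * q * 2 ≤ n * q * t := mul_le_mul_of_nonneg_left (by omega) hnq.le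
  rcases hf.resolve_left ht1 with rfl | rfl
  · exfalso
    rw [mul_one] at ho'
    subst ho'
    have e : R = z * (n - 1) := by linear_combination -heq
    rcases key with h | ⟨a, R', hR', hR, h⟩
    · have : n - 1 = 0 := (mul_eq_zero.mp (e.symm.trans h)).resolve_left hz.ne'
      linarith
    have e3 : a ≤ n - 1 := hle (by linarith)
    rcases h with h | ⟨h, -⟩ <;> linarith
  have e : 2 * R = z * (n * q * t - n * q + 2 * n - 2) := by
    linear_combination -2 * heq - (z * t - z) * ho'
  have hpos : 0 < n * q * t - n * q + 2 * n - 2 := by linarith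
  rcases hR with h | ⟨o₁, d, R', hd, hR, hR', h⟩
  · exfalso; nlinarith [mul_pos hz hpos]
  have ho1 : 0 ≤ o₁ := by
    rcases h with h | ⟨h, -⟩ <;> nlinarith
  have hod : o₁ * d ≤ 2 * (o₁ * (d - 1)) := by nlinarith
  rcases h with h | ⟨h, hR'0⟩
  · exfalso
    have e3 : 2 * (o₁ * (d - 1)) ≤ n * q * t - n * q + 2 * n - 2 := hle (by
      rw [← e, hR]; linarith)
    linarith
  rcases hR'0 with hR'0 | hR'0
  swap
  · exfalso
    have e3 : 4 * (o₁ * (d - 1)) + n * q * t ≤ 2 * (n * q * t - n * q + 2 * n - 2) := hle (by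
      rw [mul_left_comm z 2, ← e, hR]; linarith)
    linarith
  have e2 : 2 * (o₁ * (d - 1)) = n * q * t - n * q + 2 * n - 2 := by
    have : z * (2 * (o₁ * (d - 1))) = z * (n * q * t - n * q + 2 * n - 2) := by
      rw [← e, hR, hR'0]; ring
    exact mul_left_cancel₀ hz.ne' this
  have e3 : 2 * o₁ = q * (n - 2 * m) := by linear_combination h - e2 - 2 * hn
  have e4 : n * t = d * (n - 2 * m) := by
    have : q * (n * t) = q * (d * (n - 2 * m)) := by linear_combination -h + d * e3
    exact mul_left_cancel₀ (by linarith) this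
  have hdvd : n ∣ 2 * d := by
    -- the order of the torus quotient
    have h2 : n ∣ 2 * d * (q * m) := ⟨q * (d - t), by linear_combination q * e4⟩
    have h4 := dvd_sub (dvd_mul_left n (2 * d)) h2
    rwa [show 2 * d * n - 2 * d * (q * m) = 2 * d by rw [hn]; ring] at h4
  have h5 : n ≤ 2 * d := Int.le_of_dvd (by linarith) hdvd
  have h6 : 0 ≤ (q - 2) * (m - 1) := mul_nonneg (by linarith) (by linarith)
  have h7 : q - 1 ≤ n - 2 * m := by
    linarith [show n - 2 * m - (q - 1) = (q - 2) * (m - 1) by rw [hn]; ring]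
  have h8 : n * (n - 2 * m) ≤ n * (2 * t) := by
    have := mul_le_mul_of_nonneg_right h5 (show 0 ≤ n - 2 * m by linarith)
    linarith [show n * (2 * t) = 2 * d * (n - 2 * m) by linear_combination 2 * e4]
  linarith [le_of_mul_le_mul_left h8 (by linarith : (0 : ℤ) < n)]

variable {k : Type} [Field k] [Finite k] {p : ℕ} [hp : Fact p.Prime] [CharP k p]
variable {H : Subgroup (M22 k)ˣ}

/-- The non scalar elements of a centraliser. -/
abbrev cenPart (H : Subgroup (M22 k)ˣ) (x : H) : Type :=
  {y : Subgroup.centralizer ({x} : Set H) // ¬ IsScal (mat (y : H))}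

variable (H) in
/-- The non scalar elements with a repeated eigenvalue. -/
def parSet : Set H := {g | ¬ IsScal (mat g) ∧ (mat g).trace ^ 2 = 4}

variable (H) in
/-- The elements with distinct eigenvalues. -/
def regSet : Set H := {g | (mat g).trace ^ 2 ≠ 4}

/-- The elements conjugate into a centraliser. -/
def orbSet (x : H) : Set H :=
  {y | ¬ IsScal (mat y) ∧ ∃ h : H, h * y * h⁻¹ ∈ Subgroup.centralizer ({x} : Set H)}

section
omit [Finite k]

lemma mem_cen {x y : H} : y ∈ Subgroup.centralizer ({x} : Set H) ↔ x * y = y * x := by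
  rw [Subgroup.mem_centralizer_singleton_iff]
  exact eq_comm

lemma isScal_conj_iff (h y : H) : IsScal (mat (h * y * h⁻¹)) ↔ IsScal (mat y) := by
  refine ⟨fun hs => ?_, fun hs => ?_⟩
  · have := hs.conj ((h : (M22 k)ˣ)⁻¹)
    rw [inv_inv] at this
    have e : mat y = mat h⁻¹ * mat (h * y * h⁻¹) * mat h := by
      rw [← mat_mul, ← mat_mul]; group
    rw [e]
    exact this.symm ▸ hs
  · have := hs.conj (h : (M22 k)ˣ)
    rw [mat_mul, mat_mul]
    exact this.symm ▸ hs

namespace StdGroup

lemma cen_comm {x y y' : H} (hx : ¬ IsScal (mat x)) (h : x * y = y * x) (h' : x * y' = y' * x) :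
    y * y' = y' * y := by
  obtain ⟨a, b, hab⟩ := exists_eq_add_of_commute (y := mat y) hx (congrArg mat h)
  obtain ⟨a', b', hab'⟩ := exists_eq_add_of_commute (y := mat y') hx (congrArg mat h')
  refine mat_injective ?_
  rw [mat_mul, mat_mul, hab, hab']
  simp only [add_mul, mul_add, smul_mul_smul_comm, one_mul, mul_one, mul_comm a, mul_comm b]
  abel

lemma cen_eq {x y : H} (hx : ¬ IsScal (mat x)) (hy : ¬ IsScal (mat y)) (h : x * y = y * x) :
    Subgroup.centralizer ({x} : Set H) = Subgroup.centralizer ({y} : Set H) := by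
  ext g
  rw [mem_cen, mem_cen]
  exact ⟨fun hg => cen_comm hx h hg, fun hg => cen_comm hy h.symm hg⟩

lemma scal_le_cen (x : H) : scalSub H ≤ Subgroup.centralizer ({x} : Set H) := fun s hs =>
  mem_cen.mpr (mat_injective (by rw [mat_mul, mat_mul, (show IsScal (mat s) from hs).commute]))

end StdGroup

end

namespace StdGroup

/-- The size of a centraliser. -/
lemma card_cenPart (x : H) : Nat.card (cenPart H x) + Nat.card (scalSub H) =
    Nat.card (Subgroup.centralizer ({x} : Set H)) := by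
  rw [← Nat.card_congr (Equiv.sumCompl fun y : Subgroup.centralizer ({x} : Set H) =>
    ¬ IsScal (mat (y : H))), Nat.card_sum]
  congr 1
  exact Nat.card_congr
    { toFun := fun s => ⟨⟨s, scal_le_cen x s.2⟩, not_not.mpr s.2⟩
      invFun := fun y => ⟨y.1, not_not.mp y.2⟩
      left_inv := fun _ => rfl
      right_inv := fun _ => rfl }

omit [Finite k] in
lemma orbSet_trans {x x₀ y : H} (hx : ¬ IsScal (mat x)) (h1 : y ∈ orbSet x) (h2 : y ∈ orbSet x₀) :
    x ∈ orbSet x₀ := by
  obtain ⟨hys, h, hh⟩ := h1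
  obtain ⟨-, h', hh'⟩ := h2
  refine ⟨hx, h' * h⁻¹, mem_cen.mpr ?_⟩
  have hv : ¬ IsScal (mat (h' * y * h'⁻¹)) := mt (isScal_conj_iff h' y).mp hys
  refine cen_comm hv (mem_cen.mp hh').symm ?_
  have e := congrArg (fun w => (h' * h⁻¹) * w * (h' * h⁻¹)⁻¹) (mem_cen.mp hh).symm
  simpa [mul_assoc] using e

variable (hH : StdGroup H)
include hH

omit [Finite k] in
lemma trace_sq_iff_of_cen {x y : H} (hx : (mat x).trace ^ 2 ≠ 4) (hy : ¬ IsScal (mat y))
    (h : x * y = y * x) : (mat y).trace ^ 2 ≠ 4 := by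
  obtain ⟨a, b, hab⟩ := exists_eq_add_of_commute (x := mat x) (y := mat y)
    (fun hs => hx (hH.trace_sq_scal hs)) (congrArg mat h)
  have hb : b ≠ 0 := fun h0 => hy (by rw [hab, h0, zero_smul, add_zero]; exact isScal_smul_one a)
  have hd := hH.det y
  rw [hab, det_add_smul, hH.det] at hd
  intro h4
  rw [hab, trace_add_smul] at h4
  refine hx (mul_left_cancel₀ (pow_ne_zero 2 hb) ?_)
  linear_combination h4 - 4 * hd

/-- The size of the conjugates of a centraliser. -/
lemma exists_card_orb (hp2 : p ≠ 2) {x : H} (hx : (mat x).trace ^ 2 ≠ 4) :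
    ∃ o f : ℕ, (f = 1 ∨ f = 2) ∧
      o * (f * Nat.card (Subgroup.centralizer ({x} : Set H))) = Nat.card H ∧
      Nat.card (orbSet x) = o * Nat.card (cenPart H x) := by
  have hxs : ¬ IsScal (mat x) := fun hs => hx (hH.trace_sq_scal hs)
  set C := Subgroup.centralizer ({x} : Set H)
  let N : Subgroup H :=
    { carrier := {g | ∀ y, y ∈ C ↔ g * y * g⁻¹ ∈ C}
      one_mem' := fun y => by simp
      mul_mem' := fun {a b} ha hb y => by
        rw [hb y, ha (b * y * b⁻¹)]
        simp only [mul_inv_rev, mul_assoc]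
      inv_mem' := fun {a} ha y => by
        rw [ha (a⁻¹ * y * a⁻¹⁻¹)]
        simp [mul_assoc] }
  have hCN : C ≤ N := fun g hg y => by
    constructor
    · exact fun hy => mul_mem (mul_mem hg hy) (inv_mem hg)
    · intro hy
      have := mul_mem (mul_mem (inv_mem hg) hy) hg
      simpa [mul_assoc] using this
  -- at most two cosets
  have htwo : Nat.card N ≤ 2 * Nat.card C := by
    let F : N → Bool := fun g => decide ((g : H) * x * (g : H)⁻¹ = x)
    have hF : ∀ g : N, (g : H) * x * (g : H)⁻¹ = x ∨ (g : H) * x * (g : H)⁻¹ = x⁻¹ := fun g => by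
      obtain ⟨a, b, hab⟩ := exists_eq_add_of_commute (y := mat ((g : H) * x * (g : H)⁻¹)) hxs
        (congrArg mat (mem_cen.mp ((g.2 x).mp (mem_cen.mpr rfl))))
      have ht : (mat ((g : H) * x * (g : H)⁻¹)).trace = (mat x).trace := trace_conj_units _ _
      have hd := hH.det ((g : H) * x * (g : H)⁻¹)
      rw [hab, det_add_smul, hH.det] at hd
      rw [hab, trace_add_smul] at ht
      have hb : (b - 1) * (b + 1) = 0 :=
        (mul_eq_zero.mp (show ((b - 1) * (b + 1)) * ((mat x).trace ^ 2 - 4) = 0 by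
          linear_combination (2 * a + b * (mat x).trace + (mat x).trace) * ht -
            4 * hd)).resolve_right
          (sub_ne_zero.mpr hx)
      have h2 : (2 : k) ≠ 0 := two_ne_zero_of hp2
      rcases mul_eq_zero.mp hb with h | h
      · left
        have hb1 : b = 1 := sub_eq_zero.mp h
        have ha : a = 0 := (mul_eq_zero.mp (show (2 : k) * a = 0 by
          rw [hb1] at ht; linear_combination ht)).resolve_left h2
        exact mat_injective (by rw [hab, ha, hb1, zero_smul, zero_add, one_smul])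
      · right
        have hb1 : b = -1 := eq_neg_of_add_eq_zero_left h
        have ha : a = (mat x).trace := mul_left_cancel₀ h2 (by
          rw [hb1] at ht; linear_combination ht)
        refine eq_inv_of_mul_eq_one_left (mat_injective ?_)
        rw [mat_mul, hab, ha, hb1, add_mul, smul_mul_assoc, one_mul, smul_mul_assoc, mul_self_eq,
          hH.det, one_smul, mat_one]
        module
    have hcard := Subgroup.index_mul_card (C.subgroupOf N)
    rw [Nat.card_congr (Subgroup.subgroupOfEquivOfLe hCN).toEquiv] at hcard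
    rw [← hcard]
    refine Nat.mul_le_mul_right _ ?_
    rw [Subgroup.index_eq_card]
    refine le_of_le_of_eq ?_ ((Nat.card_eq_fintype_card (α := Bool)).trans Fintype.card_bool)
    refine Nat.card_le_card_of_injective (fun a => F a.out) fun a a' h => ?_
    rw [← QuotientGroup.out_eq' a, ← QuotientGroup.out_eq' a', QuotientGroup.eq,
      Subgroup.mem_subgroupOf]
    refine mem_cen.mpr ?_
    have e : (a.out : H) * x * (a.out : H)⁻¹ = (a'.out : H) * x * (a'.out : H)⁻¹ := by
      by_cases h1 : (a.out : H) * x * (a.out : H)⁻¹ = x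
      · have h2 : decide ((a'.out : H) * x * (a'.out : H)⁻¹ = x) = true := by
          show F a'.out = true
          rw [← show F a.out = F a'.out from h]
          exact decide_eq_true h1
        rw [h1, of_decide_eq_true h2]
      · have h2 : decide ((a'.out : H) * x * (a'.out : H)⁻¹ = x) = false := by
          show F a'.out = false
          rw [← show F a.out = F a'.out from h]
          exact decide_eq_false h1
        rw [(hF a.out).resolve_left h1, (hF a'.out).resolve_left (of_decide_eq_false h2)]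
    show x * ((a.out : H)⁻¹ * (a'.out : H)) = (a.out : H)⁻¹ * (a'.out : H) * x
    have e' := congrArg (fun w => (a.out : H)⁻¹ * w * (a'.out : H)) e
    simpa [mul_assoc] using e'
  have hN1 := Subgroup.index_mul_card (C.subgroupOf N)
  rw [Nat.card_congr (Subgroup.subgroupOfEquivOfLe hCN).toEquiv] at hN1
  refine ⟨N.index, (C.subgroupOf N).index, ?_, ?_, ?_⟩
  · have h1 : (C.subgroupOf N).index ≠ 0 := Subgroup.index_ne_zero_of_finite
    have h2 : (C.subgroupOf N).index ≤ 2 :=
      Nat.le_of_mul_le_mul_right (hN1.symm ▸ htwo) Nat.card_pos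
    omega
  · rw [hN1, Subgroup.index_mul_card]
  · rw [Subgroup.index_eq_card, ← Nat.card_prod]
    have hmem : ∀ (a : H) (y : cenPart H x), a * (y.1 : H) * a⁻¹ ∈ orbSet x := fun a y =>
      ⟨fun hs => y.2 ((isScal_conj_iff a _).mp hs), a⁻¹, by
        rw [show a⁻¹ * (a * (y.1 : H) * a⁻¹) * a⁻¹⁻¹ = (y.1 : H) by group]; exact y.1.2⟩
    refine (Nat.card_eq_of_bijective
      (fun w : (H ⧸ N) × cenPart H x => (⟨_, hmem w.1.out w.2⟩ : orbSet x)) ⟨?_, ?_⟩).symm
    · rintro ⟨a, y⟩ ⟨a', y'⟩ h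
      have h' : a.out * (y.1 : H) * a.out⁻¹ = a'.out * (y'.1 : H) * a'.out⁻¹ :=
        congrArg Subtype.val h
      have hy : (a'.out⁻¹ * a.out) * (y.1 : H) * (a'.out⁻¹ * a.out)⁻¹ = (y'.1 : H) := by
        rw [show (y'.1 : H) = a'.out⁻¹ * (a'.out * (y'.1 : H) * a'.out⁻¹) * a'.out by group, ← h']
        group
      have hmemN : a'.out⁻¹ * a.out ∈ N := fun w => by
        rw [show C = _ from cen_eq hxs y.2 (mem_cen.mp y.1.2), mem_cen]
        conv_rhs => rw [← cen_eq hxs y.2 (mem_cen.mp y.1.2),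
          cen_eq hxs y'.2 (mem_cen.mp y'.1.2), mem_cen, ← hy]
        simp [mul_assoc]
        rw [← mul_assoc, ← mul_assoc w (y.1 : H)]
        exact (mul_left_inj _).symm
      have ha : a = a' := by
        rw [← QuotientGroup.out_eq' a, ← QuotientGroup.out_eq' a', QuotientGroup.eq]
        have := inv_mem hmemN
        rwa [mul_inv_rev, inv_inv] at this
      subst ha
      refine Prod.ext rfl (Subtype.ext (Subtype.ext ?_))
      exact mul_left_cancel (mul_right_cancel h')
    · rintro ⟨y, hys, h, hh⟩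
      obtain ⟨ν, hν⟩ := QuotientGroup.mk_out_eq_mul N h⁻¹
      have hc : (ν : H)⁻¹ * (h * y * h⁻¹) * (ν : H) ∈ C := by
        have := ((inv_mem ν.2 : (ν : H)⁻¹ ∈ N) (h * y * h⁻¹)).mp hh
        rwa [inv_inv] at this
      refine ⟨((h⁻¹ : H), ⟨⟨_, hc⟩, fun hs => hys ?_⟩), Subtype.ext ?_⟩
      · refine (isScal_conj_iff ((ν : H)⁻¹ * h) y).mp ?_
        simpa [mul_assoc] using hs
      · show ((h⁻¹ : H) : H ⧸ N).out * _ * ((h⁻¹ : H) : H ⧸ N).out⁻¹ = y
        rw [hν]
        group

/-- The size of the elements with a repeated eigenvalue. -/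
lemma card_parSet (hp2 : p ≠ 2) : Nat.card (parSet H) + (upperSub H).index * Nat.card (scalSub H) =
    (upperSub H).index * (Nat.card (scalSub H) * Nat.card (unipSub H)) := by
  have hw : ∀ b : upperSub H, b ∈ (upperWeight H).ker ↔ mat (b : H) 0 0 ^ 2 = 1 := fun b => by
    rw [MonoidHom.mem_ker, Units.ext_iff, coe_upperWeight, Units.val_one]
  let K := {b : (upperWeight H).ker // ¬ IsScal (mat ((b : upperSub H) : H))}
  have hK : Nat.card K + Nat.card (scalSub H) = Nat.card (scalSub H) * Nat.card (unipSub H) := by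
    rw [← hH.card_ker_weight hp2, ← Nat.card_congr (Equiv.sumCompl
      fun b : (upperWeight H).ker => ¬ IsScal (mat ((b : upperSub H) : H))), Nat.card_sum]
    congr 1
    exact Nat.card_congr
      { toFun := fun s => ⟨⟨⟨s, (show IsScal (mat (s : H)) from s.2).2.1⟩, (hw _).mpr (by
          show mat (s : H) 0 0 ^ 2 = 1
          rcases hH.scal_pm s.2 with h | h <;> rw [h] <;> ring)⟩, not_not.mpr s.2⟩
        invFun := fun b => ⟨((b.1 : upperSub H) : H), not_not.mp b.2⟩
        left_inv := fun _ => rfl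
        right_inv := fun _ => rfl }
  have hpar : Nat.card (parSet H) = (upperSub H).index * Nat.card K := by
    rw [Subgroup.index_eq_card, ← Nat.card_prod]
    have hmem : ∀ (a : H) (b : K), a * ((b.1 : upperSub H) : H) * a⁻¹ ∈ parSet H := fun a b =>
      ⟨fun hs => b.2 ((isScal_conj_iff a _).mp hs), by
        rw [show (mat (a * ((b.1 : upperSub H) : H) * a⁻¹)).trace = _ from trace_conj_units _ _]
        exact (hH.upper_pm (b.1 : upperSub H).2 ((hw _).mp b.1.2)).2⟩
    refine (Nat.card_eq_of_bijective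
      (fun w : (H ⧸ upperSub H) × K => (⟨_, hmem w.1.out w.2⟩ : parSet H)) ⟨?_, ?_⟩).symm
    · rintro ⟨a, b⟩ ⟨a', b'⟩ h
      have h' : a.out * ((b.1 : upperSub H) : H) * a.out⁻¹ =
          a'.out * ((b'.1 : upperSub H) : H) * a'.out⁻¹ := congrArg Subtype.val h
      have ha : a = a' := by
        rw [← QuotientGroup.out_eq' a, ← QuotientGroup.out_eq' a', QuotientGroup.eq]
        by_contra hne
        obtain ⟨s, u, hs, hu, hsu⟩ :=
          hH.scal_mul_unip hp2 (b.1 : upperSub H).2 ((hw _).mp b.1.2)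
        have hu1 : u ≠ 1 := fun h0 => b.2 (by rw [hsu, h0, mul_one]; exact hs)
        have hsc : (a.out⁻¹ * a'.out)⁻¹ * s = s * (a.out⁻¹ * a'.out)⁻¹ :=
          mat_injective (by rw [mat_mul, mat_mul, hs.commute])
        refine hu1 (hH.eq_one_of_fix (g := a.out⁻¹ * a'.out) hu hne ?_)
        have e : (a.out⁻¹ * a'.out)⁻¹ * u * (a.out⁻¹ * a'.out) =
            s⁻¹ * ((b'.1 : upperSub H) : H) := by
          rw [show ((b'.1 : upperSub H) : H) = a'.out⁻¹ * (a.out * ((b.1 : upperSub H) : H) *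
            a.out⁻¹) * a'.out by rw [h']; group, hsu,
            show a'.out⁻¹ * (a.out * (s * u) * a.out⁻¹) * a'.out =
              ((a.out⁻¹ * a'.out)⁻¹ * s) * u * (a.out⁻¹ * a'.out) by group, hsc]
          group
        rw [e]
        exact mul_mem (inv_mem (mem_upperSub.mpr hs.2.1)) (b'.1 : upperSub H).2
      subst ha
      refine Prod.ext rfl (Subtype.ext (Subtype.ext (Subtype.ext ?_)))
      exact mul_left_cancel (mul_right_cancel h')
    · rintro ⟨g, hgs, hgt⟩
      obtain ⟨h, hh⟩ := hH.exists_conj_upper hp2 hgs hgt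
      obtain ⟨ν, hν⟩ := QuotientGroup.mk_out_eq_mul (upperSub H) h⁻¹
      set b₀ : upperSub H := ν⁻¹ * ⟨_, hh⟩ * ν
      have hb₀ : ((b₀ : H)) = ((ν : H)⁻¹ * h) * g * ((ν : H)⁻¹ * h)⁻¹ := by
        show (ν : H)⁻¹ * (h * g * h⁻¹) * (ν : H) = _
        group
      have hs : ¬ IsScal (mat (b₀ : H)) := by rw [hb₀, isScal_conj_iff]; exact hgs
      have hb1 : mat (b₀ : H) 0 0 ^ 2 = 1 := by
        have ht : (mat (b₀ : H)).trace ^ 2 = 4 := by
          rw [hb₀, show (mat (((ν : H)⁻¹ * h) * g * ((ν : H)⁻¹ * h)⁻¹)).trace = _ from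
            trace_conj_units _ _]
          exact hgt
        have h1 := hH.upper_11 b₀.2
        rw [Matrix.trace_fin_two] at ht
        have h2 : (mat (b₀ : H) 0 0 - mat (b₀ : H) 1 1) ^ 2 = 0 := by linear_combination ht - 4 * h1
        rw [sub_eq_zero.mp (pow_eq_zero_iff two_ne_zero |>.mp h2)] at h1 ⊢
        rw [pow_two, h1]
      refine ⟨((h⁻¹ : H), ⟨⟨b₀, (hw _).mpr hb1⟩, hs⟩), Subtype.ext ?_⟩
      show ((h⁻¹ : H) : H ⧸ upperSub H).out * (b₀ : H) * ((h⁻¹ : H) : H ⧸ upperSub H).out⁻¹ = g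
      rw [hν, hb₀]
      group
  rw [hpar, ← mul_add, hK]

omit [Finite k] in
lemma orbSet_subset {x : H} (hx : (mat x).trace ^ 2 ≠ 4) : orbSet x ⊆ regSet H := by
  rintro y ⟨hys, h, hh⟩
  have := hH.trace_sq_iff_of_cen hx (mt (isScal_conj_iff h y).mp hys) (mem_cen.mp hh)
  rwa [show (mat (h * y * h⁻¹)).trace = _ from trace_conj_units _ _] at this

omit [Finite k] hp [CharP k p] in
/-- The centraliser of a diagonalisable element generating the torus. -/
lemma card_torus (y : upperSub H) (hy : mat (y : H) 0 0 ^ 2 ≠ 1)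
    (hgen : ∀ w : (upperWeight H).range, ∃ j : ℕ, (w : kˣ) = upperWeight H y ^ j) :
    (mat (y : H)).trace ^ 2 ≠ 4 ∧ Nat.card (Subgroup.centralizer ({(y : H)} : Set H)) =
      Nat.card (upperWeight H).range * Nat.card (scalSub H) := by
  have h1 := hH.upper_11 y.2
  have hne : mat (y : H) 0 0 ≠ mat (y : H) 1 1 := fun h => hy (by rw [← h] at h1; rw [pow_two, h1])
  have hys : ¬ IsScal (mat (y : H)) := fun hs => hne hs.2.2
  refine ⟨fun h4 => hne ?_, ?_⟩
  · rw [Matrix.trace_fin_two] at h4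
    have h2 : (mat (y : H) 0 0 - mat (y : H) 1 1) ^ 2 = 0 := by linear_combination h4 - 4 * h1
    exact sub_eq_zero.mp (pow_eq_zero_iff two_ne_zero |>.mp h2)
  set C := Subgroup.centralizer ({(y : H)} : Set H)
  have hCB : C ≤ upperSub H := fun g hg => by
    obtain ⟨a, b, hab⟩ := exists_eq_add_of_commute (y := mat g) hys (congrArg mat (mem_cen.mp hg))
    show mat g 1 0 = 0
    simp [hab, show mat (y : H) 1 0 = 0 from y.2]
  let φ : C →* kˣ := (upperWeight H).comp (Subgroup.inclusion hCB)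
  have hr : φ.range = (upperWeight H).range := by
    refine le_antisymm ?_ fun w hw => ?_
    · rintro _ ⟨g, rfl⟩; exact ⟨_, rfl⟩
    · obtain ⟨j, hj⟩ := hgen ⟨w, hw⟩
      refine ⟨⟨(y : H) ^ j, pow_mem (mem_cen.mpr rfl) j⟩, ?_⟩
      rw [show w = upperWeight H y ^ j from hj, ← map_pow]
      rfl
  have hk : Nat.card φ.ker = Nat.card (scalSub H) := Nat.card_congr
    { toFun := fun g => ⟨(g.1 : H), by
        show IsScal (mat (g.1 : H))
        obtain ⟨a, b, hab⟩ :=
          exists_eq_add_of_commute (y := mat (g.1 : H)) hys (congrArg mat (mem_cen.mp g.1.2))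
        have hg2 : mat (g.1 : H) 0 0 ^ 2 = 1 := congrArg Units.val (MonoidHom.mem_ker.mp g.2)
        have e := (hH.upper_pm (hCB g.1.2) hg2).1
        rw [hab] at e
        have hb : b = 0 := (mul_eq_zero.mp (show b * (mat (y : H) 0 0 - mat (y : H) 1 1) = 0 by
          simp at e; rw [e.resolve_left hne, zero_mul])).resolve_right (sub_ne_zero.mpr hne)
        rw [hab, hb, zero_smul, add_zero]
        exact isScal_smul_one a⟩
      invFun := fun s => ⟨⟨s, scal_le_cen _ s.2⟩, MonoidHom.mem_ker.mpr (Units.ext (by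
        show mat (s : H) 0 0 ^ 2 = 1
        rcases hH.scal_pm s.2 with h | h <;> rw [h] <;> ring))⟩
      left_inv := fun _ => rfl
      right_inv := fun _ => rfl }
  rw [← hr, ← hk, ← Subgroup.index_ker, Subgroup.index_mul_card]

lemma three_le_card_unipSub (hp2 : p ≠ 2) : 3 ≤ Nat.card (unipSub H) := by
  have hp3 : 3 ≤ p := lt_of_le_of_ne hp.out.two_le (Ne.symm hp2)
  obtain ⟨u, hu, hu1⟩ := hH.exists_unip
  have hne : (⟨u, hu⟩ : unipSub H) ≠ 1 := fun h => by
    have := congrFun (congrFun (congrArg mat (congrArg Subtype.val h)) 0) 1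
    rw [hu1] at this
    simp [mat_one] at this
  have ho : orderOf (⟨u, hu⟩ : unipSub H) = p :=
    orderOf_eq_prime (Subtype.ext (hH.pow_p_unip hu)) hne
  exact hp3.trans (Nat.le_of_dvd Nat.card_pos (ho ▸ orderOf_dvd_natCard _))

omit hp [CharP k p] in
/-- The scalars, the elements with a repeated eigenvalue and the rest. -/
lemma card_eq_add_add :
    Nat.card H = Nat.card (scalSub H) + Nat.card (parSet H) + Nat.card (regSet H) := by
  have hu : (Set.univ : Set H) = ((scalSub H : Set H) ∪ parSet H) ∪ regSet H := by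
    ext g
    simp only [Set.mem_univ, Set.mem_union, SetLike.mem_coe, mem_scalSub, parSet, regSet,
      Set.mem_ofPred_eq, true_iff]
    tauto
  have hd1 : Disjoint (scalSub H : Set H) (parSet H) :=
    Set.disjoint_left.mpr fun g hs hp => hp.1 hs
  have hd2 : Disjoint ((scalSub H : Set H) ∪ parSet H) (regSet H) :=
    Set.disjoint_left.mpr fun g hs hr => hr (hs.elim (fun h => hH.trace_sq_scal h) fun h => h.2)
  rw [← Set.ncard_univ, hu, Set.ncard_union_eq hd2, Set.ncard_union_eq hd1,
    ← Nat.card_coe_set_eq, ← Nat.card_coe_set_eq, ← Nat.card_coe_set_eq]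
  rfl

/-- A part of the regular elements made of the conjugates of the torus, with its size. -/
lemma exists_torus_part (hp2 : p ≠ 2) : ∃ (T : Set H) (o f : ℕ),
    T ⊆ regSet H ∧
    (Nat.card (upperWeight H).range = 1 ∨ f = 1 ∨ f = 2) ∧
    (Nat.card (upperWeight H).range = 1 ∨
      o * f = (upperSub H).index * Nat.card (unipSub H)) ∧
    Nat.card T + o * Nat.card (scalSub H) =
      o * (Nat.card (upperWeight H).range * Nat.card (scalSub H)) ∧
    ∀ x ∈ regSet H, ∀ y ∈ orbSet x, y ∈ T → x ∈ T := by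
  have hg := hH.card_eq hp2
  by_cases ht : Nat.card (upperWeight H).range = 1
  · exact ⟨∅, 0, 0, Set.empty_subset _, Or.inl ht, Or.inl ht, by simp, fun _ _ _ _ h => h.elim⟩
  obtain ⟨w₀, hw₀⟩ := IsCyclic.exists_generator (α := (upperWeight H).range)
  obtain ⟨y, hy⟩ := w₀.2
  have hgen : ∀ w : (upperWeight H).range, ∃ j : ℕ, (w : kˣ) = upperWeight H y ^ j := fun w => by
    obtain ⟨j, hj⟩ := (isOfFinOrder_of_finite w₀).mem_powers_iff_mem_zpowers.mpr (hw₀ w)
    exact ⟨j, by rw [hy, ← SubmonoidClass.coe_pow]; exact congrArg Subtype.val hj.symm⟩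
  have hy1 : mat (y : H) 0 0 ^ 2 ≠ 1 := fun h => ht (by
    rw [Nat.card_eq_one_iff_unique]
    refine ⟨⟨fun a b => Subtype.ext ?_⟩, inferInstance⟩
    obtain ⟨i, hi⟩ := hgen a
    obtain ⟨j, hj⟩ := hgen b
    rw [hi, hj, show upperWeight H y = 1 from Units.ext h, one_pow, one_pow])
  obtain ⟨htr, hC⟩ := hH.card_torus y hy1 hgen
  obtain ⟨o, f, hf, ho, hcard⟩ := hH.exists_card_orb hp2 htr
  refine ⟨orbSet (y : H), o, f, hH.orbSet_subset htr, Or.inr hf, Or.inr ?_, ?_, ?_⟩
  · rw [hC, hg] at ho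
    refine Nat.eq_of_mul_eq_mul_right
      (Nat.mul_pos (Nat.card_pos (α := (upperWeight H).range)) (Nat.card_pos (α := scalSub H))) ?_
    rw [mul_assoc, ho]; ring
  · rw [hcard, ← mul_add, card_cenPart, hC]
  · exact fun x hx y' hy' hyT =>
      orbSet_trans (fun hs => hx (hH.trace_sq_scal hs)) hy' hyT

/-- The number and size of the conjugates of the centraliser of a regular element. -/
lemma exists_orb_card (hp2 : p ≠ 2) {x : H} (hx : x ∈ regSet H) : ∃ o₁ d f₁ : ℕ, 2 ≤ d ∧
    (f₁ = 1 ∨ f₁ = 2) ∧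
    o₁ * d * f₁ = (upperSub H).index * Nat.card (unipSub H) * Nat.card (upperWeight H).range ∧
    Nat.card (orbSet x) + o₁ * Nat.card (scalSub H) = o₁ * (d * Nat.card (scalSub H)) := by
  have hg := hH.card_eq hp2
  obtain ⟨o₁, f₁, hf₁, ho₁, hc₁⟩ := hH.exists_card_orb hp2 hx
  obtain ⟨d, hd⟩ := Subgroup.card_dvd_of_le (scal_le_cen x)
  have hd2 : 2 ≤ d := by
    have h1 := card_cenPart x
    have : 0 < Nat.card (cenPart H x) := by
      have : Nonempty (cenPart H x) :=
        ⟨⟨⟨x, mem_cen.mpr rfl⟩, fun hs => hx (hH.trace_sq_scal hs)⟩⟩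
      exact Nat.card_pos
    by_contra hlt
    have hd1 : d ≤ 1 := by omega
    rw [hd] at h1
    have := Nat.mul_le_mul_left (Nat.card (scalSub H)) hd1
    omega
  refine ⟨o₁, d, f₁, hd2, hf₁, ?_, ?_⟩
  · rw [hd, hg] at ho₁
    refine Nat.eq_of_mul_eq_mul_left (Nat.card_pos (α := scalSub H)) ?_
    linear_combination ho₁
  · rw [hc₁, ← mul_add, card_cenPart, hd, mul_comm d]

/-- **The torus is at least half as large as the unipotent group.** -/
theorem card_unipSub_le (hp2 : p ≠ 2) :
    Nat.card (unipSub H) ≤ 2 * Nat.card (upperWeight H).range + 1 := by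
  obtain ⟨m, hm, hn⟩ := hH.exists_index
  have hg := hH.card_eq hp2
  have hpar := hH.card_parSet hp2
  have hq := hH.three_le_card_unipSub hp2
  have hsplit := hH.card_eq_add_add
  obtain ⟨T, o, f, hT, hf, ho, hTcard, hTclosed⟩ := hH.exists_torus_part hp2
  have hreg : Nat.card (regSet H) = Nat.card T + Nat.card ↥(regSet H \ T) := by
    rw [Nat.card_coe_set_eq, Nat.card_coe_set_eq, Nat.card_coe_set_eq, add_comm,
      Set.ncard_sdiff_add_ncard_of_subset hT]
  have orbInfo := fun x (hx : x ∈ regSet H) => hH.exists_orb_card hp2 hx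
  set n := (upperSub H).index
  set q := Nat.card (unipSub H)
  set t := Nat.card (upperWeight H).range
  set z := Nat.card (scalSub H)
  have hzpos : 0 < z := Nat.card_pos
  have htpos : 0 < t := Nat.card_pos
  have key : (Nat.card ↥(regSet H \ T) : ℤ) = 0 ∨ ∃ o₁ d R' : ℤ, 2 ≤ d ∧
      (Nat.card ↥(regSet H \ T) : ℤ) = o₁ * (z * d - z) + R' ∧ 0 ≤ R' ∧
      ((o₁ * d = n * q * t) ∨
        (o₁ * d * 2 = n * q * t ∧ (R' = 0 ∨ (n : ℤ) * q * t * z ≤ 4 * R'))) := by
    rcases (regSet H \ T).eq_empty_or_nonempty with he | ⟨x, hxR, hxT⟩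
    · left
      rw [he]; simp
    right
    obtain ⟨o₁, d, f₁, hd, hf₁, he₁, hc₁⟩ := orbInfo x hxR
    have hsub : orbSet x ⊆ regSet H \ T := fun y hy =>
      ⟨hH.orbSet_subset hxR hy, fun hyT => hxT (hTclosed x hxR y hy hyT)⟩
    have hR : Nat.card ↥(regSet H \ T) =
        Nat.card (orbSet x) + Nat.card ↥((regSet H \ T) \ orbSet x) := by
      rw [Nat.card_coe_set_eq, Nat.card_coe_set_eq, Nat.card_coe_set_eq, add_comm,
        Set.ncard_sdiff_add_ncard_of_subset hsub]
    refine ⟨o₁, d, Nat.card ↥((regSet H \ T) \ orbSet x), by exact_mod_cast hd, ?_,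
      Int.natCast_nonneg _, ?_⟩
    · push_cast [hR]
      have : (Nat.card (orbSet x) : ℤ) + o₁ * z = o₁ * (d * z) := by exact_mod_cast hc₁
      linear_combination this
    rcases hf₁ with rfl | rfl
    · left
      exact_mod_cast (mul_one (o₁ * d)).symm.trans he₁
    right
    refine ⟨by exact_mod_cast he₁, ?_⟩
    rcases ((regSet H \ T) \ orbSet x).eq_empty_or_nonempty with he | ⟨x₂, hx₂⟩
    · left
      rw [he]; simp
    right
    obtain ⟨o₂, d₂, f₂, hd₂, hf₂, he₂, hc₂⟩ := orbInfo x₂ hx₂.1.1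
    have hsub₂ : orbSet x₂ ⊆ (regSet H \ T) \ orbSet x := fun y hy =>
      ⟨⟨hH.orbSet_subset hx₂.1.1 hy, fun hyT => hx₂.1.2 (hTclosed x₂ hx₂.1.1 y hy hyT)⟩,
        fun hyx => hx₂.2 (orbSet_trans (fun hs => hx₂.1.1 (hH.trace_sq_scal hs)) hy hyx)⟩
    have h2 : (Nat.card (orbSet x₂) : ℤ) ≤ Nat.card ↥((regSet H \ T) \ orbSet x) := by
      rw [Nat.card_coe_set_eq, Nat.card_coe_set_eq]
      exact_mod_cast Set.ncard_le_ncard hsub₂
    have hc₂' : (Nat.card (orbSet x₂) : ℤ) + o₂ * z = o₂ * (d₂ * z) := by exact_mod_cast hc₂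
    have he₂' : (o₂ : ℤ) * d₂ * f₂ = n * q * t := by exact_mod_cast he₂
    have hd₂' : (2 : ℤ) ≤ d₂ := by exact_mod_cast hd₂
    have hf₂' : (f₂ : ℤ) ≤ 2 := by rcases hf₂ with rfl | rfl <;> norm_num
    have h3 : (o₂ : ℤ) * d₂ * f₂ * z ≤ o₂ * d₂ * 2 * z := by gcongr
    have h4 : (o₂ : ℤ) * 2 * z ≤ o₂ * d₂ * z := by gcongr
    nlinarith
  have heq : (n : ℤ) * q * t * z - z =
      n * (z * q - z) + o * (z * t - z) + Nat.card ↥(regSet H \ T) := by
    have h1 : ((Nat.card H : ℕ) : ℤ) = n * (t * (z * q)) := by exact_mod_cast hg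
    have h2 : ((Nat.card H : ℕ) : ℤ) = z + Nat.card (parSet H) + Nat.card (regSet H) := by
      exact_mod_cast hsplit
    have h3 : ((Nat.card (parSet H) : ℕ) : ℤ) + n * z = n * (z * q) := by exact_mod_cast hpar
    have h4 : ((Nat.card (regSet H) : ℕ) : ℤ) =
        Nat.card T + Nat.card ↥(regSet H \ T) := by exact_mod_cast hreg
    have h5 : ((Nat.card T : ℕ) : ℤ) + o * z = o * (t * z) := by exact_mod_cast hTcard
    linear_combination -h1 + h2 + h3 + h4 + h5
  have := two_mul_add_one_ge_of_equation (n := (n : ℤ)) (q := q) (t := t) (z := z) (o := o)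
    (f := f) (R := Nat.card ↥(regSet H \ T)) (m := m) (by exact_mod_cast hn)
    (by exact_mod_cast hm) (by exact_mod_cast hq) (by exact_mod_cast htpos)
    (by exact_mod_cast hzpos) (by exact_mod_cast hf) (by exact_mod_cast ho) heq key
  exact_mod_cast this

end StdGroup

end FermatAgent.CFT.Selmer
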