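import Fermat.Agent.RT.TameGen

/-!
Inertia at `q ≠ p` has cyclic image in every finite quotient where it is a `p`-group.
-/

set_option autoImplicit false

noncomputable section

namespace FermatAgent.CFT.Selmer

open GaloisBasic Mazur

variable {A : ValuationSubring Qbar} {q p : ℕ} {H : Type*} [Group H] [Finite H] (ρ : GQ →* H)

/-- One element of inertia generates a `p`-group image. -/
theorem exists_inertia_generator [hp : Fact p.Prime] (hq : q.Prime) (hA : A.LiesOverPrime q)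
    (hpq : q ≠ p) (hρ : IsOpen (ρ.ker : Set GQ))
    (hP : IsPGroup p ((A.inertiaSubgroupIn ℚ).map ρ)) :
    ∃ x ∈ A.inertiaSubgroupIn ℚ, ∀ σ ∈ A.inertiaSubgroupIn ℚ, ∃ j : ℕ, ρ σ = ρ x ^ j := by
  obtain ⟨τ, hτ⟩ := RT.exists_isTameGen (p := p) hq hA hpq
  refine ⟨τ, hτ.mem, fun σ hσ => ?_⟩
  obtain ⟨j, hj⟩ := (isOfFinOrder_of_finite (ρ τ)).mem_powers_iff_mem_zpowers.mpr
    (RT.map_inertia_eq_zpowers ρ hq hA hpq hρ hP hτ ▸ Subgroup.mem_map_of_mem ρ hσ)
  exact ⟨j, hj.symm⟩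

end FermatAgent.CFT.Selmer
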