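import Fermat.Agent.CFT.Selmer.LocalCond
import Fermat.Agent.RT.Tame

/-!
The cyclotomic line at the residue characteristic: its classes and their images among local classes.

`finrank_lineCoc`: over the local group at `p ≠ 2` the classes with values in the mod `p` cyclotomic
line (`lineCoc` modulo `lineCob`) have dimension at most two, by the local Euler characteristic and
an inertia element with character `-1`.
`lineClass` maps them to local classes (`locClass`) along a line rotated by the character; a cocycle
equal to a coboundary plus a multiple of the line has its class in the image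
(`lineClass_eq_locClass`), and the kernels are controlled by `finrank_locFix_pos` and
`finrank_ker_locClass_le`.
-/

set_option autoImplicit false

noncomputable section

open scoped Classical

namespace FermatAgent.CFT.Selmer

open Coh Euler Pairing Global Local LocalEuler GaloisBasic

variable {p : ℕ} [hp : Fact p.Prime] {k : Type} [Field k]

/-! ### The line of the cyclotomic character -/

/-- The field with the action of a character. -/
def TwMod (k : Type) (_χ : Gal' p →* (ZMod p)ˣ) : Type := k

namespace TwMod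

variable {χ : Gal' p →* (ZMod p)ˣ} [CharP k p]

instance : AddCommGroup (TwMod k χ) := inferInstanceAs (AddCommGroup k)
instance [Finite k] : Finite (TwMod k χ) := inferInstanceAs (Finite k)

/-- An element. -/
def of (x : k) : TwMod k χ := x

instance : DistribMulAction (Gal' p) (TwMod k χ) where
  smul g x := (ZMod.castHom (dvd_refl p) k (χ g : ZMod p)) * (show k from x)
  one_smul x := by
    show ZMod.castHom (dvd_refl p) k (χ 1 : ZMod p) * (show k from x) = x
    rw [map_one, Units.val_one, map_one, one_mul]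
  mul_smul g h x := by
    show ZMod.castHom (dvd_refl p) k (χ (g * h) : ZMod p) * (show k from x) =
      ZMod.castHom (dvd_refl p) k (χ g : ZMod p) *
        (ZMod.castHom (dvd_refl p) k (χ h : ZMod p) * (show k from x))
    rw [map_mul χ, Units.val_mul, map_mul (ZMod.castHom (dvd_refl p) k), mul_assoc]
  smul_zero g := mul_zero (ZMod.castHom (dvd_refl p) k (χ g : ZMod p))
  smul_add g x y := mul_add (ZMod.castHom (dvd_refl p) k (χ g : ZMod p)) _ _

end TwMod

/-- The mod `p` cyclotomic character of the local group with values in the field. -/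
def chiLK (k : Type) [Field k] (p : ℕ) [Fact p.Prime] [CharP k p] (d : Gal' p) : k :=
  chiK k p (localGaloisToGlobal p d)

variable [CharP k p]

lemma chiLK_eq (d : Gal' p) :
    chiLK k p d = ZMod.castHom (dvd_refl p) k (chiL p p d : ZMod p) := by
  rw [chiLK, coe_chiK]; rfl

/-- Continuous cocycles of the local group with values in the cyclotomic line. -/
def lineCoc (k : Type) [Field k] (p : ℕ) [Fact p.Prime] [CharP k p] :
    Submodule k (Gal' p → k) where
  carrier := {β | (∀ g h, β (g * h) = β g + chiLK k p g * β h) ∧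
    ∃ W ∈ LL p, ∀ g, ∀ s ∈ W, β (g * s) = β g}
  zero_mem' := ⟨fun g h => by simp, ⊤, (LL p).top_mem, fun g s _ => rfl⟩
  add_mem' {a b} := by
    rintro ⟨ha, W, hW, hWa⟩ ⟨hb, W', hW', hWb⟩
    exact ⟨fun g h => by simp only [Pi.add_apply, ha g h, hb g h]; ring, W ⊓ W',
      (LL p).inf_mem hW hW', fun g s hs => by
        simp only [Pi.add_apply, hWa g s hs.1, hWb g s hs.2]⟩
  smul_mem' t a := by
    rintro ⟨ha, W, hW, hWa⟩
    exact ⟨fun g h => by simp only [Pi.smul_apply, smul_eq_mul, ha g h]; ring, W, hW,
      fun g s hs => by simp only [Pi.smul_apply, hWa g s hs]⟩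

/-- The coboundary of the line. -/
def lineCob (k : Type) [Field k] (p : ℕ) [Fact p.Prime] [CharP k p] :
    Submodule k (lineCoc k p) :=
  (Submodule.span k {fun g : Gal' p => chiLK k p g - 1}).comap (lineCoc k p).subtype

/-- An element of inertia with cyclotomic character `-1`. -/
lemma exists_inertia_chiQ_neg_one (p : ℕ) [hp : Fact p.Prime] :
    ∃ τ ∈ (padicPlace p).inertiaSubgroupIn ℚ, chiQ p τ = -1 := by
  obtain ⟨τ, hτ, hτζ⟩ := RT.exists_inertia_cyclotomic hp.out
    (liesOverPrime_padicPlace (q := p)) (-1 : (ZMod p)ˣ)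
  have : NeZero p := ⟨hp.out.ne_zero⟩
  refine ⟨τ, hτ, Units.ext (ZMod.val_injective p ?_)⟩
  refine (zet_spec p).pow_inj (ZMod.val_lt _) (ZMod.val_lt _) ?_
  rw [← apply_zet, hτζ _ (zet_spec p).pow_eq_one]

variable [Finite k]

/-- **The cohomology of the line has dimension at most two.** -/
theorem finrank_lineCoc (hp2 : p ≠ 2) :
    Finite (lineCoc k p ⧸ lineCob k p) ∧ Module.finrank k (lineCoc k p ⧸ lineCob k p) ≤ 2 := by
  set χ := chiL p p
  set U : Subgroup (Gal' p) := (chiQ p).ker.comap (localGaloisToGlobal p)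
  have hUL : U ∈ LL p := mem_LL_of_comap _ (LQ.comap_mem _ (LS_le
    (ker_chiQ_mem_LS p (Finset.mem_singleton_self (ExtCitation.pPrime p)))))
  have hUn : U.Normal := Subgroup.Normal.comap inferInstance _
  have hUχ : U ≤ χ.ker := fun d hd => hd
  have hM : Good p U (TwMod k χ) := ⟨fun g hg x => by
      show ZMod.castHom (dvd_refl p) k (χ g : ZMod p) * (show k from x) = x
      rw [MonoidHom.mem_ker.mp (hUχ hg), Units.val_one, map_one, one_mul],
    fun x => by
      show p • (show k from x) = 0
      rw [nsmul_eq_mul, CharP.cast_eq_zero, zero_mul]⟩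
  obtain ⟨hfin, hdim⟩ := finite_H1_and_ldim (rootAt p p) hUn hUL hUχ (TwMod k χ) hM
  have hh0 : ldim p (h0Sub (Gal' p) (TwMod k χ)) = 0 := by
    obtain ⟨τ, hτ, hχτ⟩ := exists_inertia_chiQ_neg_one p
    obtain ⟨F, hF, hFU⟩ := ker_chiQ_mem_LS p (Finset.mem_singleton_self (ExtCitation.pPrime p))
    have := hF.1
    obtain ⟨d, hd⟩ := exists_localGalois_eq p F (inertiaSubgroupIn_le_decompositionSubgroup _ hτ)
    have hχd : χ d = -1 := by
      have := MonoidHom.mem_ker.mp (hFU hd)
      rw [map_mul, map_inv, inv_mul_eq_one] at this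
      exact this.trans hχτ
    have : Subsingleton (h0Sub (Gal' p) (TwMod k χ)) := ⟨fun a b => by
      suffices h : ∀ a : h0Sub (Gal' p) (TwMod k χ), (show k from a.1) = 0 by
        exact Subtype.ext ((h a).trans (h b).symm)
      intro a
      have h1 : ZMod.castHom (dvd_refl p) k (χ d : ZMod p) * (show k from a.1) = a.1 := a.2 d
      rw [hχd, Units.val_neg, Units.val_one, map_neg, map_one, neg_one_mul] at h1
      have h2 : (2 : k) ≠ 0 := fun h0 => hp2 ((Nat.prime_dvd_prime_iff_eq hp.out Nat.prime_two).mp
        ((CharP.cast_eq_zero_iff k p 2).mp (by exact_mod_cast h0)))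
      exact (mul_eq_zero.mp (show (2 : k) * (show k from a.1) = 0 by
        rw [two_mul]; nth_rewrite 1 [← h1]; exact neg_add_cancel _)
        ).resolve_left h2⟩
    exact ldim_of_subsingleton p
  have heq : ldim p (eqHom χ (MonoidHom.id (Gal' p)) (TwMod k χ)) ≤ ldim p k := by
    have : Finite (TwMod k χ →+ ZMod p) := Finite.of_injective _ DFunLike.coe_injective
    refine (ldim_le_of_injective p (eqHom χ (MonoidHom.id (Gal' p)) (TwMod k χ)).subtype
      Subtype.val_injective).trans (le_of_eq ?_)
    rw [ldim, ldim, card_homZMod (fun a => hM.killed a)]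
    rfl
  have htot : ldim p (H1 (LL p) (TwMod k χ)) ≤ 2 * ldim p k := by
    rw [hdim, hh0, zero_add, show lC p p = 1 from if_pos rfl, one_mul, two_mul]
    exact Nat.add_le_add heq (le_of_eq rfl)
  -- cocycles to classes
  let z : lineCoc k p → ↥((LL p).Z1 ⊤ (TwMod k χ)) := fun β => ⟨fun g => TwMod.of (β.1 g), by
    obtain ⟨hcoc, W, hW, hWc⟩ := β.2
    refine ⟨⟨W, hW, fun g _ s hs => hWc g s hs.2⟩, fun g _ h _ => ?_⟩
    show ZMod.castHom (dvd_refl p) k (χ g : ZMod p) * β.1 h - β.1 (g * h) + β.1 g = (0 : k)
    rw [hcoc, chiLK_eq]; ring⟩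
  let f : lineCoc k p →+ H1 (LL p) (TwMod k χ) := AddMonoidHom.mk'
    (fun β => cls1 (LL p) (TwMod k χ) (z β)) fun a b => by
      rw [← map_add]; exact congrArg _ (Subtype.ext rfl)
  have hker : f.ker = (lineCob k p).toAddSubgroup := by
    ext β
    constructor
    · intro h
      obtain ⟨m, hm⟩ := cls1_eq_zero_iff.mp h
      refine Submodule.mem_span_singleton.mpr ⟨(show k from m), funext fun g => ?_⟩
      have h1 : β.1 g = ZMod.castHom (dvd_refl p) k (χ g : ZMod p) * (show k from m) -
        (show k from m) := hm g (Subgroup.mem_top g)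
      rw [Submodule.coe_subtype, h1, Pi.smul_apply, smul_eq_mul, chiLK_eq]; ring
    · intro h
      obtain ⟨t, ht⟩ := Submodule.mem_span_singleton.mp h
      refine cls1_eq_zero_iff.mpr ⟨TwMod.of t, fun g _ => ?_⟩
      show β.1 g = ZMod.castHom (dvd_refl p) k (χ g : ZMod p) * t - t
      rw [show β.1 g = t * (chiLK k p g - 1) from (congrFun ht g).symm, chiLK_eq]; ring
  let g : lineCoc k p ⧸ lineCob k p → H1 (LL p) (TwMod k χ) :=
    QuotientAddGroup.lift (lineCob k p).toAddSubgroup f (le_of_eq hker.symm)
  have hinj : Function.Injective g := by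
    intro a b hab
    obtain ⟨a, rfl⟩ := Submodule.Quotient.mk_surjective _ a
    obtain ⟨b, rfl⟩ := Submodule.Quotient.mk_surjective _ b
    refine (Submodule.Quotient.eq _).mpr ?_
    have : a - b ∈ f.ker := by
      rw [AddMonoidHom.mem_ker, map_sub, sub_eq_zero]; exact hab
    rwa [hker] at this
  have := hfin
  have hq : Finite (lineCoc k p ⧸ lineCob k p) := Finite.of_injective g hinj
  refine ⟨hq, ?_⟩
  have hcard := Nat.card_le_card_of_injective g hinj
  rw [Module.natCard_eq_pow_finrank (K := k) (V := lineCoc k p ⧸ lineCob k p),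
    card_eq_pow_ldim (p := p) (A := H1 (LL p) (TwMod k χ)) (fun x => by
      obtain ⟨c, rfl⟩ := QuotientAddGroup.mk'_surjective _ x
      rw [← map_nsmul, show p • c = 0 from Subtype.ext (funext fun g => hM.killed (c.1 g)),
        map_zero]),
    card_eq_pow_ldim (p := p) (A := k) (fun a => by
      rw [nsmul_eq_mul, CharP.cast_eq_zero, zero_mul]), ← pow_mul] at hcard
  have h1 := ((Nat.pow_le_pow_iff_right hp.out.one_lt).mp hcard).trans htot
  exact Nat.le_of_mul_le_mul_left (by linarith [mul_comm 2 (ldim p k)]) (ldim_field_pos (k := k) p)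

/-! ### Matrices over dual numbers -/

/-- The first order part of a matrix over dual numbers. -/
def sndMat (X : Matrix (Fin 2) (Fin 2) (DualNumber k)) : M22 k := X.map TrivSqZeroExt.snd

/-- The constant part of a matrix over dual numbers. -/
def fstMat : Matrix (Fin 2) (Fin 2) (DualNumber k) →+* M22 k :=
  (TrivSqZeroExt.fstHom k k k).toRingHom.mapMatrix

omit [CharP k p] [Finite k] hp in
/-- The product rule for infinitesimal parts. -/
lemma sndMat_mul (X Y : Matrix (Fin 2) (Fin 2) (DualNumber k)) :
    sndMat (X * Y) = fstMat X * sndMat Y + sndMat X * fstMat Y := by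
  ext i j
  simp [sndMat, fstMat, Matrix.mul_apply, Fin.sum_univ_two]
  ring

/-! ### Classes on the local group -/

section LocalClasses

variable {r : MatRep k}

omit [Finite k]

/-- Elements with the same image have inverses with the same image. -/
lemma rep_inv_congr {a b : GQ} (h : r a = r b) : r a⁻¹ = r b⁻¹ := by
  calc r a⁻¹ = r a⁻¹ * (r b * r b⁻¹) := by rw [rep_mul_inv, mul_one]
    _ = r b⁻¹ := by rw [← h, ← mul_assoc, rep_inv_mul, one_mul]

/-- A coboundary is a cocycle. -/
lemma conjSub_mul (r : MatRep k) (e : M22 k) (σ τ : GQ) :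
    r (σ * τ) * e * r (σ * τ)⁻¹ - e =
      (r σ * e * r σ⁻¹ - e) + r σ * (r τ * e * r τ⁻¹ - e) * r σ⁻¹ := by
  simp only [map_mul, mul_inv_rev, mul_sub, sub_mul, mul_assoc]
  abel

/-- A coboundary vanishes where the representation is trivial. -/
lemma conjSub_eq_zero {s : GQ} (h : r s = 1) (e : M22 k) : r s * e * r s⁻¹ - e = 0 := by
  rw [rep_inv_congr (b := 1) (h.trans (map_one r).symm), inv_one, map_one, h, one_mul, mul_one,
    sub_self]

omit [CharP k p] in
/-- The local group reaches every value of a cocycle on the decomposition group. -/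
lemma exists_local_eq {c : GQ → M22 k} (hc : c ∈ adCoc r) {L : IntermediateField ℚ Qbar}
    [FiniteDimensional ℚ L] (hL : ∀ σ ∈ L.fixingSubgroup, r σ = 1 ∧ c σ = 0) {σ : GQ}
    (hσ : σ ∈ (padicPlace p).decompositionSubgroup ℚ) :
    ∃ d, r (localGaloisToGlobal p d) = r σ ∧ c (localGaloisToGlobal p d) = c σ := by
  set loc := localGaloisToGlobal p
  obtain ⟨d, hd⟩ := exists_localGalois_eq p L hσ
  obtain ⟨hr, hs⟩ := hL _ hd
  refine ⟨d, ?_, ?_⟩
  · conv_rhs => rw [show σ = loc d * ((loc d)⁻¹ * σ) by group, map_mul, hr, mul_one]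
  · conv_rhs => rw [show σ = loc d * ((loc d)⁻¹ * σ) by group, hc.1, hs, mul_zero, zero_mul,
      add_zero]

variable (p r) in
/-- The coboundaries on the local group. -/
def locDelta : M22 k →ₗ[k] (Gal' p → M22 k) where
  toFun e d := r (localGaloisToGlobal p d) * e * r (localGaloisToGlobal p d)⁻¹ - e
  map_add' e e' := funext fun d => by simp only [Pi.add_apply, mul_add, add_mul]; abel
  map_smul' t e := funext fun d => by
    simp only [Pi.smul_apply, RingHom.id_apply, smul_sub, mul_smul_comm, smul_mul_assoc]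

variable (p r) in
/-- The local classes of a space of cochains. -/
def locClass (V : Submodule k (GQ → M22 k)) :
    V →ₗ[k] (Gal' p → M22 k) ⧸ LinearMap.range (locDelta p r) :=
  (LinearMap.range (locDelta p r)).mkQ.comp
    ({ toFun := fun c d => c.1 (localGaloisToGlobal p d)
       map_add' := fun _ _ => rfl
       map_smul' := fun _ _ => rfl } : V →ₗ[k] (Gal' p → M22 k))

/-- The classes of the cyclotomic line as local classes, along a line rotated by the cyclotomic
character. -/
def lineClass {nn : M22 k} (hn : ∀ d : Gal' p, r (localGaloisToGlobal p d) * nn *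
      r (localGaloisToGlobal p d)⁻¹ = chiLK k p d • nn) :
    (lineCoc k p ⧸ lineCob k p) →ₗ[k] (Gal' p → M22 k) ⧸ LinearMap.range (locDelta p r) :=
  (lineCob k p).liftQ ((LinearMap.range (locDelta p r)).mkQ.comp
    ({ toFun := fun β d => β.1 d • nn
       map_add' := fun a b => funext fun d => add_smul (a.1 d) (b.1 d) nn
       map_smul' := fun t a => funext fun d => mul_smul t (a.1 d) nn } :
      lineCoc k p →ₗ[k] (Gal' p → M22 k))) fun β hβ => by
    obtain ⟨t, ht⟩ := Submodule.mem_span_singleton.mp hβ
    refine (Submodule.Quotient.mk_eq_zero _).mpr ⟨t • nn, funext fun d => ?_⟩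
    show r (localGaloisToGlobal p d) * (t • nn) * r (localGaloisToGlobal p d)⁻¹ - t • nn =
      β.1 d • nn
    rw [mul_smul_comm, smul_mul_assoc, hn d, show β.1 d = t * (chiLK k p d - 1) from
      (congrFun ht d).symm, smul_smul, ← sub_smul, mul_sub, mul_one]

variable {nn : M22 k} (hn : ∀ d : Gal' p, r (localGaloisToGlobal p d) * nn *
  r (localGaloisToGlobal p d)⁻¹ = chiLK k p d • nn)

include hn in
/-- The coefficients of a cocycle with values in the line form a cocycle of the line. -/
lemma mem_lineCoc_of_smul (hnn0 : nn ≠ 0) {Y : GQ → M22 k}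
    (hY : ∀ σ τ, Y (σ * τ) = Y σ + r σ * Y τ * r σ⁻¹) {L : IntermediateField ℚ Qbar}
    [FiniteDimensional ℚ L] (hL : ∀ s ∈ L.fixingSubgroup, Y s = 0) {t : Gal' p → k}
    (ht : ∀ d, Y (localGaloisToGlobal p d) = t d • nn) : t ∈ lineCoc k p := by
  refine ⟨fun g h => smul_left_injective k hnn0 ?_,
    L.fixingSubgroup.comap (localGaloisToGlobal p),
    mem_LL_of_comap _ (LQ.comap_mem _ ⟨L, inferInstance, le_rfl⟩),
    fun g s hs => smul_left_injective k hnn0 ?_⟩
  · show t (g * h) • nn = (t g + chiLK k p g * t h) • nn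
    rw [← ht, map_mul, hY, add_smul, ht, ht, mul_smul_comm, smul_mul_assoc, hn, smul_smul,
      mul_comm (t h)]
  · show t (g * s) • nn = t g • nn
    rw [← ht, ← ht, map_mul, hY, hL _ hs, mul_zero, zero_mul, add_zero]

/-- A cocycle equal on the local group to a coboundary plus a multiple of the line has its class
in the line. -/
lemma lineClass_eq_locClass {V : Submodule k (GQ → M22 k)} (c : V) {e : M22 k} {t : lineCoc k p}
    (ht : ∀ d, c.1 (localGaloisToGlobal p d) -
      (r (localGaloisToGlobal p d) * e * r (localGaloisToGlobal p d)⁻¹ - e) = t.1 d • nn) :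
    lineClass hn (Submodule.Quotient.mk t) = locClass p r V c := by
  refine (Submodule.Quotient.eq (LinearMap.range (locDelta p r))).mpr ⟨-e, funext fun d => ?_⟩
  show r (localGaloisToGlobal p d) * -e * r (localGaloisToGlobal p d)⁻¹ - -e =
    t.1 d • nn - c.1 (localGaloisToGlobal p d)
  rw [← ht d, mul_neg, neg_mul]
  abel

/-- A class of the line which is a coboundary maps to zero. -/
lemma lineClass_eq_zero {h : M22 k} {β : lineCoc k p}
    (hβ : ∀ d,
      r (localGaloisToGlobal p d) * h * r (localGaloisToGlobal p d)⁻¹ - h = β.1 d • nn) :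
    lineClass hn (Submodule.Quotient.mk β) = 0 :=
  (Submodule.Quotient.mk_eq_zero (LinearMap.range (locDelta p r))).mpr ⟨h, funext hβ⟩

include hn in
/-- If the class of `h` in the line vanishes, then there are nonzero fixed elements. -/
lemma finrank_locFix_pos {h : M22 k} {β : lineCoc k p} (hin : β ∈ lineCob k p)
    (hβ : ∀ d,
      r (localGaloisToGlobal p d) * h * r (localGaloisToGlobal p d)⁻¹ - h = β.1 d • nn)
    (htr : h.trace = 0) (htn : nn.trace = 0) (hne : ∀ t : k, h - t • nn ≠ 0)
    (hdens : ∀ σ ∈ (padicPlace p).decompositionSubgroup ℚ,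
      ∃ d, r (localGaloisToGlobal p d) = r σ) :
    0 < Module.finrank k (locFix r ((padicPlace p).decompositionSubgroup ℚ)) := by
  obtain ⟨t, ht⟩ := Submodule.mem_span_singleton.mp hin
  have hX : h - t • nn ∈ locFix r ((padicPlace p).decompositionSubgroup ℚ) := by
    refine ⟨by rw [Matrix.trace_sub, Matrix.trace_smul, htr, htn, smul_zero, sub_zero],
      fun σ hσ => ?_⟩
    obtain ⟨d, hd⟩ := hdens σ hσ
    rw [← hd, ← rep_inv_congr hd, mul_sub, sub_mul, mul_smul_comm, smul_mul_assoc, hn d,
      eq_add_of_sub_eq (hβ d), show β.1 d = t * (chiLK k p d - 1) from (congrFun ht d).symm,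
      smul_smul, mul_sub, mul_one, sub_smul]
    abel
  exact Module.finrank_pos_iff_exists_ne_zero.mpr
    ⟨⟨_, hX⟩, fun h0 => hne t (congrArg Subtype.val h0)⟩

omit [CharP k p] in
/-- Classes vanishing on the local group are coboundaries on the decomposition group. -/
lemma finrank_ker_locClass_le (V : Submodule k (GQ → M22 k)) [Module.Finite k V]
    (hdens : ∀ c ∈ V, ∀ σ ∈ (padicPlace p).decompositionSubgroup ℚ,
      ∃ d, r (localGaloisToGlobal p d) = r σ ∧ c (localGaloisToGlobal p d) = c σ) :
    Module.finrank k (LinearMap.ker (locClass p r V)) ≤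
      Module.finrank k (V ⊓ locCob r ((padicPlace p).decompositionSubgroup ℚ) :
        Submodule k (GQ → M22 k)) := by
  set D := (padicPlace p).decompositionSubgroup ℚ
  have : Module.Finite k (V ⊓ locCob r D : Submodule k (GQ → M22 k)) :=
    Module.Finite.of_injective (Submodule.inclusion inf_le_left)
      (Submodule.inclusion_injective (inf_le_left : V ⊓ locCob r D ≤ V))
  refine LinearMap.finrank_le_finrank_of_injective
    (f := (V.subtype.comp (LinearMap.ker (locClass p r V)).subtype).codRestrict _
      fun c => ⟨c.1.2, ?_⟩)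
    fun a b h => Subtype.ext (Subtype.ext (congrArg Subtype.val h :))
  obtain ⟨e, he⟩ := (Submodule.Quotient.mk_eq_zero (LinearMap.range (locDelta p r))).mp
    (c.2 : locClass p r V c.1 = 0)
  refine ⟨e, fun σ hσ => ?_⟩
  obtain ⟨d, hd, hcd⟩ := hdens c.1.1 c.1.2 σ hσ
  show c.1.1 σ = r σ * e * r σ⁻¹ - e
  rw [← hcd, ← hd, ← rep_inv_congr hd]
  exact (congrFun he d).symm

end LocalClasses

end FermatAgent.CFT.Selmer
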