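import Fermat.Agent.CFT.Selmer.Primes
import Fermat.Agent.CFT.Selmer.Inertia

/-!
Bounds for the local images of global classes away from the residue characteristic.

Bounds at one prime. Classes vanishing on inertia have local image at most the fixed elements
(`ldim_map_le_h0`). Away from `p`, where inertia is unipotent and nontrivial, a class with vanishing
trace condition has a representative vanishing on inertia (`exists_rep_of_unipotent`), as the values
of inertia lie on one unipotent line (`exists_unipotent_line`).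
At an auxiliary prime with regular Frobenius and trivial character the equivariant functionals have
dimension at most that of the field (`ldim_eqHom_le`).
-/

set_option autoImplicit false

noncomputable section

open scoped Classical Pointwise

namespace FermatAgent.CFT.Selmer

open Coh Euler Pairing Global Local GaloisBasic

variable {p : ℕ} [hp : Fact p.Prime] {S : Finset Nat.Primes} {U : Subgroup GQ} (T : Setting p S U)

section General

variable {M : Type} [AddCommGroup M] [DistribMulAction GQ M] [Finite M]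

omit [Finite M] in
/-- The restriction of a global cocycle to a prime of the set. -/
lemma locAt_cls_eq_zero_iff (v : S) (z : ↥((LS S).Z1 ⊤ M)) :
    locAt T v M (cls1 (LS S) M z) = 0 ↔ ∃ m : M, ∀ d : Gal' ((v : Nat.Primes) : ℕ),
      z.1 (localGaloisToGlobal _ d) = localGaloisToGlobal _ d • m - m := by
  constructor
  · intro h
    obtain ⟨m, hm⟩ := cls1_eq_zero_iff.mp h
    exact ⟨m, fun d => hm d (Subgroup.mem_top d)⟩
  · rintro ⟨m, hm⟩
    exact cls1_eq_zero_iff.mpr ⟨Res.of (localGaloisToGlobal _) M m, fun d _ => hm d⟩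

omit [Finite M] in
/-- A cocycle vanishing on inertia and a Frobenius element vanishes on decomposition. -/
lemma apply_decomposition_eq_zero {q : ℕ} {A : ValuationSubring Qbar} (hq : q.Prime)
    (hA : A.LiesOverPrime q) {φ : GQ} (hφ : A.IsFrobeniusAt φ q) (hU : U ∈ LS S)
    {z : GQ → M} (hz : z ∈ (LS S).Z1 ⊤ M) (hzφ : z φ = 0)
    (hzI : ∀ τ ∈ A.inertiaSubgroupIn ℚ, z τ = 0) :
    ∀ g ∈ A.decompositionSubgroup ℚ, z g = 0 := by
  have hmul : ∀ g h, z (g * h) = g • z h + z g := fun g h =>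
    Levels.Z1_apply_mul hz (Subgroup.mem_top g) (Subgroup.mem_top h)
  let Zs : Subgroup GQ :=
    { carrier := {g | z g = 0}
      one_mem' := Levels.Z1_apply_one hz
      mul_mem' := fun {a b} ha hb => by
        show z (a * b) = 0
        rw [hmul, show z a = 0 from ha, show z b = 0 from hb, smul_zero, add_zero]
      inv_mem' := fun {a} ha => by
        have e := hmul a a⁻¹
        rw [mul_inv_cancel, Levels.Z1_apply_one hz, show z a = 0 from ha, add_zero] at e
        exact smul_eq_zero_iff_eq a |>.mp e.symm }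
  obtain ⟨V, hV, hVc⟩ := hz.1
  have hZ : Zs ∈ LS S := Levels.mem_of_le ((LS S).inf_mem hV hU) fun g hg => by
    have e := hVc 1 (Subgroup.mem_top 1) g ⟨Subgroup.mem_top g, hg.1⟩
    rwa [one_mul, Levels.Z1_apply_one hz] at e
  exact fun g hg => decomposition_le hq hA hφ hZ hzφ hzI hg

/-- The elements fixed by inertia. -/
def inertiaFixed (M : Type) [AddCommGroup M] [DistribMulAction GQ M] (A : ValuationSubring Qbar) :
    AddSubgroup M where
  carrier := {m | ∀ τ ∈ A.inertiaSubgroupIn ℚ, τ • m = m}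
  zero_mem' τ _ := smul_zero τ
  add_mem' {a b} ha hb τ hτ := by rw [smul_add, ha τ hτ, hb τ hτ]
  neg_mem' {a} ha τ hτ := by rw [smul_neg, ha τ hτ]

/-- **Classes vanishing on inertia give at most the fixed elements.** -/
theorem ldim_map_le_h0 (hM : Good p U M) (v : S) (G : AddSubgroup (H1 (LS S) M))
    (h : ∀ x ∈ G, ∃ z : ↥((LS S).Z1 ⊤ M), cls1 (LS S) M z = x ∧
      ∀ τ ∈ (padicPlace ((v : Nat.Primes) : ℕ)).inertiaSubgroupIn ℚ, z.1 τ = 0) :
    ldim p (G.map (locAt T v M)) ≤
      ldim p (h0Sub (Gal' ((v : Nat.Primes) : ℕ))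
        (Res (localGaloisToGlobal ((v : Nat.Primes) : ℕ)) M)) := by
  set q := ((v : Nat.Primes) : ℕ)
  have hq : q.Prime := (v : Nat.Primes).2
  set A := padicPlace q
  have hA : A.LiesOverPrime q := liesOverPrime_padicPlace
  obtain ⟨φ, hφ⟩ := exists_isFrobeniusAt hq hA
  set N := inertiaFixed M A
  have hφN : ∀ m ∈ N, φ • m ∈ N := fun m hm τ hτ => by
    have h2 := conj_mem_inertiaSubgroupIn_of_mem hq hA hτ (inv_mem hφ.mem_decompositionSubgroup)
    rw [inv_inv] at h2
    calc τ • φ • m = φ • ((φ⁻¹ * τ * φ) • m) := by rw [← mul_smul, ← mul_smul]; group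
      _ = φ • m := by rw [hm _ h2]
  let d : N →+ N := AddMonoidHom.mk' (fun m => ⟨φ • m.1 - m.1, sub_mem (hφN _ m.2) m.2⟩)
    fun a b => Subtype.ext (by simp [smul_add]; abel)
  -- the fixed elements
  have hker : ldim p d.ker ≤ ldim p (h0Sub (Gal' q) (Res (localGaloisToGlobal q) M)) := by
    let e : d.ker →+ h0Sub (Gal' q) (Res (localGaloisToGlobal q) M) :=
      AddMonoidHom.mk' (fun m => ⟨Res.of (localGaloisToGlobal q) M m.1.1, fun d' => by
          have hfix : φ • m.1.1 = m.1.1 := sub_eq_zero.mp (congrArg Subtype.val m.2)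
          have hle : A.decompositionSubgroup ℚ ≤ MulAction.stabilizer GQ m.1.1 :=
            decomposition_le (S := S) hq hA hφ
              (Levels.mem_of_le T.level fun g hg => hM.triv g hg _) hfix fun τ hτ => m.1.2 τ hτ
          exact hle (localGaloisToGlobal_mem_decompositionSubgroup q d')⟩)
        fun a b => Subtype.ext (map_add (Res.of (localGaloisToGlobal q) M) a.1.1 b.1.1)
    exact ldim_le_of_injective p e fun a b hab =>
      Subtype.ext (Subtype.ext (congrArg Subtype.val hab :))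
  have hcoker : ldim p (N ⧸ d.range) = ldim p d.ker := by
    have h1 := ldim_eq_ker_add_range p d
    have h2 := ldim_short p d.range.subtype (QuotientAddGroup.mk' d.range) Subtype.val_injective
      (QuotientAddGroup.mk'_surjective _)
      (by rw [QuotientAddGroup.ker_mk', AddSubgroup.range_subtype])
    omega
  refine le_trans ?_ (hcoker.trans_le hker)
  -- evaluation at the Frobenius element
  have : Finite (G.map (locAt T v M)) := by
    have := T.finite_H1 hM
    exact Finite.of_surjective _ ((locAt T v M).addSubgroupMap_surjective G)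
  let Z : AddSubgroup ↥((LS S).Z1 ⊤ M) :=
    { carrier := {z | cls1 (LS S) M z ∈ G ∧ ∀ τ ∈ A.inertiaSubgroupIn ℚ, z.1 τ = 0}
      zero_mem' := ⟨by rw [map_zero]; exact zero_mem G, fun _ _ => rfl⟩
      add_mem' := fun {a b} ha hb => ⟨by rw [map_add]; exact add_mem ha.1 hb.1, fun τ hτ => by
        show a.1 τ + b.1 τ = 0
        rw [ha.2 τ hτ, hb.2 τ hτ, add_zero]⟩
      neg_mem' := fun {a} ha => ⟨by rw [map_neg]; exact neg_mem ha.1, fun τ hτ => by
        show -a.1 τ = 0
        rw [ha.2 τ hτ, neg_zero]⟩ }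
  have hmul : ∀ (z : ↥((LS S).Z1 ⊤ M)) g g', z.1 (g * g') = g • z.1 g' + z.1 g := fun z g g' =>
    Levels.Z1_apply_mul z.2 (Subgroup.mem_top g) (Subgroup.mem_top g')
  have hval : ∀ z : Z, z.1.1 φ ∈ N := fun z τ hτ => by
    have h2 := conj_mem_inertiaSubgroupIn_of_mem hq hA hτ (inv_mem hφ.mem_decompositionSubgroup)
    rw [inv_inv] at h2
    have e := hmul z.1 τ φ
    rw [show τ * φ = φ * (φ⁻¹ * τ * φ) by group, hmul z.1 φ, z.2.2 _ h2, smul_zero, zero_add,
      z.2.2 τ hτ, add_zero] at e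
    exact e.symm
  let f1 : Z →+ G.map (locAt T v M) := AddMonoidHom.mk'
    (fun z => ⟨locAt T v M (cls1 (LS S) M z.1), _, z.2.1, rfl⟩)
    fun a b =>
      Subtype.ext ((congrArg (locAt T v M) (map_add (cls1 (LS S) M) a.1 b.1)).trans (map_add _ _ _))
  let f2 : Z →+ N ⧸ d.range := AddMonoidHom.mk'
    (fun z => QuotientAddGroup.mk' d.range ⟨z.1.1 φ, hval z⟩) fun a b => rfl
  have hf1 : Function.Surjective f1 := by
    rintro ⟨_, x, hx, rfl⟩
    obtain ⟨z, hzx, hz0⟩ := h x hx
    exact ⟨⟨z, show cls1 (LS S) M z ∈ G from hzx.symm ▸ hx, hz0⟩, Subtype.ext (by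
      show locAt T v M (cls1 (LS S) M z) = _
      rw [hzx])⟩
  have hk : f2.ker ≤ f1.ker := fun z hz => by
    obtain ⟨m, hm⟩ := (QuotientAddGroup.eq_zero_iff _).mp hz
    have hm' : φ • m.1 - m.1 = z.1.1 φ := congrArg Subtype.val hm
    set z' : ↥((LS S).Z1 ⊤ M) := z.1 - ⟨_, d0_mem_Z1 (T.smooth hM) ⊤ m.1⟩ with hz'
    have hz'a : ∀ g, z'.1 g = z.1.1 g - (g • m.1 - m.1) := fun g => rfl
    have hdec := apply_decomposition_eq_zero hq hA hφ T.level z'.2
      (by rw [hz'a, hm', sub_self]) (fun τ hτ => by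
        rw [hz'a, z.2.2 τ hτ, m.2 τ hτ, sub_self, sub_zero])
    refine Subtype.ext ((locAt_cls_eq_zero_iff T v z.1).mpr ⟨m.1, fun d' => ?_⟩)
    have := hdec _ (localGaloisToGlobal_mem_decompositionSubgroup q d')
    rwa [hz'a, sub_eq_zero] at this
  choose sec hsec using hf1
  have hinj : Function.Injective fun a => f2 (sec a) := fun a b hab => by
    have h0 : sec a - sec b ∈ f2.ker := by
      rw [AddMonoidHom.mem_ker, map_sub, sub_eq_zero]; exact hab
    have := hk h0
    rwa [AddMonoidHom.mem_ker, map_sub, hsec, hsec, sub_eq_zero] at this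
  have hcard := Nat.card_le_card_of_injective _ hinj
  rw [card_eq_pow_ldim (p := p) fun a : G.map (locAt T v M) =>
      Subtype.ext (nsmul_H1_eq_zero (good_at hM v).killed a.1),
    card_eq_pow_ldim (p := p) fun a : N ⧸ d.range => by
      obtain ⟨m, rfl⟩ := QuotientAddGroup.mk'_surjective _ a
      rw [← map_nsmul, show p • m = 0 from Subtype.ext (hM.killed m.1), map_zero]] at hcard
  exact (Nat.pow_le_pow_iff_right hp.out.one_lt).mp hcard

end General

variable {k : Type} [Field k] [Finite k] [CharP k p] {r : MatRep k}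

omit [Finite k] in
lemma val_ad0_smul (g : GQ) (X : Ad0 r) : Ad.val (g • X) = r g * Ad.val X * r g⁻¹ := by
  rw [Ad.val_smul, MonoidHom.one_apply, Units.val_one, one_smul]

omit [Finite k] [CharP k p] in
/-- A nonzero trace free matrix is not scalar. -/
private lemma not_isScal_of_trace (h2 : (2 : k) ≠ 0) {N : M22 k} (hNt : N.trace = 0)
    (hN0 : N ≠ 0) : ¬ IsScal N := fun hs => hN0 (by
  have := hNt
  rw [Matrix.trace_fin_two, ← hs.2.2, ← two_mul] at this
  rw [hs.eq, (mul_eq_zero.mp this).resolve_left h2, zero_smul])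

omit [Finite k] [CharP k p] in
/-- Elements acting unipotently with the given trace condition lie on a common unipotent line. -/
private lemma exists_unipotent_line (h2 : (2 : k) ≠ 0) {I : Subgroup GQ}
    (htr : ∀ τ ∈ I, (r τ).trace = 2 ∧ (r τ).det = 1) {τ₀ : GQ} (hτ₀ : τ₀ ∈ I) (hne : r τ₀ ≠ 1) :
    (r τ₀ - 1).trace = 0 ∧ (r τ₀ - 1) * (r τ₀ - 1) = 0 ∧
      ∀ τ ∈ I, ∃ a : k, r τ = 1 + a • (r τ₀ - 1) := by
  have hnil : ∀ τ ∈ I, (r τ - 1).trace = 0 ∧ (r τ - 1).det = 0 := fun τ hτ => by
    refine ⟨by rw [Matrix.trace_sub, Matrix.trace_one, (htr τ hτ).1, Fintype.card_fin]; norm_num,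
      ?_⟩
    have e : r τ - 1 = (-1 : k) • 1 + (1 : k) • r τ := by module
    rw [e, det_add_smul, (htr τ hτ).1, (htr τ hτ).2]; ring
  set N : M22 k := r τ₀ - 1 with hN
  have hNt : N.trace = 0 := (hnil _ hτ₀).1
  have hN0 : N ≠ 0 := sub_ne_zero.mpr hne
  refine ⟨hNt, by rw [mul_self_eq, (hnil _ hτ₀).1, (hnil _ hτ₀).2, zero_smul, zero_smul, sub_zero],
    fun τ hτ => ?_⟩
  have h1 := (htr _ (mul_mem hτ₀ hτ)).1
  rw [map_mul, show r τ₀ = 1 + N by rw [hN, add_sub_cancel],
    show r τ = 1 + (r τ - 1) by rw [add_sub_cancel], add_mul, one_mul, mul_add, mul_one,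
    Matrix.trace_add, Matrix.trace_add, Matrix.trace_add, hNt, (hnil τ hτ).1, Matrix.trace_one,
    Fintype.card_fin] at h1
  have hX : (N * (r τ - 1)).trace = 0 := by push_cast at h1; linear_combination h1
  obtain ⟨a, b, hab⟩ := exists_eq_add_of_commute (y := r τ - 1)
    (not_isScal_of_trace h2 hNt hN0)
    (commute_of_trace_mul hNt (hnil τ hτ).1 (hnil _ hτ₀).2 (hnil τ hτ).2 hX)
  have h0 := (hnil τ hτ).1
  rw [hab, trace_add_smul, hNt, mul_zero, add_zero] at h0
  rw [(mul_eq_zero.mp h0).resolve_left h2, zero_smul, zero_add] at hab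
  exact ⟨b, by rw [← hab, add_sub_cancel]⟩

omit [Finite k] [CharP k p] in
/-- Elements of a common unipotent line commute with it. -/
private lemma commute_of_line {N : M22 k} {τ : GQ} (h : ∃ a : k, r τ = 1 + a • N) :
    r τ * N = N * r τ := by
  obtain ⟨a, ha⟩ := h
  rw [ha, add_mul, mul_add, one_mul, mul_one, smul_mul_assoc, mul_smul_comm]

omit [Finite k] [CharP k p] in
/-- Under the trace condition the component of the class against the line vanishes on inertia. -/
private lemma trace_mul_eq_zero_of_cond {I : Subgroup GQ} {N : M22 k}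
    (hline : ∀ τ ∈ I, ∃ a : k, r τ = 1 + a • N) {τ₀ : GQ} (hτ₀ : τ₀ ∈ I) (hne : r τ₀ ≠ 1)
    {c : GQ → Ad0 r} (hmul : ∀ g h, c (g * h) = g • c h + c g)
    (hcond : ∀ τ ∈ I, (Ad.val (c τ) * r τ).trace = 0) {τ : GQ} (hτ : τ ∈ I) :
    (Ad.val (c τ) * N).trace = 0 := by
  set φ : GQ → k := fun τ => (Ad.val (c τ) * N).trace with hφdef
  have hφadd : ∀ a ∈ I, ∀ b ∈ I, φ (a * b) = φ a + φ b := fun a ha b hb => by
    simp only [hφdef, hmul, map_add, val_ad0_smul, add_mul, Matrix.trace_add]
    rw [mul_assoc (r a * Ad.val (c b)) (r a⁻¹), ← show N * r a⁻¹ = r a⁻¹ * N from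
      (commute_of_line (hline _ (inv_mem ha))).symm, ← mul_assoc, mul_assoc (r a),
      Matrix.trace_mul_cycle, rep_inv_mul, one_mul, add_comm]
  have hφ1 : ∀ τ ∈ I, r τ ≠ 1 → φ τ = 0 := fun τ hτ hne' => by
    obtain ⟨a, ha⟩ := hline τ hτ
    have h := hcond τ hτ
    rw [ha, mul_add, mul_one, Matrix.trace_add, Ad.trace_val, zero_add, mul_smul_comm,
      Matrix.trace_smul, smul_eq_mul] at h
    exact (mul_eq_zero.mp h).resolve_left fun h0 => hne' (by rw [ha, h0, zero_smul, add_zero])
  show φ τ = 0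
  by_cases h1 : r τ = 1
  · have h3 := hφadd τ hτ τ₀ hτ₀
    rw [hφ1 τ₀ hτ₀ hne, hφ1 _ (mul_mem hτ hτ₀) (by rwa [map_mul, h1, one_mul]), add_zero] at h3
    exact h3.symm
  · exact hφ1 τ hτ h1

include T in
omit [Finite k] [CharP k p] in
/-- An open normal subgroup on which the representation and the class are trivial. -/
private lemma exists_open_kernel (hker : ∀ g ∈ U, r g = 1) (z : ↥((LS S).Z1 ⊤ (Ad0 r))) :
    ∃ W : Subgroup GQ, W.Normal ∧ IsOpen (W : Set GQ) ∧ ∀ g, g ∈ W ↔ r g = 1 ∧ z.1 g = 0 := by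
  have hmul : ∀ g h, z.1 (g * h) = g • z.1 h + z.1 g := fun g h =>
    Levels.Z1_apply_mul z.2 (Subgroup.mem_top g) (Subgroup.mem_top h)
  obtain ⟨V, hV, hVc⟩ := z.2.1
  let W : Subgroup GQ :=
    { carrier := {g | r g = 1 ∧ z.1 g = 0}
      one_mem' := ⟨map_one r, Levels.Z1_apply_one z.2⟩
      mul_mem' := fun {a b} ha hb => ⟨by rw [map_mul, ha.1, hb.1, one_mul], by
        rw [hmul, hb.2, ha.2, smul_zero, zero_add]⟩
      inv_mem' := fun {a} ha => ⟨by simpa [ha.1] using rep_mul_inv r a, by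
        have e := hmul a a⁻¹
        rw [mul_inv_cancel, Levels.Z1_apply_one z.2, ha.2, add_zero] at e
        exact (smul_eq_zero_iff_eq a).mp e.symm⟩ }
  have hWn : W.Normal := ⟨fun h hh g => by
    have hr' : r (g * h * g⁻¹) = 1 := by rw [map_mul, map_mul, hh.1, mul_one, rep_mul_inv]
    refine ⟨hr', ?_⟩
    have hfix : h • z.1 g⁻¹ = z.1 g⁻¹ := Ad.ext (by
      rw [val_ad0_smul, hh.1, show r h⁻¹ = 1 by simpa [hh.1] using rep_mul_inv r h, one_mul,
        mul_one])
    rw [hmul, hmul, hh.2, smul_zero, zero_add, mul_smul, hfix, ← hmul, mul_inv_cancel,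
      Levels.Z1_apply_one z.2]⟩
  have hW : W ∈ LS S := Levels.mem_of_le ((LS S).inf_mem hV T.level) fun g hg => ⟨hker g hg.2, by
    have e := hVc 1 (Subgroup.mem_top 1) g ⟨Subgroup.mem_top g, hg.1⟩
    rwa [one_mul, Levels.Z1_apply_one z.2] at e⟩
  obtain ⟨F, hF, hFW, -⟩ := exists_normal_field hW
  have := hF.1
  exact ⟨W, hWn, Subgroup.isOpen_mono hFW F.fixingSubgroup_isOpen, fun g => Iff.rfl⟩

omit [Finite k] hp in
/-- The `p ^ 2`-th power of an element of the unipotent line kills the class. -/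
private lemma pow_sq_mem_kernel (hM : Good p U (Ad0 r)) {N : M22 k} (hNN : N * N = 0)
    {c : GQ → Ad0 r} (hc1 : c 1 = 0) (hmul : ∀ g h, c (g * h) = g • c h + c g) {τ : GQ}
    (hτ : ∃ a : k, r τ = 1 + a • N) : r (τ ^ p ^ 2) = 1 ∧ c (τ ^ p ^ 2) = 0 := by
  obtain ⟨a, ha⟩ := hτ
  have hpow : ∀ j : ℕ, r (τ ^ j) = 1 + ((j : k) * a) • N := fun j => by
    induction j with
    | zero => simp
    | succ j ih =>
      rw [pow_succ, map_mul, ih, ha, add_mul, one_mul, mul_add, mul_one, smul_mul_smul_comm, hNN,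
        smul_zero, Nat.cast_succ, add_mul, one_mul, add_smul]
      abel
  have hp1 : r (τ ^ p) = 1 := by rw [hpow, CharP.cast_eq_zero, zero_mul, zero_smul, add_zero]
  have hzp : ∀ j : ℕ, c ((τ ^ p) ^ j) = j • c (τ ^ p) := fun j => by
    induction j with
    | zero => simp [hc1]
    | succ j ih =>
      have hfix : (τ ^ p) ^ j • c (τ ^ p) = c (τ ^ p) := Ad.ext (by
        have h1 : r ((τ ^ p) ^ j) = 1 := by rw [map_pow, hp1, one_pow]
        rw [val_ad0_smul, h1,
          show r ((τ ^ p) ^ j)⁻¹ = 1 by simpa [h1] using rep_mul_inv r ((τ ^ p) ^ j), one_mul,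
          mul_one])
      rw [pow_succ, hmul, ih, hfix, succ_nsmul, add_comm]
  rw [pow_two p, pow_mul]
  exact ⟨by rw [map_pow, hp1, one_pow], by rw [hzp, hM.killed]⟩

omit [CharP k p] in
/-- The equation `x m - m = Y` is solvable exactly for `Y` orthogonal to the line of `x`. -/
private lemma exists_smul_sub_eq (h2 : (2 : k) ≠ 0) {N : M22 k} (hNt : N.trace = 0)
    (hN0 : N ≠ 0) {x : GQ} {a : k} (ha : r x = 1 + a • N) (ha0 : a ≠ 0)
    (hx' : r x⁻¹ * N = N * r x⁻¹) {Y : Ad0 r} (hY : (Ad.val Y * N).trace = 0) :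
    ∃ m : Ad0 r, x • m - m = Y := by
  let ad : Ad0 r →ₗ[k] Ad0 r :=
    { toFun := fun m => x • m - m
      map_add' := fun m m' => by rw [smul_add]; abel
      map_smul' := fun c m => by
        show x • (c • m) - c • m = c • (x • m - m)
        rw [Ad.smul_comm_scalar, smul_sub] }
  let β : Ad0 r →ₗ[k] k :=
    { toFun := fun X => (Ad.val X * N).trace
      map_add' := fun X Y => by rw [map_add, add_mul, Matrix.trace_add]
      map_smul' := fun c X => by
        show (Ad.val (c • X) * N).trace = c • (Ad.val X * N).trace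
        rw [LinearMap.map_smul, smul_mul_assoc, Matrix.trace_smul] }
  have : Module.Finite k (Ad0 r) := Module.Finite.of_finite
  suffices hrange : LinearMap.range ad = LinearMap.ker β from
    (show Y ∈ LinearMap.range ad by rw [hrange]; exact hY)
  refine Submodule.eq_of_le_of_finrank_le ?_ ?_
  · rintro _ ⟨m, rfl⟩
    show (Ad.val (x • m - m) * N).trace = 0
    rw [map_sub, sub_mul, Matrix.trace_sub, val_ad0_smul, mul_assoc _ (r x⁻¹), hx', ← mul_assoc,
      mul_assoc (r x), Matrix.trace_mul_cycle, rep_inv_mul, one_mul, sub_self]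
  · have hker : LinearMap.ker ad ≤ Submodule.span k {Ad.mk N hNt} := fun m hm => by
      have h := congrArg Ad.val (sub_eq_zero.mp (show x • m - m = 0 from hm))
      rw [val_ad0_smul] at h
      have hc : N * Ad.val m = Ad.val m * N := by
        have h' := congrArg (· * r x) h
        simp only [mul_assoc, rep_inv_mul, mul_one] at h'
        rw [ha, add_mul, mul_add, one_mul, mul_one, smul_mul_assoc, mul_smul_comm,
          add_right_inj] at h'
        exact smul_right_injective _ ha0 h'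
      obtain ⟨s, t, hst⟩ := exists_eq_add_of_commute (y := Ad.val m)
        (not_isScal_of_trace h2 hNt hN0) hc
      have hs0 := Ad.trace_val m
      rw [hst, trace_add_smul, hNt, mul_zero, add_zero] at hs0
      rw [(mul_eq_zero.mp hs0).resolve_left h2, zero_smul, zero_add] at hst
      exact Submodule.mem_span_singleton.mpr
        ⟨t, Ad.ext (by rw [LinearMap.map_smul, Ad.val_mk, hst])⟩
    have h1 := Submodule.finrank_mono hker
    rw [finrank_span_singleton (fun h0 => hN0 (by
      simpa using congrArg Ad.val h0))] at h1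
    have h3 := LinearMap.finrank_range_add_finrank_ker ad
    have h4 := LinearMap.finrank_range_add_finrank_ker β
    have hd : Module.finrank k (Ad0 r) = 3 := finrank_sl2 (k := k)
    have h5 : 1 ≤ Module.finrank k (LinearMap.range β) := by
      by_contra hlt
      have hb0 : LinearMap.range β = ⊥ := Submodule.finrank_eq_zero.mp (by omega)
      refine hN0 ?_
      have key : ∀ X : M22 k, X.trace = 0 → (X * N).trace = 0 := fun X hX => by
        have hmem : β (Ad.mk X hX) ∈ LinearMap.range β := ⟨_, rfl⟩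
        rw [hb0, Submodule.mem_bot] at hmem
        exact hmem
      have a1 := key !![1, 0; 0, -1] (by simp [Matrix.trace_fin_two])
      have a2 := key !![0, 1; 0, 0] (by simp [Matrix.trace_fin_two])
      have a3 := key !![0, 0; 1, 0] (by simp [Matrix.trace_fin_two])
      simp [Matrix.trace_fin_two, Fin.sum_univ_two, Matrix.vecMul, dotProduct]
        at a1 a2 a3
      rw [Matrix.trace_fin_two] at hNt
      have e00 : N 0 0 = 0 :=
        (mul_eq_zero.mp (show (2 : k) * N 0 0 = 0 by linear_combination a1 + hNt)).resolve_left h2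
      ext i j
      fin_cases i <;> fin_cases j
      · exact e00
      · exact a3
      · exact a2
      · show N 1 1 = 0
        linear_combination hNt - e00
    omega

include T in
/-- **The condition of unipotent inertia makes a class vanish on inertia.** -/
theorem exists_rep_of_unipotent (D : ResDatum p r) (hM : Good p U (Ad0 r)) {q : ℕ}
    (hq : q.Prime) (hqp : q ≠ p) {A : ValuationSubring Qbar} (hA : A.LiesOverPrime q)
    (htr : ∀ τ ∈ A.inertiaSubgroupIn ℚ, (r τ).trace = 2 ∧ (r τ).det = 1) {τ₀ : GQ}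
    (hτ₀ : τ₀ ∈ A.inertiaSubgroupIn ℚ) (hne : r τ₀ ≠ 1) (hker : ∀ g ∈ U, r g = 1)
    (z : ↥((LS S).Z1 ⊤ (Ad0 r)))
    (hcond : ∀ τ ∈ A.inertiaSubgroupIn ℚ, (Ad.val (z.1 τ) * r τ).trace = 0) :
    ∃ z' : ↥((LS S).Z1 ⊤ (Ad0 r)), cls1 (LS S) (Ad0 r) z' = cls1 (LS S) (Ad0 r) z ∧
      ∀ τ ∈ A.inertiaSubgroupIn ℚ, z'.1 τ = 0 := by
  have h2 := D.two_ne_zero
  set I := A.inertiaSubgroupIn ℚ
  have hmul : ∀ g h, z.1 (g * h) = g • z.1 h + z.1 g := fun g h =>
    Levels.Z1_apply_mul z.2 (Subgroup.mem_top g) (Subgroup.mem_top h)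
  obtain ⟨hNt, hNN, hline⟩ := exists_unipotent_line h2 htr hτ₀ hne
  have hφ0 := fun τ (hτ : τ ∈ I) =>
    trace_mul_eq_zero_of_cond hline hτ₀ hne hmul hcond hτ
  -- a generator of inertia modulo the kernel of the class
  obtain ⟨W, hWn, hopen, hWmem⟩ := exists_open_kernel T hker z
  have : Finite (GQ ⧸ W) := Subgroup.quotient_finite_of_isOpen W hopen
  have hP : IsPGroup p (I.map (QuotientGroup.mk' W)) := by
    rintro ⟨_, τ, hτ, rfl⟩
    refine ⟨2, Subtype.ext ?_⟩
    rw [Subgroup.coe_pow, Subgroup.coe_one, ← map_pow]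
    exact (QuotientGroup.eq_one_iff _).mpr ((hWmem _).mpr
      (pow_sq_mem_kernel hM hNN (Levels.Z1_apply_one z.2) hmul (hline τ hτ)))
  obtain ⟨x, hx, hgen⟩ := exists_inertia_generator (QuotientGroup.mk' W) hq hA hqp
    (by rw [QuotientGroup.ker_mk']; exact hopen) hP
  obtain ⟨a, ha⟩ := hline x hx
  have ha0 : a ≠ 0 := fun h0 => hne (by
    obtain ⟨j, hj⟩ := hgen τ₀ hτ₀
    rw [← map_pow] at hj
    obtain ⟨w, hw, hwe⟩ := (QuotientGroup.mk'_eq_mk' W).mp hj.symm
    rw [← hwe, map_mul, map_pow, ha, h0, zero_smul, add_zero, one_pow, one_mul,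
      ((hWmem w).mp hw).1])
  -- the equation at the generator
  obtain ⟨m, hm⟩ := exists_smul_sub_eq h2 hNt (sub_ne_zero.mpr hne) ha ha0
    (commute_of_line (hline _ (inv_mem hx))) (hφ0 x hx)
  set z' : ↥((LS S).Z1 ⊤ (Ad0 r)) := z - ⟨_, d0_mem_Z1 (T.smooth hM) ⊤ m⟩ with hz'
  have hz'a : ∀ g, z'.1 g = z.1 g - (g • m - m) := fun g => rfl
  refine ⟨z', cls1_eq_iff.mpr ⟨-m, fun g _ => ?_⟩, ?_⟩
  · show z'.1 g - z.1 g = g • (-m) - (-m)
    rw [hz'a, smul_neg]
    abel
  · intro τ hτ
    obtain ⟨j, hj⟩ := hgen τ hτ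
    rw [← map_pow] at hj
    obtain ⟨w, hw', hwe⟩ := (QuotientGroup.mk'_eq_mk' W).mp hj.symm
    have hw := (hWmem w).mp hw'
    have hwm : w • m = m := Ad.ext (by
      rw [val_ad0_smul, hw.1, show r w⁻¹ = 1 by simpa [hw.1] using rep_mul_inv r w, one_mul,
        mul_one])
    have hxj : z'.1 (x ^ j) = 0 := by
      have h1 := apply_pow_mem_dRange z' (φ := x) (m := 0) (by
        rw [hz'a, hm, sub_self, smul_zero, sub_zero]) j
      simpa using h1
    have hzw : z'.1 w = 0 := by rw [hz'a, hwm, sub_self, sub_zero, hw.2]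
    rw [← hwe, Levels.Z1_apply_mul z'.2 (Subgroup.mem_top _) (Subgroup.mem_top _), hxj, hzw,
      smul_zero, zero_add]

include T in
/-- **The term of an auxiliary prime.** -/
theorem ldim_eqHom_le (hker : ∀ g ∈ U, r g = 1) (D : ResDatum p r) (v : S) {φ : GQ}
    (hφ : φ ∈ (padicPlace ((v : Nat.Primes) : ℕ)).decompositionSubgroup ℚ)
    (hreg : (r φ).trace ^ 2 ≠ 4) (hχ : chiQ p φ = 1) :
    ldim p (eqHom (chiQ p) (localGaloisToGlobal ((v : Nat.Primes) : ℕ)) (Ad0 r)) ≤ ldim p k := by
  have h2 := D.two_ne_zero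
  have hdet := D.det_of_mem hχ
  obtain ⟨K, hK, hKU, -⟩ := exists_normal_field T.level
  have := hK.1
  obtain ⟨d, hd⟩ := exists_localGalois_eq ((v : Nat.Primes) : ℕ) K hφ
  set g := localGaloisToGlobal ((v : Nat.Primes) : ℕ) d
  have hgU : g⁻¹ * φ ∈ U := hKU hd
  have hgφ : ∀ X : Ad0 r, φ • X = g • X := fun X => by
    rw [show φ = g * (g⁻¹ * φ) by group, mul_smul]
    congr 1
    exact Ad.ext (by
      rw [val_ad0_smul, hker _ hgU, hker _ (inv_mem hgU), one_mul, mul_one])
  have hgχ : chiQ p g = 1 := by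
    have h1 : chiQ p (g⁻¹ * φ) = 1 := MonoidHom.mem_ker.mp (T.le_ker hgU)
    rwa [map_mul, map_inv, hχ, mul_one, inv_eq_one] at h1
  set X₀ : M22 k := r φ - ((r φ).trace / 2) • 1 with hX₀
  have hX₀t : X₀.trace = 0 := by
    simp [hX₀, Matrix.trace_sub, Matrix.trace_smul]; field_simp; ring
  let ad : Ad0 r →ₗ[k] Ad0 r :=
    { toFun := fun m => φ • m - m
      map_add' := fun m m' => by rw [smul_add]; abel
      map_smul' := fun c m => by
        show φ • (c • m) - c • m = c • (φ • m - m)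
        rw [Ad.smul_comm_scalar, smul_sub] }
  have : Module.Finite k (Ad0 r) := Module.Finite.of_finite
  have hX0ne : X₀ ≠ 0 := fun h0 => hreg (by
    have e : r φ = ((r φ).trace / 2) • 1 := sub_eq_zero.mp h0
    rw [e, Matrix.det_smul, Fintype.card_fin, Matrix.det_one, mul_one] at hdet
    field_simp at hdet
    linear_combination hdet)
  have hker' : LinearMap.ker ad ≤ Submodule.span k {Ad.mk X₀ hX₀t} := fun m hm => by
    have h := congrArg Ad.val (sub_eq_zero.mp (show φ • m - m = 0 from hm))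
    rw [val_ad0_smul] at h
    have hc : r φ * Ad.val m = Ad.val m * r φ := by
      conv_rhs => rw [← h, mul_assoc, rep_inv_mul, mul_one]
    obtain ⟨s, t, hst⟩ := exists_eq_add_of_commute (y := Ad.val m) (fun hs => hreg (by
      rw [Matrix.det_fin_two, hs.1, hs.2.1, mul_zero, sub_zero, ← hs.2.2] at hdet
      rw [Matrix.trace_fin_two, ← hs.2.2]
      linear_combination 4 * hdet)) hc
    have hs0 := Ad.trace_val m
    rw [hst, trace_add_smul] at hs0
    refine Submodule.mem_span_singleton.mpr ⟨t, Ad.ext ?_⟩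
    rw [LinearMap.map_smul, Ad.val_mk, hst, hX₀, smul_sub, smul_smul,
      show s = -(t * ((r φ).trace / 2)) by field_simp; linear_combination hs0, neg_smul]
    abel
  have hni : Ad.mk X₀ hX₀t ∉ LinearMap.range ad := by
    rintro ⟨m, hm⟩
    have h := congrArg (fun Y => (Ad.val Y * r φ).trace) hm
    simp only [show ad m = φ • m - m from rfl, map_sub, val_ad0_smul, Ad.val_mk, sub_mul,
      Matrix.trace_sub] at h
    rw [mul_assoc (r φ * Ad.val m), rep_inv_mul, mul_one, Matrix.trace_mul_comm, sub_self, hX₀,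
      sub_mul, smul_one_mul, Matrix.trace_sub, Matrix.trace_smul, mul_self_eq, hdet, one_smul,
      Matrix.trace_sub, Matrix.trace_smul, Matrix.trace_one, Fintype.card_fin, smul_eq_mul,
      smul_eq_mul] at h
    push_cast at h
    refine hreg ?_
    field_simp at h
    linear_combination -h
  have htop : LinearMap.range ad ⊔ Submodule.span k {Ad.mk X₀ hX₀t} = ⊤ := by
    refine Submodule.eq_top_of_finrank_eq ?_
    have h1 := Submodule.finrank_mono hker'
    rw [finrank_span_singleton (fun h0 => hX0ne (by simpa using congrArg Ad.val h0))] at h1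
    have h3 := LinearMap.finrank_range_add_finrank_ker ad
    have h4 : LinearMap.range ad < LinearMap.range ad ⊔ Submodule.span k {Ad.mk X₀ hX₀t} :=
      lt_of_le_of_ne le_sup_left fun he =>
        hni (he.symm ▸ Submodule.mem_sup_right (Submodule.mem_span_singleton_self _))
    have h5 := Submodule.finrank_lt_finrank_of_lt h4
    have h6 := Submodule.finrank_le (LinearMap.range ad ⊔ Submodule.span k {Ad.mk X₀ hX₀t})
    have hd' : Module.finrank k (Ad0 r) = 3 := finrank_sl2 (k := k)
    omega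
  have hkp : ∀ a : k, p • a = 0 := fun a => by rw [nsmul_eq_mul, CharP.cast_eq_zero, zero_mul]
  have : Finite (k →+ ZMod p) := DFunLike.finite _
  let res : eqHom (chiQ p) (localGaloisToGlobal ((v : Nat.Primes) : ℕ)) (Ad0 r) →+ (k →+ ZMod p) :=
    AddMonoidHom.mk'
      (fun n => AddMonoidHom.mk' (fun c => n.1 (c • Ad.mk X₀ hX₀t)) fun a b => by
        rw [add_smul, map_add])
      fun n n' => AddMonoidHom.ext fun c => rfl
  have hinj : Function.Injective res := (injective_iff_map_eq_zero res).mpr fun n hn => by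
    refine Subtype.ext (AddMonoidHom.ext fun X => ?_)
    obtain ⟨_, ⟨m, rfl⟩, _, hs, rfl⟩ := Submodule.mem_sup.mp (htop ▸ (Submodule.mem_top : X ∈ ⊤))
    obtain ⟨c, rfl⟩ := Submodule.mem_span_singleton.mp hs
    have hgn : n.1 (g • m) = n.1 m := by
      rw [n.2 d m, hgχ, Units.val_one, one_mul]
    show n.1 (φ • m - m + c • Ad.mk X₀ hX₀t) = 0
    rw [map_add, map_sub, hgφ, hgn, sub_self, zero_add]
    exact DFunLike.congr_fun hn c
  refine (ldim_le_of_injective p res hinj).trans (le_of_eq ?_)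
  rw [ldim, ldim, card_homZMod hkp]

end FermatAgent.CFT.Selmer
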