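import Fermat.Agent.CFT.Selmer.Bound
import Fermat.Agent.CFT.Selmer.Decomp

/-!
Cocycles at one place: change of place, decomposition groups from inertia and a Frobenius.
-/

set_option autoImplicit false

noncomputable section

open scoped Classical Pointwise

namespace FermatAgent.CFT.Selmer

open GaloisBasic Global

variable {q : ℕ} {A : ValuationSubring Qbar}

/-- A subgroup of finite level with inertia and a Frobenius element contains decomposition. -/
theorem decomposition_le_of_level (hq : q.Prime) (hA : A.LiesOverPrime q) {σ : GQ}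
    (hσ : A.IsFrobeniusAt σ q) {H : Subgroup GQ} {L : IntermediateField ℚ Qbar}
    (hL : FiniteDimensional ℚ L) (hLH : L.fixingSubgroup ≤ H) (hσH : σ ∈ H)
    (hI : A.inertiaSubgroupIn ℚ ≤ H) : A.decompositionSubgroup ℚ ≤ H := by
  have := hL
  intro g hg
  obtain ⟨j, ι, hι, u, hu, rfl⟩ := exists_frob_pow_mul_inertia hq hA hσ hg L
  exact mul_mem (mul_mem (pow_mem hσH j) (hI hι)) (hLH hu)

variable {k : Type} [Field k] {r : MatRep k}

/-- A cocycle on a conjugate. -/
lemma adCoc_apply_conj {c : GQ → M22 k} (hc : c ∈ adCoc r) (g h : GQ) :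
    c (g * h * g⁻¹) = r g * c h * r g⁻¹ + c g -
      r (g * h * g⁻¹) * c g * r (g * h * g⁻¹)⁻¹ := by
  have h1 : c 1 = 0 := by
    have := hc.1 1 1
    rw [mul_one, map_one, inv_one, map_one, one_mul, mul_one] at this
    exact left_eq_add.mp this
  have h2 : c (g * h * g⁻¹ * g) = c (g * h) := by rw [inv_mul_cancel_right]
  rw [hc.1 (g * h * g⁻¹) g, hc.1 g h] at h2
  rw [eq_sub_iff_add_eq, h2, add_comm]

/-- Local coboundaries move with conjugation. -/
theorem mem_locCob_of_conj {c : GQ → M22 k} (hc : c ∈ adCoc r) (g : GQ) {H H' : Subgroup GQ}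
    (hH : ∀ x ∈ H', g⁻¹ * x * g ∈ H) {e : M22 k} (he : ∀ h ∈ H, c h = r h * e * r h⁻¹ - e)
    {x : GQ} (hx : x ∈ H') :
    c x = r x * (r g * e * r g⁻¹ - c g) * r x⁻¹ - (r g * e * r g⁻¹ - c g) := by
  have h1 := he _ (hH x hx)
  have hx' : g * (g⁻¹ * x * g) * g⁻¹ = x := by group
  have h2 := adCoc_apply_conj hc g (g⁻¹ * x * g)
  rw [hx', h1] at h2
  have e1 : r g * r (g⁻¹ * x * g) = r x * r g := by rw [← map_mul, ← map_mul]; congr 1; group
  have e2 : r (g⁻¹ * x * g)⁻¹ * r g⁻¹ = r g⁻¹ * r x⁻¹ := by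
    rw [← map_mul, ← map_mul]; congr 1; group
  rw [h2]
  have e3 : r g * (r (g⁻¹ * x * g) * e * r (g⁻¹ * x * g)⁻¹) * r g⁻¹ =
      r x * (r g * e * r g⁻¹) * r x⁻¹ := by
    calc r g * (r (g⁻¹ * x * g) * e * r (g⁻¹ * x * g)⁻¹) * r g⁻¹
        = (r g * r (g⁻¹ * x * g)) * e * (r (g⁻¹ * x * g)⁻¹ * r g⁻¹) := by simp only [mul_assoc]
      _ = _ := by rw [e1, e2]; simp only [mul_assoc]
  rw [mul_sub (r g), sub_mul, e3, mul_sub, sub_mul]
  abel

/-- Coboundaries on a subgroup are coboundaries on its conjugate. -/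
theorem locCob_conj {c : GQ → M22 k} (hc : c ∈ adCoc r) (g : GQ) {H H' : Subgroup GQ}
    (hH : ∀ x ∈ H', g⁻¹ * x * g ∈ H) (h : c ∈ locCob r H) : c ∈ locCob r H' := by
  obtain ⟨e, he⟩ := h
  exact ⟨_, fun x hx => mem_locCob_of_conj hc g hH he hx⟩

/-- The dimension of the fixed elements does not depend on the place. -/
theorem finrank_locFix_conj (g : GQ) {H H' : Subgroup GQ} (hH : ∀ x ∈ H', g⁻¹ * x * g ∈ H) :
    Module.finrank k (locFix r H) ≤ Module.finrank k (locFix r H') := by
  let φ : locFix r H →ₗ[k] locFix r H' :=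
    { toFun := fun X => ⟨r g * X.1 * r g⁻¹, (trace_rep_conj r g X.1).trans X.2.1, fun x hx => by
        have h := X.2.2 _ (hH x hx)
        calc r x * (r g * X.1 * r g⁻¹) * r x⁻¹
            = (r x * r g) * X.1 * (r g⁻¹ * r x⁻¹) := by simp only [mul_assoc]
          _ = (r g * r (g⁻¹ * x * g)) * X.1 * (r (g⁻¹ * x * g)⁻¹ * r g⁻¹) := by
              rw [← map_mul, ← map_mul, ← map_mul, ← map_mul,
                show x * g = g * (g⁻¹ * x * g) by group,
                show g⁻¹ * x⁻¹ = (g⁻¹ * x * g)⁻¹ * g⁻¹ by group]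
          _ = r g * (r (g⁻¹ * x * g) * X.1 * r (g⁻¹ * x * g)⁻¹) * r g⁻¹ := by
              simp only [mul_assoc]
          _ = _ := by rw [h]⟩
      map_add' := fun a b => Subtype.ext (by simp only [Submodule.coe_add, mul_add, add_mul])
      map_smul' := fun t a => Subtype.ext (by
        simp only [RingHom.id_apply, Submodule.coe_smul, mul_smul_comm, smul_mul_assoc]) }
  refine LinearMap.finrank_le_finrank_of_injective (f := φ) fun a b h => Subtype.ext ?_
  have h1 : r g * a.1 * r g⁻¹ = r g * b.1 * r g⁻¹ := congrArg Subtype.val h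
  have h2 := congrArg (fun Y => r g⁻¹ * Y * r g) h1
  simp only [← mul_assoc, rep_inv_mul, one_mul] at h2
  simpa only [mul_assoc, rep_inv_mul, mul_one] using h2

/-- Conjugate places have conjugate decomposition and inertia groups. -/
lemma conj_mem_groups (hq : q.Prime) (hA : A.LiesOverPrime q) {A' : ValuationSubring Qbar}
    (hA' : A'.LiesOverPrime q) :
    ∃ g : GQ, (∀ x ∈ A'.decompositionSubgroup ℚ, g⁻¹ * x * g ∈ A.decompositionSubgroup ℚ) ∧
      ∀ x ∈ A'.inertiaSubgroupIn ℚ, g⁻¹ * x * g ∈ A.inertiaSubgroupIn ℚ := by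
  obtain ⟨g, hg⟩ := exists_smul_eq hq hA hA'
  refine ⟨g, fun x hx => ?_, fun x hx => ?_⟩
  · show (g⁻¹ * x * g) • A = A
    rw [mul_smul, mul_smul, hg, show x • A' = A' from hx, ← hg, inv_smul_smul]
  · have hgx : g⁻¹ • A' = A := by rw [← hg, inv_smul_smul]
    have h := conj_mem_inertiaSubgroupIn hq hA' hx g⁻¹
    rwa [inv_inv, hgx] at h

/-- A cocycle which is one coboundary on inertia and at a Frobenius is one on decomposition. -/
theorem mem_locCob_decomposition (hq : q.Prime) (hA : A.LiesOverPrime q) {σ : GQ}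
    (hσ : A.IsFrobeniusAt σ q) {c : GQ → M22 k} (hc : c ∈ adCoc r)
    (hcont : ∃ L : IntermediateField ℚ Qbar, FiniteDimensional ℚ L ∧
      ∀ x ∈ L.fixingSubgroup, r x = 1 ∧ c x = 0) {e : M22 k}
    (hF : c σ = r σ * e * r σ⁻¹ - e)
    (hI : ∀ τ ∈ A.inertiaSubgroupIn ℚ, c τ = r τ * e * r τ⁻¹ - e) :
    c ∈ locCob r (A.decompositionSubgroup ℚ) := by
  refine ⟨e, fun g hg => ?_⟩
  let H : Subgroup GQ :=
    { carrier := {x | c x = r x * e * r x⁻¹ - e}
      one_mem' := by
        have := hc.1 1 1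
        rw [mul_one, map_one, inv_one, map_one, one_mul, mul_one] at this
        show c 1 = _
        rw [left_eq_add.mp this, map_one, inv_one, map_one, one_mul, mul_one, sub_self]
      mul_mem' := fun {a b} ha hb => by
        show c (a * b) = _
        rw [hc.1, show c a = _ from ha, show c b = _ from hb, mul_inv_rev, map_mul, map_mul,
          mul_sub, sub_mul]
        simp only [mul_assoc]
        abel
      inv_mem' := fun {a} ha => by
        show c a⁻¹ = _
        have h1 := hc.1 a⁻¹ a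
        rw [inv_mul_cancel, show c a = _ from ha] at h1
        have h0 : c 1 = 0 := by
          have := hc.1 1 1
          rw [mul_one, map_one, inv_one, map_one, one_mul, mul_one] at this
          exact left_eq_add.mp this
        rw [h0, inv_inv] at h1
        rw [eq_neg_of_add_eq_zero_left h1.symm, mul_sub, sub_mul, neg_sub, inv_inv]
        congr 1
        calc r a⁻¹ * (r a * e * r a⁻¹) * r a = (r a⁻¹ * r a) * e * (r a⁻¹ * r a) := by
              simp only [mul_assoc]
          _ = e := by rw [rep_inv_mul, one_mul, mul_one] }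
  obtain ⟨L, hL, hLc⟩ := hcont
  refine decomposition_le_of_level hq hA hσ (H := H) hL (fun x hx => ?_) hF (fun τ hτ => hI τ hτ) hg
  show c x = _
  rw [(hLc x hx).2, (hLc x hx).1, (hLc _ (inv_mem hx)).1, one_mul, mul_one, sub_self]

/-- A trace free matrix commuting with a Frobenius and with inertia is fixed by decomposition. -/
theorem mem_locFix_decomposition (hq : q.Prime) (hA : A.LiesOverPrime q) {σ : GQ}
    (hσ : A.IsFrobeniusAt σ q)
    (hcont : ∃ L : IntermediateField ℚ Qbar, FiniteDimensional ℚ L ∧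
      ∀ x ∈ L.fixingSubgroup, r x = 1)
    {X : M22 k} (hX : X.trace = 0) (hF : r σ * X = X * r σ)
    (hI : ∀ τ ∈ A.inertiaSubgroupIn ℚ, r τ * X = X * r τ) :
    X ∈ locFix r (A.decompositionSubgroup ℚ) := by
  refine ⟨hX, fun g hg => ?_⟩
  let H : Subgroup GQ :=
    { carrier := {x | r x * X = X * r x}
      one_mem' := by
        show r 1 * X = X * r 1
        rw [map_one, one_mul, mul_one]
      mul_mem' := fun {a b} ha hb => by
        show r (a * b) * X = X * r (a * b)
        rw [map_mul, mul_assoc, show r b * X = X * r b from hb, ← mul_assoc,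
          show r a * X = X * r a from ha, mul_assoc]
      inv_mem' := fun {a} ha => by
        show r a⁻¹ * X = X * r a⁻¹
        calc r a⁻¹ * X = r a⁻¹ * (X * r a) * r a⁻¹ := by
              simp only [mul_assoc, rep_mul_inv, mul_one]
          _ = _ := by rw [← show r a * X = X * r a from ha, ← mul_assoc, rep_inv_mul, one_mul] }
  obtain ⟨L, hL, hLc⟩ := hcont
  have h : g ∈ H := decomposition_le_of_level hq hA hσ (H := H) hL
    (fun x hx => show r x * X = X * r x by rw [hLc x hx, one_mul, mul_one]) hF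
    (fun τ hτ => hI τ hτ) hg
  rw [show r g * X = X * r g from h, mul_assoc, rep_mul_inv, mul_one]

/-- A nonscalar Frobenius at an unramified place has a nonzero fixed element. -/
theorem one_le_finrank_locFix (hq : q.Prime) (hA : A.LiesOverPrime q) {σ : GQ}
    (hσ : A.IsFrobeniusAt σ q) (h2 : (2 : k) ≠ 0)
    (hcont : ∃ L : IntermediateField ℚ Qbar, FiniteDimensional ℚ L ∧
      ∀ x ∈ L.fixingSubgroup, r x = 1)
    (hun : ∀ τ ∈ A.inertiaSubgroupIn ℚ, r τ = 1) (hns : ∀ t : k, r σ ≠ t • 1) :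
    1 ≤ Module.finrank k (locFix r (A.decompositionSubgroup ℚ)) := by
  set X : M22 k := (2 : k) • r σ - (r σ).trace • 1
  have hX : X.trace = 0 := by
    simp only [X, Matrix.trace_sub, Matrix.trace_smul, Matrix.trace_one, Fintype.card_fin,
      smul_eq_mul]
    ring
  have hmem : X ∈ locFix r (A.decompositionSubgroup ℚ) := mem_locFix_decomposition hq hA hσ hcont hX
    (by simp only [X, mul_sub, sub_mul, mul_smul_comm, smul_mul_assoc, mul_one, one_mul])
    (fun τ hτ => by rw [hun τ hτ, one_mul, mul_one])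
  refine Nat.one_le_iff_ne_zero.mpr fun h0 => ?_
  rw [Submodule.finrank_eq_zero] at h0
  rw [h0, Submodule.mem_bot, sub_eq_zero] at hmem
  refine hns ((2 : k)⁻¹ * (r σ).trace) ?_
  rw [mul_smul, ← hmem, inv_smul_smul₀ h2]

/-- Commutants are the fixed elements and the scalars. -/
theorem finrank_commutant_le (h2 : (2 : k) ≠ 0) {H : Subgroup GQ} {F : M22 k}
    (h : ∀ X : M22 k, X.trace = 0 → F * X = X * F → X ∈ locFix r H)
    (W : Submodule k (M22 k)) (hW : ∀ X ∈ W, F * X = X * F) :
    Module.finrank k W ≤ Module.finrank k (locFix r H) + 1 := by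
  have hle : W ≤ locFix r H ⊔ Submodule.span k {(1 : M22 k)} := fun X hX => by
    rw [show X = (X - (X.trace / 2) • (1 : M22 k)) + (X.trace / 2) • 1 from
      (sub_add_cancel _ _).symm]
    refine Submodule.add_mem_sup (h _ ?_ ?_) (Submodule.mem_span_singleton.mpr ⟨_, rfl⟩)
    · rw [Matrix.trace_sub, Matrix.trace_smul, Matrix.trace_one, Fintype.card_fin, Nat.cast_ofNat,
        smul_eq_mul, div_mul_cancel₀ _ h2, sub_self]
    · rw [mul_sub, sub_mul, mul_smul_comm, smul_mul_assoc, mul_one, one_mul, hW X hX]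
  refine (Submodule.finrank_mono hle).trans
    ((Submodule.finrank_add_le_finrank_add_finrank _ _).trans ?_)
  exact Nat.add_le_add_left (finrank_span_singleton (one_ne_zero)).le _

/-- A trace free matrix multiplied by `q` by a Frobenius with no such eigenvalue is zero. -/
theorem eq_zero_of_frob_conj {F B : M22 k} {q₀ : k} (hq0 : q₀ ≠ 0) (hq1 : q₀ ≠ 1)
    (hd : F.det = q₀) (ht : F.trace ^ 2 ≠ (1 + q₀) ^ 2) (h : F * B = q₀ • (B * F)) : B = 0 := by
  have hF2 : F * F = F.trace • F - q₀ • 1 := by rw [← hd]; exact mul_self_eq F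
  have h1 : F * F * B = q₀ ^ 2 • (B * (F * F)) := by
    rw [mul_assoc, h, mul_smul_comm, ← mul_assoc, h, smul_mul_assoc, smul_smul, ← sq, mul_assoc]
  rw [hF2, sub_mul, smul_mul_assoc, smul_mul_assoc, one_mul, h, mul_sub, mul_smul_comm,
    mul_smul_comm, mul_one] at h1
  have h2 : F.trace • (B * F) = (1 + q₀) • B := by
    refine smul_right_injective _ (mul_ne_zero hq0 (sub_ne_zero.mpr hq1.symm)) ?_
    show (q₀ * (1 - q₀)) • (F.trace • (B * F)) = (q₀ * (1 - q₀)) • ((1 + q₀) • B)
    rw [← sub_eq_zero]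
    rw [← sub_eq_zero] at h1
    refine Eq.trans ?_ h1
    module
  have h3 := congrArg (· * F) h2
  simp only [smul_mul_assoc, mul_assoc, hF2, mul_sub, mul_smul_comm, mul_one] at h3
  have h4 : (F.trace ^ 2 - (1 + q₀) ^ 2) • B = 0 := by
    have h5 := congrArg (F.trace • ·) h3
    simp only [smul_sub, smul_smul] at h5
    rw [show F.trace * (F.trace * F.trace) = (F.trace * F.trace) * F.trace by ring,
      show F.trace * (1 + q₀) = (1 + q₀) * F.trace by ring, mul_smul, mul_smul (1 + q₀) F.trace,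
      h2] at h5
    rw [← sub_eq_zero] at h5
    refine Eq.trans ?_ h5
    module
  exact (smul_eq_zero.mp h4).resolve_left (sub_ne_zero.mpr ht)

end FermatAgent.CFT.Selmer
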