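import Fermat.Agent.CFT.Selmer.Adjoint
import Fermat.Agent.CFT.Selmer.FrobRoots
import Fermat.Agent.CFT.Selmer.Descent
import Fermat.Agent.GaloisBasic.CharpolyDensity

/-!
Auxiliary primes at which the classes of the twisted dual adjoint module are detected.

`ResDatum.exists_primes`: any `m` bounding the dimension of a space of classes of the twisted dual
admits `m` distinct primes congruent to one modulo `p ^ (n + 1)` whose evaluations `evalAt` detect
the space.
A regular element of `cycSub` is matched by the Frobenius of such a prime generating the same cyclic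
group (Chebotarev, `ResDatum.exists_prime_congr`), which detects a given class
(`ResDatum.exists_prime_visible`); induction on the dimension gives the rest.
-/

set_option autoImplicit false

noncomputable section

open scoped Classical Pointwise

namespace FermatAgent.CFT.Selmer

open Coh Euler Pairing Global Local GaloisBasic

section Eval

variable {N : Type} [AddCommGroup N] [DistribMulAction GQ N]

/-- The image of an element minus one. -/
def dRange (φ : GQ) : AddSubgroup N :=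
  (AddMonoidHom.mk' (fun m : N => φ • m - m) fun a b => by rw [smul_add]; abel).range

/-- Membership in the image of `φ - 1`. -/
lemma mem_dRange {φ : GQ} {x : N} : x ∈ dRange φ ↔ ∃ m : N, φ • m - m = x := Iff.rfl

/-- The value of a class at an element, modulo the image of that element minus one. -/
def evalAt (L : Levels GQ) (φ : GQ) : H1 L N →+ N ⧸ dRange (N := N) φ :=
  QuotientAddGroup.lift _
    ((QuotientAddGroup.mk' (dRange φ)).comp
      (AddMonoidHom.mk' (fun z : ↥(L.Z1 ⊤ N) => z.1 φ) fun _ _ => rfl))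
    fun z hz => by
      obtain ⟨m, hm⟩ := hz
      exact (QuotientAddGroup.eq_zero_iff _).mpr ⟨m, (hm φ (Subgroup.mem_top φ)).symm⟩

lemma evalAt_cls (L : Levels GQ) (φ : GQ) (z : ↥(L.Z1 ⊤ N)) :
    evalAt L φ (cls1 L N z) = QuotientAddGroup.mk' (dRange φ) (z.1 φ) := rfl

/-- When the evaluation of a class vanishes. -/
lemma evalAt_cls_eq_zero {L : Levels GQ} {φ : GQ} {z : ↥(L.Z1 ⊤ N)} :
    evalAt L φ (cls1 L N z) = 0 ↔ z.1 φ ∈ dRange φ :=
  (evalAt_cls L φ z).symm ▸ QuotientAddGroup.eq_zero_iff _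

/-- Powers of an element at which a cocycle is a coboundary. -/
lemma apply_pow_mem_dRange {L : Levels GQ} (z : ↥(L.Z1 ⊤ N)) {φ : GQ} {m : N}
    (h : z.1 φ = φ • m - m) : ∀ j : ℕ, z.1 (φ ^ j) = φ ^ j • m - m
  | 0 => by rw [pow_zero, Levels.Z1_apply_one z.2, one_smul, sub_self]
  | j + 1 => by
    rw [pow_succ, Levels.Z1_apply_mul z.2 (Subgroup.mem_top _) (Subgroup.mem_top _),
      apply_pow_mem_dRange z h j, h, smul_sub, mul_smul]
    abel

/-- Conjugating the element. -/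
lemma apply_conj_mem_dRange {L : Levels GQ} (z : ↥(L.Z1 ⊤ N)) {φ : GQ} (g : GQ)
    (h : z.1 φ ∈ dRange φ) : z.1 (g * φ * g⁻¹) ∈ dRange (g * φ * g⁻¹) := by
  obtain ⟨m, hm⟩ := mem_dRange.mp h
  have hmul : ∀ a b, z.1 (a * b) = a • z.1 b + z.1 a := fun a b =>
    Levels.Z1_apply_mul z.2 (Subgroup.mem_top a) (Subgroup.mem_top b)
  have hg : g • z.1 g⁻¹ + z.1 g = 0 := by
    rw [← hmul, mul_inv_cancel, Levels.Z1_apply_one z.2]
  refine mem_dRange.mpr ⟨g • m - z.1 g, ?_⟩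
  rw [hmul, hmul, ← hm, mul_smul, mul_smul, smul_sub, smul_sub, smul_sub, smul_sub, inv_smul_smul]
  have e : g⁻¹ • z.1 g = -z.1 g⁻¹ := by
    rw [eq_neg_of_add_eq_zero_right hg, smul_neg, inv_smul_smul]
  rw [e, smul_neg, smul_neg, mul_smul]
  abel

end Eval

/-- A primitive root of unity of order a power of `p`. -/
def zetPow (p : ℕ) [hp : Fact p.Prime] (n : ℕ) : Qbar :=
  haveI : NeZero (p ^ n) := ⟨pow_ne_zero n hp.out.ne_zero⟩
  (HasEnoughRootsOfUnity.exists_primitiveRoot Qbar (p ^ n)).choose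

lemma zetPow_spec (p : ℕ) [hp : Fact p.Prime] (n : ℕ) : IsPrimitiveRoot (zetPow p n) (p ^ n) :=
  haveI : NeZero (p ^ n) := ⟨pow_ne_zero n hp.out.ne_zero⟩
  (HasEnoughRootsOfUnity.exists_primitiveRoot Qbar (p ^ n)).choose_spec

/-- The elements fixing the roots of unity of order `p ^ n`. -/
def cycSub (p : ℕ) [Fact p.Prime] (n : ℕ) : Subgroup GQ :=
  MulAction.stabilizer GQ (zetPow p n)

variable {p : ℕ} [hp : Fact p.Prime] {n : ℕ}

lemma mem_cycSub {g : GQ} : g ∈ cycSub p n ↔ g (zetPow p n) = zetPow p n := Iff.rfl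

lemma exists_pow_eq_apply (g : GQ) : ∃ i : ℕ, g (zetPow p n) = zetPow p n ^ i := by
  have : NeZero (p ^ n) := ⟨pow_ne_zero n hp.out.ne_zero⟩
  obtain ⟨i, -, hi⟩ := (zetPow_spec p n).eq_pow_of_pow_eq_one (ξ := g (zetPow p n))
    (by rw [← map_pow, (zetPow_spec p n).pow_eq_one, map_one])
  exact ⟨i, hi.symm⟩

lemma cycSub_comm (a b : GQ) : a * b * a⁻¹ * b⁻¹ ∈ cycSub p n := by
  obtain ⟨i, hi⟩ := exists_pow_eq_apply (p := p) (n := n) a
  obtain ⟨j, hj⟩ := exists_pow_eq_apply (p := p) (n := n) b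
  have hab : ∀ x, (a * b) x = (b * a) x →
      (a * b * a⁻¹ * b⁻¹) ((b * a) x) = (b * a) x := fun x hx => by
    conv_rhs => rw [← hx]
    simp
  have key := hab (zetPow p n) (by simp [hi, hj, ← pow_mul, mul_comm])
  obtain ⟨c, hc⟩ := exists_pow_eq_apply (p := p) (n := n) (b * a)⁻¹
  rw [mem_cycSub]
  have e : zetPow p n = (b * a) (zetPow p n ^ c) := by
    rw [← hc, ← AlgEquiv.mul_apply, mul_inv_cancel, AlgEquiv.one_apply]
  conv_lhs => rw [e, map_pow, map_pow, key, ← map_pow, ← e]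

lemma cycSub_normal : (cycSub p n).Normal := ⟨fun h hh g => by
  have := mul_mem (cycSub_comm (p := p) (n := n) g h) hh
  rwa [show g * h * g⁻¹ * h⁻¹ * h = g * h * g⁻¹ by group] at this⟩

lemma cycSub_le_ker (hn : n ≠ 0) : cycSub p n ≤ (chiQ p).ker := by
  intro g hg
  have : NeZero (p ^ n) := ⟨pow_ne_zero n hp.out.ne_zero⟩
  obtain ⟨i, -, hi⟩ := (zetPow_spec p n).eq_pow_of_pow_eq_one (ξ := zet p) (by
    obtain ⟨m, rfl⟩ := Nat.exists_eq_succ_of_ne_zero hn
    rw [pow_succ', pow_mul, (zet_spec p).pow_eq_one, one_pow])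
  have h : g (zet p) = zet p := by rw [← hi, map_pow, mem_cycSub.mp hg]
  rw [apply_zet] at h
  refine MonoidHom.mem_ker.mpr (Units.ext (ZMod.val_injective p ?_))
  rw [Units.val_one, ZMod.val_one]
  exact (zet_spec p).pow_inj (ZMod.val_lt _) hp.out.one_lt (h.trans (pow_one _).symm)

variable {k : Type} [Field k] [Finite k] [CharP k p] {r : MatRep k}

omit [Finite k] in
/-- A prime whose Frobenius generates the same cyclic group as a given regular element. -/
theorem ResDatum.exists_prime_congr (D : ResDatum p r) {T₀ : Finset Nat.Primes} {U V : Subgroup GQ}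
    (hU : U ∈ LS T₀) (hV : V ∈ LS T₀) (hker : ∀ g ∈ U, r g = 1) (n : ℕ) (avoid : Finset ℕ)
    {σ : GQ} (hσN : σ ∈ cycSub p (n + 1)) (hσreg : (r σ).trace ^ 2 ≠ 4) :
    ∃ (q : Nat.Primes) (φ₀ g : GQ) (j : ℕ), (q : ℕ) ∉ avoid ∧ p ^ (n + 1) ∣ (q : ℕ) - 1 ∧
      (haveI : Fact (q : ℕ).Prime := ⟨q.2⟩;
        (padicPlace (q : ℕ)).IsFrobeniusAt (g * φ₀ * g⁻¹) q) ∧
      (r φ₀).trace ^ 2 ≠ 4 ∧ φ₀ ∈ cycSub p (n + 1) ∧ (φ₀ ^ j)⁻¹ * σ ∈ V ∧
      r σ = r (φ₀ ^ j) := by
  obtain ⟨K₀, hK₀, hK₀V, -⟩ := exists_normal_field ((LS T₀).inf_mem hV hU)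
  have := hK₀.1
  let L₁ : IntermediateField ℚ Qbar := IntermediateField.adjoin ℚ {zetPow p (n + 1)}
  have : FiniteDimensional ℚ L₁ :=
    IntermediateField.adjoin.finiteDimensional (Algebra.IsIntegral.isIntegral _)
  obtain ⟨q, A, φ₀, j, i, hq, hqS, hA, hφ₀, -, hσφ, hφσ⟩ :=
    exists_frobenius_pow_congr (K₀ ⊔ L₁) σ (avoid ∪ {p})
  simp only [Finset.mem_union, Finset.mem_singleton, not_or] at hqS
  have : Fact q.Prime := ⟨hq⟩
  obtain ⟨g, hg⟩ := GaloisBasic.exists_smul_eq hq hA (liesOverPrime_padicPlace (q := q))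
  have hfixK : ∀ τ ∈ (K₀ ⊔ L₁).fixingSubgroup, τ ∈ V ∧ τ ∈ U ∧ τ ∈ cycSub p (n + 1) := by
    intro τ hτ
    rw [IntermediateField.fixingSubgroup_sup] at hτ
    refine ⟨(hK₀V hτ.1).1, (hK₀V hτ.1).2, ?_⟩
    exact (IntermediateField.mem_fixingSubgroup_iff L₁ τ).mp hτ.2 _
      (IntermediateField.mem_adjoin_simple_self ℚ _)
  obtain ⟨hτV, hτU, hτc⟩ := hfixK _ hσφ
  obtain ⟨-, -, hτc'⟩ := hfixK _ hφσ
  have hφN : φ₀ ∈ cycSub p (n + 1) := by
    have := mul_mem (pow_mem hσN i) hτc'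
    rwa [mul_inv_cancel_left] at this
  have hrσ : r σ = r (φ₀ ^ j) := by
    conv_lhs => rw [show σ = φ₀ ^ j * ((φ₀ ^ j)⁻¹ * σ) by group, map_mul, hker _ hτU, mul_one]
  -- the Frobenius element has distinct eigenvalues
  have hdetφ : (r φ₀).det = 1 := D.det_of_mem (cycSub_le_ker (Nat.succ_ne_zero n) hφN)
  have hreg : (r φ₀).trace ^ 2 ≠ 4 := fun h4 => hσreg (by
    have h2 := D.two_ne_zero
    set s := (r φ₀).trace / 2
    have ht : (r φ₀).trace = 2 * s := by simp only [s]; field_simp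
    have hs2 : s ^ 2 = 1 := mul_left_cancel₀ (mul_ne_zero h2 h2) (by
      rw [ht] at h4; linear_combination h4)
    set X := r φ₀ - s • 1 with hX
    have hXX : X * X = 0 := by
      rw [hX, mul_sub, sub_mul, sub_mul, mul_self_eq, hdetφ, ht, smul_one_mul, mul_smul_one,
        smul_one_mul, smul_smul, one_smul, ← pow_two, hs2, one_smul]
      module
    have hXt : X.trace = 0 := by
      simp [hX, Matrix.trace_sub, Matrix.trace_smul, ht]; ring
    have hpow : ∀ m : ℕ, ∃ b : k, r φ₀ ^ m = s ^ m • 1 + b • X := fun m => by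
      induction m with
      | zero => exact ⟨0, by simp⟩
      | succ m ih =>
        obtain ⟨b, hb⟩ := ih
        refine ⟨s ^ m + b * s, ?_⟩
        rw [pow_succ (r φ₀), hb, show r φ₀ = s • 1 + X by rw [hX, add_sub_cancel], mul_add, add_mul,
          add_mul, smul_mul_smul_comm, one_mul, smul_one_mul, smul_mul_smul_comm, mul_one,
          smul_mul_assoc, hXX, smul_zero, ← pow_succ, add_smul]
        abel
    obtain ⟨b, hb⟩ := hpow j
    rw [hrσ, map_pow, hb, Matrix.trace_add, Matrix.trace_smul, Matrix.trace_smul, hXt,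
      Matrix.trace_one, Fintype.card_fin]
    simp only [smul_eq_mul, mul_zero, add_zero, Nat.cast_ofNat]
    have hsj : (s ^ j) ^ 2 = 1 := by rw [← pow_mul, mul_comm, pow_mul, hs2, one_pow]
    linear_combination 4 * hsj)
  refine ⟨⟨q, hq⟩, φ₀, g, j, hqS.1, ?_, ?_, hreg, hφN, hτV, hrσ⟩
  · have h1 := frobenius_apply_root hq hA hφ₀ (pow_pos hp.out.pos (n + 1))
      (fun h => hqS.2 ((Nat.prime_dvd_prime_iff_eq hq hp.out).mp (hq.dvd_of_dvd_pow h)))
      (zetPow_spec p (n + 1)).pow_eq_one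
    rw [mem_cycSub.mp hφN] at h1
    have h2 : zetPow p (n + 1) ^ (q - 1) = 1 := by
      have hne := (zetPow_spec p (n + 1)).ne_zero (pow_ne_zero _ hp.out.ne_zero)
      refine mul_left_cancel₀ hne ?_
      rw [← pow_succ', Nat.sub_add_cancel hq.one_le, mul_one, ← h1]
    exact (zetPow_spec p (n + 1)).dvd_of_pow_eq_one _ h2
  · have := conj_isFrobeniusAt hq hA hφ₀ g
    rwa [hg] at this

/-- **A prime at which a given class is detected.** -/
theorem ResDatum.exists_prime_visible (D : ResDatum p r) {T₀ : Finset Nat.Primes} {U : Subgroup GQ}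
    (hU : U ∈ LS T₀) (hker : ∀ g ∈ U, r g = 1) (n : ℕ) (avoid : Finset ℕ)
    {y : H1 (LS T₀) (Dual (chiQ p) (Ad0 r))} (hy : y ≠ 0) :
    ∃ (q : Nat.Primes) (φ : GQ), (q : ℕ) ∉ avoid ∧ p ^ (n + 1) ∣ (q : ℕ) - 1 ∧
      (haveI : Fact (q : ℕ).Prime := ⟨q.2⟩; (padicPlace (q : ℕ)).IsFrobeniusAt φ q) ∧
      (r φ).trace ^ 2 ≠ 4 ∧ chiQ p φ = 1 ∧ evalAt (LS T₀) φ y ≠ 0 := by
  obtain ⟨c, rfl⟩ := cls1_surjective y
  let e := AddEquiv.ofBijective _ (dualIso_bijective p D.hp2 r)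
  have hes : ∀ (g : GQ) x, e.symm (g • x) = g • e.symm x := fun g x => e.injective (by
    rw [e.apply_symm_apply]
    show g • x = dualIso p r (g • e.symm x)
    rw [dualIso_smul]
    exact (congrArg (g • ·) (e.apply_symm_apply x)).symm)
  have hmul : ∀ a b, c.1 (a * b) = a • c.1 b + c.1 a := fun a b =>
    Levels.Z1_apply_mul c.2 (Subgroup.mem_top a) (Subgroup.mem_top b)
  set z : GQ → M22 k := fun g => Ad.val (e.symm (c.1 g)) with hzdef
  obtain ⟨σ, hσN, hσreg, hσz⟩ := D.exists_visible cycSub_normal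
    (cycSub_le_ker (Nat.succ_ne_zero n)) cycSub_comm (z := z) (fun g => Ad.trace_val _)
    (fun g h => by
      simp only [hzdef, hmul, map_add, hes, Ad.val_smul]
      abel)
    (by
      rintro ⟨m, hm, hz⟩
      refine hy (cls1_eq_zero_iff.mpr ⟨e (Ad.mk m hm), fun g _ => ?_⟩)
      refine e.symm.injective (Ad.ext ?_)
      show z g = Ad.val (e.symm (g • e (Ad.mk m hm) - e (Ad.mk m hm)))
      rw [map_sub, hes, e.symm_apply_apply, map_sub, Ad.val_smul, Ad.val_mk]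
      exact hz g)
  obtain ⟨V, hV, hVc⟩ := c.2.1
  obtain ⟨q, φ₀, g, j, hq, hdvd, hfrob, hreg, hφN, hτV, hrσ⟩ :=
    D.exists_prime_congr hU hV hker n avoid hσN hσreg
  have hcσ : c.1 σ = c.1 (φ₀ ^ j) := by
    have h := hVc (φ₀ ^ j) (Subgroup.mem_top _) _ ⟨Subgroup.mem_top _, hτV⟩
    rwa [mul_inv_cancel_left] at h
  refine ⟨q, g * φ₀ * g⁻¹, hq, hdvd, hfrob, ?_, ?_, ?_⟩
  · rwa [map_mul, map_mul, trace_rep_conj]
  · exact MonoidHom.mem_ker.mp
      ((cycSub_le_ker (Nat.succ_ne_zero n)) (cycSub_normal.conj_mem _ hφN g))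
  · intro h0
    have h1 := apply_conj_mem_dRange c g⁻¹ (evalAt_cls_eq_zero.mp h0)
    rw [show g⁻¹ * (g * φ₀ * g⁻¹) * g⁻¹⁻¹ = φ₀ by group] at h1
    obtain ⟨m, hm⟩ := mem_dRange.mp h1
    have h2 := apply_pow_mem_dRange c hm.symm j
    refine hσz ?_
    set w := Ad.val (e.symm m)
    have hez : z σ = (chiK k p (φ₀ ^ j) : k) • (r (φ₀ ^ j) * w * r (φ₀ ^ j)⁻¹) - w := by
      simp only [hzdef, hcσ, h2, map_sub, hes, Ad.val_smul]
      rfl
    have hχ : (chiK k p (φ₀ ^ j) : k) = 1 := by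
      rw [coe_chiK, show chiQ p (φ₀ ^ j) = 1 from MonoidHom.mem_ker.mp
        ((cycSub_le_ker (Nat.succ_ne_zero n)) (pow_mem hφN j)), Units.val_one, map_one]
    rw [hez, hχ, one_smul, hrσ, sub_mul, Matrix.trace_sub, mul_assoc, rep_inv_mul, mul_one,
      Matrix.trace_mul_comm, sub_self]

/-- **A prescribed number of primes detecting every class.** -/
theorem ResDatum.exists_primes (D : ResDatum p r) {T₀ : Finset Nat.Primes} {U : Subgroup GQ}
    (hU : U ∈ LS T₀) (hker : ∀ g ∈ U, r g = 1) (n : ℕ)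
    [Finite (H1 (LS T₀) (Dual (chiQ p) (Ad0 r)))] :
    ∀ (m : ℕ) (avoid : Finset ℕ) (K : AddSubgroup (H1 (LS T₀) (Dual (chiQ p) (Ad0 r)))),
    ldim p K ≤ m →
    ∃ (qv : Fin m → Nat.Primes) (φv : Fin m → GQ), Function.Injective qv ∧
      (∀ i, (qv i : ℕ) ∉ avoid ∧ p ^ (n + 1) ∣ (qv i : ℕ) - 1 ∧
        (haveI : Fact (qv i : ℕ).Prime := ⟨(qv i).2⟩;
          (padicPlace (qv i : ℕ)).IsFrobeniusAt (φv i) (qv i)) ∧
        (r (φv i)).trace ^ 2 ≠ 4 ∧ chiQ p (φv i) = 1) ∧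
      ∀ y ∈ K, (∀ i, evalAt (LS T₀) (φv i) y = 0) → y = 0 := by
  intro m
  have hkp : ∀ (K : AddSubgroup (H1 (LS T₀) (Dual (chiQ p) (Ad0 r)))) (a : K), p • a = 0 :=
    fun K a => Subtype.ext (nsmul_H1_eq_zero (fun x => dual_killed _ _ x) a.1)
  induction m with
  | zero =>
    intro avoid K hK
    refine ⟨Fin.elim0, Fin.elim0, fun i => i.elim0, fun i => i.elim0, fun y hy _ => ?_⟩
    have : Subsingleton K := (ldim_eq_zero_iff (p := p) (hkp K)).mp (Nat.le_zero.mp hK)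
    exact congrArg Subtype.val (Subsingleton.elim (⟨y, hy⟩ : K) 0)
  | succ m ih =>
    intro avoid K hK
    -- the first prime lowers the dimension of what is left
    have hfirst : ∃ (q : Nat.Primes) (φ : GQ) (K' : AddSubgroup _), ldim p K' ≤ m ∧
        (q : ℕ) ∉ avoid ∧ p ^ (n + 1) ∣ (q : ℕ) - 1 ∧
        (haveI : Fact (q : ℕ).Prime := ⟨q.2⟩; (padicPlace (q : ℕ)).IsFrobeniusAt φ q) ∧
        (r φ).trace ^ 2 ≠ 4 ∧ chiQ p φ = 1 ∧
        ∀ y ∈ K, evalAt (LS T₀) φ y = 0 → y ∈ K' := by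
      by_cases h0 : ∀ y ∈ K, y = 0
      · have hN := cycSub_le_ker (p := p) (Nat.succ_ne_zero n)
        obtain ⟨σ, hσ, hσr⟩ := D.exists_regular cycSub_normal hN cycSub_comm
        obtain ⟨q, φ₀, g, -, h1, h2, h3, h4, h5, -, -⟩ :=
          D.exists_prime_congr hU (LS T₀).top_mem hker n avoid hσ hσr
        refine ⟨q, g * φ₀ * g⁻¹, ⊥, ?_, h1, h2, h3, by rwa [map_mul, map_mul, trace_rep_conj],
          MonoidHom.mem_ker.mp (hN (cycSub_normal.conj_mem _ h5 g)),
          fun y hy _ => by rw [h0 y hy]; exact zero_mem _⟩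
        rw [ldim_of_subsingleton p]
        exact Nat.zero_le m
      push Not at h0
      obtain ⟨y₀, hy₀, hne₀⟩ := h0
      obtain ⟨q, φ, h1, h2, h3, h4, h5, h6⟩ := D.exists_prime_visible hU hker n avoid hne₀
      refine ⟨q, φ, K ⊓ (evalAt (LS T₀) φ).ker, ?_, h1, h2, h3, h4, h5, fun y hy hy0 => ⟨hy, hy0⟩⟩
      have hlt : Nat.card ↥(K ⊓ (evalAt (LS T₀) φ).ker) < Nat.card K := by
        refine lt_of_le_of_ne (AddSubgroup.card_le_of_le inf_le_left) fun hc => ?_
        have := AddSubgroup.eq_of_le_of_card_ge (inf_le_left (b := (evalAt (LS T₀) φ).ker)) hc.ge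
        exact h6 (inf_le_right (a := K) (this.ge hy₀))
      rw [card_eq_pow_ldim (p := p) (hkp _), card_eq_pow_ldim (p := p) (hkp _)] at hlt
      have := (Nat.pow_lt_pow_iff_right hp.out.one_lt).mp hlt
      omega
    obtain ⟨q, φ, K', hK', h1, h2, h3, h4, h5, h6⟩ := hfirst
    obtain ⟨qv, φv, hinj, hgood, hkill⟩ := ih (insert (q : ℕ) avoid) K' hK'
    refine ⟨Fin.cons q qv, Fin.cons φ φv, ?_, ?_, fun y hy h => hkill y (h6 y hy (h 0))
      fun i => h i.succ⟩
    · refine Fin.cons_injective_iff.mpr ⟨?_, hinj⟩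
      rintro ⟨i, rfl⟩
      exact (hgood i).1 (Finset.mem_insert_self _ _)
    · intro i
      refine Fin.cases ?_ (fun i => ?_) i
      · simp only [Fin.cons_zero]
        exact ⟨h1, h2, h3, h4, h5⟩
      · simp only [Fin.cons_succ]
        obtain ⟨a1, a2, a3, a4, a5⟩ := hgood i
        exact ⟨fun h => a1 (Finset.mem_insert_of_mem h), a2, a3, a4, a5⟩

end FermatAgent.CFT.Selmer
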