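import Fermat.Statements.S56
import Fermat.Agent.CFT.Selmer.Final

/-!
The statement on auxiliary primes from the two bounds at the residue characteristic.
-/

set_option autoImplicit false

noncomputable section

open Polynomial IsLocalRing
open ResidualGaloisRep

namespace FermatAgent.CFT.Selmer

/-- **Taylor-Wiles primes, from the local bounds at `p`.** -/
theorem exists_primes_of_local {𝒪 : Type} [CommRing 𝒪] [IsDomain 𝒪] [IsDiscreteValuationRing 𝒪]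
    [IsAdicComplete (maximalIdeal 𝒪) 𝒪] [Finite (ResidueField 𝒪)]
    (p : ℕ) [Fact p.Prime] (hp2 : p ≠ 2) (hp𝒪 : (p : 𝒪) ∈ maximalIdeal 𝒪)
    (ρbar : ResidualGaloisRep (ResidueField 𝒪))
    (habs : ρbar.IsAbsolutelyIrreducible)
    (hdet : (GaloisRepAdic.ofResidualGaloisRep ρbar).DetIsCyclotomic p)
    (hsplit : ∀ σ : AlgebraicClosure ℚ ≃ₐ[ℚ] AlgebraicClosure ℚ,
      ∃ α β : ResidueField 𝒪, LinearMap.charpoly (ρbar.ρ σ) = (X - C α) * (X - C β))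
    (hTW : ∀ (K : Type) [Field K] [Algebra (ResidueField 𝒪) K]
      (G : Subgroup (AlgebraicClosure ℚ ≃ₐ[ℚ] AlgebraicClosure ℚ)), G.index = 2 →
      ∀ V : Submodule K (ρbar.baseChange K).V,
        (∀ σ ∈ G, ∀ x ∈ V, (ρbar.baseChange K).ρ σ x ∈ V) → V = ⊥ ∨ V = ⊤)
    (S Smin : Finset ℕ) (hpSmin : p ∈ Smin) (hSmin : Smin ⊆ S) (hS : ∀ q ∈ S, q.Prime)
    (hmin : ∀ q : ℕ, q.Prime → q ≠ p → (q ∈ Smin ↔ ¬ ρbar.IsUnramifiedAt q))
    (hstrict : LocalBoundAt p ρbar (fun _A _ _ ρ => ρ.IsStrictOrdinaryAt p))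
    (hflat : LocalBoundAt p ρbar (fun _A _ _ ρ => ρ.IsFlatAt p)) :
    HasTWGenerators p ρbar S Smin (fun _A _ _ ρ => ρ.IsStrictOrdinaryAt p) ∧
      HasTWGenerators p ρbar S Smin (fun _A _ _ ρ => ρ.IsFlatAt p) :=
  ⟨exists_primes_surjective p hp2 hp𝒪 ρbar habs hdet hsplit hTW S Smin hpSmin hSmin hS hmin
      (fun _A _ _ ρ => ρ.IsStrictOrdinaryAt p) (fun ρ φ hφ N hN =>
        push_strict p ρ φ hφ N hN) hstrict,
    exists_primes_surjective p hp2 hp𝒪 ρbar habs hdet hsplit hTW S Smin hpSmin hSmin hS hmin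
      (fun _A _ _ ρ => ρ.IsFlatAt p) (fun ρ φ hφ N hN => push_flat p ρ φ hφ N hN) hflat⟩

end FermatAgent.CFT.Selmer
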