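import Fermat.Agent.CFT.Selmer.GroupH1
import Fermat.Agent.CFT.Global.SRecip
import Fermat.Agent.GaloisBasic.MatrixLift

/-!
Elements of a cyclotomic subgroup at which a given class of the twisted adjoint module is visible.

Under the residual hypotheses `ResDatum`, in a normal subgroup `N` of the cyclotomic kernel with
abelian quotient there is an element with distinct eigenvalues (`ResDatum.exists_regular`), and
trace free matrices orthogonal to all of them vanish (`ResDatum.eq_zero_of_orthogonal`).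
Hence a cocycle which is not a coboundary has nonzero trace pairing with the representation at some
such element (`ResDatum.exists_visible`).
-/

set_option autoImplicit false

noncomputable section

open scoped Classical
open Polynomial

namespace FermatAgent.CFT.Selmer

open Global GaloisBasic

/-- The cyclotomic character takes all values. -/
lemma chiQ_surjective (p : ℕ) [hp : Fact p.Prime] : Function.Surjective (chiQ p) := by
  intro u
  have : NeZero p := ⟨hp.out.ne_zero⟩
  have : IsCyclotomicExtension {p} ℚ (cycK p) :=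
    (zet_spec p).intermediateField_adjoin_isCyclotomicExtension ℚ
  have : IsGalois ℚ (cycK p) := IsCyclotomicExtension.isGalois {p} ℚ (cycK p)
  have hirr := Polynomial.cyclotomic.irreducible_rat hp.out.pos
  set σ := (IsCyclotomicExtension.autEquivPow (cycK p) hirr).symm u
  obtain ⟨g, hg⟩ := AlgEquiv.restrictNormalHom_surjective Qbar σ
  refine ⟨g, ?_⟩
  set ζ := IsCyclotomicExtension.zeta p ℚ (cycK p)
  have hζ : IsPrimitiveRoot ζ p := IsCyclotomicExtension.zeta_spec p ℚ (cycK p)
  have h1 : ((IsCyclotomicExtension.autEquivPow (cycK p) hirr) σ : (ZMod p)ˣ) = u :=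
    (IsCyclotomicExtension.autEquivPow (cycK p) hirr).apply_symm_apply u
  have h2 : σ ζ = ζ ^ ((u : ZMod p)).val := by
    rw [← h1]
    exact (hζ.autToPow_spec ℚ σ).symm
  have hζQ : IsPrimitiveRoot (ζ : Qbar) p :=
    hζ.map_of_injective (f := algebraMap (cycK p) Qbar) Subtype.val_injective
  have h3 : g (ζ : Qbar) = (ζ : Qbar) ^ ((u : ZMod p)).val := by
    rw [← show (AlgEquiv.restrictNormalHom (cycK p) g ζ : Qbar) = g (ζ : Qbar) from
      AlgEquiv.restrictNormal_commutes g (cycK p) ζ, hg, h2]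
    simp
  obtain ⟨i, -, hi⟩ := (zet_spec p).eq_pow_of_pow_eq_one hζQ.pow_eq_one
  have h4 : g (ζ : Qbar) = (ζ : Qbar) ^ ((chiQ p g : ZMod p)).val := by
    rw [← hi, map_pow, apply_zet, ← pow_mul, ← pow_mul, mul_comm]
  exact Units.ext (ZMod.val_injective p
    (hζQ.pow_inj (ZMod.val_lt _) (ZMod.val_lt _) (h4.symm.trans h3)))

variable (k : Type) [Field k] (p : ℕ) [Fact p.Prime] [CharP k p]

/-- The cyclotomic character with values in the coefficient field. -/
def chiK : GQ →* kˣ := (Units.map (ZMod.castHom (dvd_refl p) k : ZMod p →* k)).comp (chiQ p)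

variable {k p}

/-- The cyclotomic character in the field. -/
lemma coe_chiK (g : GQ) :
    ((chiK k p g : kˣ) : k) = ZMod.castHom (dvd_refl p) k (chiQ p g : ZMod p) := rfl

/-- The residual hypotheses: cyclotomic determinant, no stable line, no stable line in the
adjoint module. -/
structure ResDatum (p : ℕ) [Fact p.Prime] [CharP k p] (r : MatRep k) : Prop where
  hp2 : p ≠ 2
  det : ∀ g, (r g).det = chiK k p g
  irr : ∀ v : Fin 2 → k, v ≠ 0 → ∃ g, ∀ c : k, (r g).mulVec v ≠ c • v
  adIrr : ∀ X : M22 k, X.trace = 0 → X ≠ 0 → ∃ g, ∀ c : k, r g * X * r g⁻¹ ≠ c • X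

variable {r : MatRep k}

/-- A right inverse of a value. -/
lemma rep_mul_inv (r : MatRep k) (g : GQ) : r g * r g⁻¹ = 1 := by
  rw [← map_mul, mul_inv_cancel, map_one]

/-- A left inverse of a value. -/
lemma rep_inv_mul (r : MatRep k) (g : GQ) : r g⁻¹ * r g = 1 := by
  rw [← map_mul, inv_mul_cancel, map_one]

lemma rep_conj_mul (r : MatRep k) (g : GQ) (X Y : M22 k) :
    r g * X * r g⁻¹ * (r g * Y * r g⁻¹) = r g * (X * Y) * r g⁻¹ := by
  simp only [mul_assoc]
  rw [← mul_assoc (r g⁻¹) (r g), rep_inv_mul, one_mul]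

/-- Traces are invariant under conjugation. -/
lemma trace_rep_conj (r : MatRep k) (g : GQ) (X : M22 k) :
    (r g * X * r g⁻¹).trace = X.trace := by
  rw [Matrix.trace_mul_cycle, rep_inv_mul, one_mul]

/-- Square zero trace free matrices orthogonal for the trace form commute. -/
lemma commute_of_trace_mul {X Y : M22 k} (hX : X.trace = 0) (hY : Y.trace = 0) (hdX : X.det = 0)
    (hdY : Y.det = 0) (h : (X * Y).trace = 0) : X * Y = Y * X := by
  rw [Matrix.trace_fin_two] at hX hY
  rw [Matrix.trace_fin_two] at h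
  rw [Matrix.det_fin_two] at hdX hdY
  have hx : X 1 1 = -X 0 0 := by linear_combination hX
  have hy : Y 1 1 = -Y 0 0 := by linear_combination hY
  simp only [Matrix.mul_apply, Fin.sum_univ_two, hx, hy] at h
  rw [hx] at hdX
  rw [hy] at hdY
  have hsq : ∀ {a : k}, a ^ 2 = 0 → a = 0 := fun h => pow_eq_zero_iff two_ne_zero |>.mp h
  have e1 : X 0 0 * Y 0 1 - X 0 1 * Y 0 0 = 0 := hsq (by
    linear_combination (-(Y 0 1) ^ 2) * hdX - (X 0 1) ^ 2 * hdY - (X 0 1 * Y 0 1) * h)
  have e2 : X 0 0 * Y 1 0 - X 1 0 * Y 0 0 = 0 := hsq (by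
    linear_combination (-(Y 1 0) ^ 2) * hdX - (X 1 0) ^ 2 * hdY - (X 1 0 * Y 1 0) * h)
  have e3 : X 0 1 * Y 1 0 - X 1 0 * Y 0 1 = 0 := hsq (by
    linear_combination (X 0 1 * Y 1 0 + X 1 0 * Y 0 1 - 2 * X 0 0 * Y 0 0) * h
      + 4 * (Y 0 1 * Y 1 0) * hdX - 4 * (X 0 0 ^ 2) * hdY)
  ext i j
  fin_cases i <;> fin_cases j <;> simp [Matrix.mul_apply, Fin.sum_univ_two, hx, hy]
  · linear_combination e3
  · linear_combination 2 * e1
  · linear_combination -2 * e2
  · linear_combination -e3

variable (D : ResDatum p r)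
include D

/-- Two is nonzero. -/
lemma ResDatum.two_ne_zero : (2 : k) ≠ 0 := by
  intro h
  have h2 : ((2 : ℕ) : k) = 0 := by exact_mod_cast h
  rw [CharP.cast_eq_zero_iff k p] at h2
  exact D.hp2 ((Nat.prime_dvd_prime_iff_eq Fact.out Nat.prime_two).mp h2)

/-- The determinant is one on the cyclotomic kernel. -/
lemma ResDatum.det_of_mem {g : GQ} (hg : chiQ p g = 1) : (r g).det = 1 := by
  rw [D.det, coe_chiK, hg, Units.val_one, map_one]

/-- An element with distinct eigenvalues in a subgroup with commutative quotient. -/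
theorem ResDatum.exists_regular {N : Subgroup GQ} (hN : N.Normal) (hNχ : N ≤ (chiQ p).ker)
    (hcomm : ∀ a b : GQ, a * b * a⁻¹ * b⁻¹ ∈ N) :
    ∃ g ∈ N, (r g).trace ^ 2 ≠ 4 := by
  by_contra hall
  push Not at hall
  have h2 := D.two_ne_zero
  by_cases hscal : ∀ g ∈ N, IsScal (r g)
  · -- commutators are scalar, so a non scalar element spans a stable line
    obtain ⟨a, ha⟩ : ∃ a, ¬ IsScal (r a) := by
      by_contra hs
      push Not at hs
      obtain ⟨g, hg⟩ := D.irr ![1, 0] (by simp)
      exact hg (r g 0 0) (by rw [(hs g).eq, Matrix.smul_mulVec, Matrix.one_mulVec]; simp)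
    have hconj : ∀ g, ∃ s : k, r g * r a * r g⁻¹ = s • r a ∧
        (s = 1 ∨ (r a).trace = 0) := fun g => by
      have hm := hcomm g a
      have e : r g * r a * r g⁻¹ = r (g * a * g⁻¹ * a⁻¹) * r a := by
        rw [← map_mul, ← map_mul, ← map_mul]; group
      rw [(hscal _ hm).eq, smul_mul_assoc, one_mul] at e
      refine ⟨_, e, ?_⟩
      have e' := congrArg Matrix.trace e
      rw [trace_rep_conj, Matrix.trace_smul, smul_eq_mul] at e'
      by_cases ht : (r a).trace = 0
      · exact Or.inr ht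
      · exact Or.inl (mul_right_cancel₀ ht ((one_mul _).trans e').symm)
    set X : M22 k := r a - ((r a).trace / 2) • 1 with hXdef
    have hXt : X.trace = 0 := by
      simp [hXdef, Matrix.trace_sub, Matrix.trace_smul]
      field_simp
      ring
    have hX : X ≠ 0 := fun h0 => ha (by
      rw [sub_eq_zero.mp h0]; exact isScal_smul_one _)
    obtain ⟨g, hg⟩ := D.adIrr X hXt hX
    obtain ⟨s, hs, hor⟩ := hconj g
    refine hg s ?_
    rw [hXdef, mul_sub, sub_mul, hs, smul_sub, mul_smul_comm, mul_one, smul_mul_assoc, rep_mul_inv]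
    rcases hor with rfl | h0
    · rw [one_smul, one_smul]
    · rw [h0, zero_div, zero_smul, smul_zero]
  -- a unipotent element and a conjugate with another fixed line
  push Not at hscal
  obtain ⟨h, hh, hhs⟩ := hscal
  have hh4 := hall h hh
  set s : k := (r h).trace / 2
  have ht : (r h).trace = 2 * s := by simp only [s]; field_simp
  have hs2 : s ^ 2 = 1 := mul_left_cancel₀ (mul_ne_zero h2 h2) (by
    rw [ht] at hh4; linear_combination hh4)
  set X : M22 k := r h - s • 1 with hXdef
  have hXt : X.trace = 0 := by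
    simp [hXdef, Matrix.trace_sub, Matrix.trace_smul, ht]
    ring
  have hX0 : X ≠ 0 := fun h0 => hhs (by rw [sub_eq_zero.mp h0]; exact isScal_smul_one _)
  have hdet : (r h).det = 1 := D.det_of_mem (hNχ hh)
  have hXd : X.det = 0 := by
    have e : X = (-s) • 1 + (1 : k) • r h := by rw [hXdef, one_smul, neg_smul, neg_add_eq_sub]
    rw [e, det_add_smul, hdet, ht]
    linear_combination -hs2
  obtain ⟨g, hg⟩ := D.adIrr X hXt hX0
  set X' : M22 k := r g * X * r g⁻¹ with hX'def
  have hX't : X'.trace = 0 := by rw [hX'def, trace_rep_conj, hXt]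
  have hX'd : X'.det = 0 := by
    rw [hX'def, Matrix.det_mul, Matrix.det_mul, hXd, mul_zero, zero_mul]
  set h' := g * h * g⁻¹
  have hh' : h' ∈ N := hN.conj_mem h hh g
  have e' : r h' = s • 1 + X' := by
    rw [hX'def, hXdef, map_mul, map_mul, mul_sub, sub_mul, mul_smul_comm, mul_one, smul_mul_assoc,
      rep_mul_inv, add_sub_cancel]
  have e : r h = s • 1 + X := by rw [hXdef, add_sub_cancel]
  clear_value h'
  have hsum : (r (h * h')).trace + (r (h * h'⁻¹)).trace = 4 := by
    have hinv : r h'⁻¹ = s • 1 - X' := by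
      have h1 : r h' * (s • 1 - X') = 1 := by
        rw [e', add_mul, mul_sub, mul_sub, smul_mul_smul_comm, one_mul, smul_one_mul, mul_smul_one,
          mul_self_eq X', hX't, hX'd, zero_smul, zero_smul, sub_zero, sub_zero, ← pow_two, hs2,
          one_smul, sub_add_cancel]
      calc r h'⁻¹ = r h'⁻¹ * (r h' * (s • 1 - X')) := by rw [h1, mul_one]
        _ = _ := by rw [← mul_assoc, rep_inv_mul, one_mul]
    rw [map_mul, map_mul, hinv, e', mul_add, mul_sub, Matrix.trace_add, Matrix.trace_sub,
      mul_smul_one, Matrix.trace_smul, ht, smul_eq_mul]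
    linear_combination (4 : k) * hs2
  have h1 := hall _ (mul_mem hh hh')
  have h3 := hall _ (mul_mem hh (inv_mem hh'))
  have hT : (r (h * h')).trace = 2 := by
    rw [show (r (h * h'⁻¹)).trace = 4 - (r (h * h')).trace by linear_combination hsum] at h3
    exact mul_left_cancel₀ (mul_ne_zero (mul_ne_zero h2 h2) h2)
      (by linear_combination h1 - h3)
  have hXX : (X * X').trace = 0 := by
    rw [map_mul, e, e', add_mul, mul_add, mul_add, smul_mul_smul_comm, one_mul, smul_one_mul,
      mul_smul_one, Matrix.trace_add, Matrix.trace_add, Matrix.trace_add, Matrix.trace_smul,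
      Matrix.trace_smul, Matrix.trace_smul, hXt, hX't, Matrix.trace_one, Fintype.card_fin] at hT
    simp only [smul_eq_mul, mul_zero, Nat.cast_ofNat] at hT
    linear_combination hT - 2 * hs2
  obtain ⟨a, b, hab⟩ := exists_eq_add_of_commute (y := X')
    (fun hs => hX0 (by
      have := hXt
      rw [Matrix.trace_fin_two, ← hs.2.2, ← two_mul] at this
      rw [(show IsScal X from hs).eq, (mul_eq_zero.mp this).resolve_left h2, zero_smul]))
    (commute_of_trace_mul hXt hX't hXd hX'd hXX)
  have ha : a = 0 := by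
    rw [hab, trace_add_smul, hXt] at hX't
    exact (mul_eq_zero.mp (by linear_combination hX't : (2 : k) * a = 0)).resolve_left h2
  exact hg b (show X' = b • X by rw [hab, ha, zero_smul, zero_add])

/-- Trace free matrices orthogonal to all regular elements of a subgroup vanish. -/
theorem ResDatum.eq_zero_of_orthogonal {N : Subgroup GQ} (hN : N.Normal)
    (hNχ : N ≤ (chiQ p).ker) (hcomm : ∀ a b : GQ, a * b * a⁻¹ * b⁻¹ ∈ N) {w : M22 k}
    (hw : w.trace = 0) (h : ∀ g ∈ N, (r g).trace ^ 2 ≠ 4 → (w * r g).trace = 0) : w = 0 := by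
  have h2 := D.two_ne_zero
  obtain ⟨g₀, hg₀, hreg⟩ := D.exists_regular hN hNχ hcomm
  let sl : Submodule k (M22 k) := LinearMap.ker (Matrix.traceLinearMap (Fin 2) k k)
  let Y : Submodule k (M22 k) :=
    { carrier := {X | X.trace = 0 ∧ ∀ g ∈ N, (r g).trace ^ 2 ≠ 4 → (X * r g).trace = 0}
      zero_mem' := ⟨Matrix.trace_zero _ _, fun g _ _ => by simp⟩
      add_mem' := fun {a b} ha hb => ⟨by rw [Matrix.trace_add, ha.1, hb.1, add_zero],
        fun g hg hr => by rw [add_mul, Matrix.trace_add, ha.2 g hg hr, hb.2 g hg hr, add_zero]⟩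
      smul_mem' := fun c a ha => ⟨by rw [Matrix.trace_smul, ha.1, smul_zero],
        fun g hg hr => by rw [smul_mul_assoc, Matrix.trace_smul, ha.2 g hg hr, smul_zero]⟩ }
  have hconj : ∀ (g : GQ) X, X ∈ Y → r g * X * r g⁻¹ ∈ Y := by
    rintro g X ⟨hX, hXo⟩
    refine ⟨by rw [trace_rep_conj, hX], fun a ha har => ?_⟩
    have e : r a = r g * r (g⁻¹ * a * g) * r g⁻¹ := by
      rw [← map_mul, ← map_mul]; group
    rw [e, rep_conj_mul, trace_rep_conj]
    refine hXo _ (by simpa using hN.conj_mem a ha g⁻¹) ?_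
    rwa [e, trace_rep_conj] at har
  have hsl : Module.finrank k sl ≤ 3 := by
    have hh := LinearMap.finrank_range_add_finrank_ker (Matrix.traceLinearMap (Fin 2) k k)
    have hs : LinearMap.range (Matrix.traceLinearMap (Fin 2) k k) = ⊤ :=
      LinearMap.range_eq_top.mpr fun c => ⟨!![c, 0; 0, 0], by simp [Matrix.trace_fin_two]⟩
    rw [hs, finrank_top, Module.finrank_self, Module.finrank_matrix, Fintype.card_fin,
      Module.finrank_self] at hh
    change _ + Module.finrank k sl = _ at hh
    omega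
  have hYsl : Y ≤ sl := fun X hX => hX.1
  have hlt : Y < sl := by
    refine lt_of_le_of_ne hYsl fun he => hreg ?_
    have key : ∀ X : M22 k, X.trace = 0 → (X * r g₀).trace = 0 := fun X hX =>
      (he.symm ▸ (show X ∈ sl from hX) : X ∈ Y).2 g₀ hg₀ hreg
    have a1 := key !![1, 0; 0, -1] (by simp [Matrix.trace_fin_two])
    have a2 := key !![0, 1; 0, 0] (by simp [Matrix.trace_fin_two])
    have a3 := key !![0, 0; 1, 0] (by simp [Matrix.trace_fin_two])
    simp [Matrix.trace_fin_two, Fin.sum_univ_two, Matrix.vecMul, dotProduct]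
      at a1 a2 a3
    have hd := D.det_of_mem (hNχ hg₀)
    rw [Matrix.det_fin_two] at hd
    rw [Matrix.trace_fin_two]
    linear_combination 4 * hd + (r g₀ 0 0 - r g₀ 1 1) * a1 + 4 * (r g₀ 0 1) * a2 + 0 * a3
  have hrank : Module.finrank k Y ≤ 2 := by
    have := Submodule.finrank_lt_finrank_of_lt hlt
    omega
  by_contra hw0
  have hwY : w ∈ Y := ⟨hw, h⟩
  rcases Nat.lt_or_ge (Module.finrank k Y) 2 with hlt2 | hge
  · -- a stable line
    obtain ⟨g, hg⟩ := D.adIrr w hw hw0
    have hspan : Submodule.span k {w} = Y :=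
      Submodule.eq_of_le_of_finrank_le ((Submodule.span_singleton_le_iff_mem _ _).mpr hwY)
        (by rw [finrank_span_singleton hw0]; omega)
    have := hconj g w hwY
    rw [← hspan, Submodule.mem_span_singleton] at this
    obtain ⟨c, hc⟩ := this
    exact hg c hc.symm
  · -- the bracket of a stable plane spans a stable line
    obtain ⟨u, huY, hu⟩ : ∃ u ∈ Y, u ∉ Submodule.span k {w} := by
      by_contra hno
      push Not at hno
      have := Submodule.finrank_mono (show Y ≤ Submodule.span k {w} from hno)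
      rw [finrank_span_singleton hw0] at this
      omega
    have hspan : Submodule.span k {w, u} = Y := by
      refine Submodule.eq_of_le_of_finrank_le (Submodule.span_le.mpr fun x hx => ?_) ?_
      · rcases hx with rfl | rfl
        · exact hwY
        · exact huY
      · have hind : LinearIndependent k ![w, u] := by
          rw [LinearIndependent.pair_iff' hw0]
          exact fun c hc => hu (Submodule.mem_span_singleton.mpr ⟨c, hc⟩)
        have := finrank_span_eq_card hind
        rw [Matrix.range_cons_cons_empty, Fintype.card_fin] at this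
        omega
    set B : M22 k := w * u - u * w with hBdef
    have hBt : B.trace = 0 := by rw [hBdef, Matrix.trace_sub, Matrix.trace_mul_comm, sub_self]
    have hB0 : B ≠ 0 := fun h0 => by
      obtain ⟨a, b, hab⟩ := exists_eq_add_of_commute (y := u) (fun hs => hw0 (by
        have := hw
        rw [Matrix.trace_fin_two, ← hs.2.2, ← two_mul] at this
        rw [(show IsScal w from hs).eq, (mul_eq_zero.mp this).resolve_left h2, zero_smul]))
        (sub_eq_zero.mp h0)
      have ha : a = 0 := by
        have := huY.1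
        rw [hab, trace_add_smul, hw, mul_zero, add_zero] at this
        exact (mul_eq_zero.mp this).resolve_left h2
      exact hu (Submodule.mem_span_singleton.mpr ⟨b, by rw [hab, ha, zero_smul, zero_add]⟩)
    obtain ⟨g, hg⟩ := D.adIrr B hBt hB0
    have hw' := hconj g w hwY
    have hu' := hconj g u huY
    rw [← hspan, Submodule.mem_span_pair] at hw' hu'
    obtain ⟨a, b, hab⟩ := hw'
    obtain ⟨c, d, hcd⟩ := hu'
    refine hg (a * d - b * c) ?_
    rw [hBdef, mul_sub, sub_mul, ← rep_conj_mul, ← rep_conj_mul r g u w, ← hab, ← hcd]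
    simp only [add_mul, mul_add, smul_mul_smul_comm, smul_sub, sub_smul, mul_comm c, mul_comm d]
    abel

variable [Finite k]

/-- **A class is visible at an element with distinct eigenvalues of a cyclotomic subgroup.** -/
theorem ResDatum.exists_visible {N : Subgroup GQ} (hN : N.Normal) (hNχ : N ≤ (chiQ p).ker)
    (hcomm : ∀ a b : GQ, a * b * a⁻¹ * b⁻¹ ∈ N) {z : GQ → M22 k} (hzt : ∀ g, (z g).trace = 0)
    (hz : ∀ g h, z (g * h) = z g + (chiK k p g : k) • (r g * z h * r g⁻¹))
    (hnb : ¬ ∃ m : M22 k, m.trace = 0 ∧ ∀ g, z g = (chiK k p g : k) • (r g * m * r g⁻¹) - m) :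
    ∃ σ ∈ N, (r σ).trace ^ 2 ≠ 4 ∧ (z σ * r σ).trace ≠ 0 := by
  have hp := (Fact.out : p.Prime)
  have hker : ∀ h, r h = 1 → (chiK k p h : k) = 1 := fun h hh => by
    rw [← D.det, hh, Matrix.det_one]
  by_contra hall
  push Not at hall
  have hz1 : z 1 = 0 := by
    have h := hz 1 1
    simp only [mul_one, map_one, Units.val_one, one_smul, inv_one, one_mul, left_eq_add] at h
    exact h
  -- the class vanishes on the subgroup fixed by the representation
  have h0 : ∀ h ∈ N, r h = 1 → z h = 0 := by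
    intro h hh hr
    refine D.eq_zero_of_orthogonal hN hNχ hcomm (hzt h) fun g hg hreg => ?_
    have e := hz h g
    rw [hker h hr, one_smul, hr, one_mul,
      show r h⁻¹ = 1 by simpa [hr] using rep_mul_inv r h, mul_one] at e
    have h1 := hall (h * g) (mul_mem hh hg) (by rwa [map_mul, hr, one_mul])
    rw [map_mul, hr, one_mul, e, add_mul, Matrix.trace_add, hall g hg hreg, add_zero] at h1
    exact h1
  have hinv : ∀ h, r h = 1 → z h = 0 := by
    intro h hr
    by_contra hne
    obtain ⟨g, hg⟩ := D.adIrr (z h) (hzt h) hne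
    have hc : g * h * g⁻¹ * h⁻¹ ∈ N := hcomm g h
    have hrinv : r h⁻¹ = 1 := by simpa [hr] using rep_mul_inv r h
    have hrc : r (g * h * g⁻¹ * h⁻¹) = 1 := by
      rw [map_mul, map_mul, map_mul, hr, hrinv, mul_one, mul_one, rep_mul_inv]
    have e1 : z (g * h * g⁻¹) = z h := by
      rw [show g * h * g⁻¹ = (g * h * g⁻¹ * h⁻¹) * h by group, hz, h0 _ hc hrc, zero_add,
        hker _ hrc, one_smul, hrc, show r (g * h * g⁻¹ * h⁻¹)⁻¹ = 1 by
          simpa [hrc] using rep_mul_inv r (g * h * g⁻¹ * h⁻¹), one_mul, mul_one]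
    have e2 : z (g * h * g⁻¹) = (chiK k p g : k) • (r g * z h * r g⁻¹) := by
      have hgg := hz g g⁻¹
      rw [mul_inv_cancel, hz1] at hgg
      rw [mul_assoc, hz, hz h g⁻¹, hker h hr, one_smul, hr, one_mul, hrinv, mul_one, mul_add,
        add_mul, smul_add]
      linear_combination (norm := abel) -hgg
    refine hg ((chiK k p g : k))⁻¹ ?_
    conv_rhs => rw [← e1, e2, smul_smul, inv_mul_cancel₀ (Units.ne_zero _), one_smul]
  -- so it is a class of the image
  let rU : GQ →* (M22 k)ˣ := MonoidHom.toHomUnits r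
  have hrU : ∀ g, ((rU g : (M22 k)ˣ) : M22 k) = r g := fun g => rfl
  have hrUi : ∀ g, (((rU g)⁻¹ : (M22 k)ˣ) : M22 k) = r g⁻¹ := fun g => by rw [← map_inv]; rfl
  let zb : (M22 k)ˣ → M22 k := fun u => z (Function.invFun rU u)
  have hzb : ∀ g, zb (rU g) = z g := fun g => by
    set a := Function.invFun rU (rU g)
    have ha : rU a = rU g := Function.invFun_eq ⟨g, rfl⟩
    have hr : r (g⁻¹ * a) = 1 := by
      rw [← hrU, map_mul, ha, map_inv, inv_mul_cancel, Units.val_one]
    show z a = z g
    rw [show a = g * (g⁻¹ * a) by group, hz, hinv _ hr, mul_zero, zero_mul, smul_zero, add_zero]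
  have htw : ∀ g X, twAd (rU g) X = (chiK k p g : k) • (r g * X * r g⁻¹) := fun g X => by
    rw [twAd, hrU, hrUi, D.det]
  have hdet : ∀ g ∈ (rU.range), (g : M22 k).det ^ (p - 1) = 1 := by
    rintro _ ⟨g, rfl⟩
    rw [hrU, D.det, coe_chiK, ← map_pow, ← Units.val_pow_eq_pow_val,
      ZMod.units_pow_card_sub_one_eq_one, Units.val_one, map_one]
  have hns : ∃ g ∈ rU.range, (g : M22 k).det ^ ((p - 1) / 2) ≠ 1 := by
    obtain ⟨a, ha⟩ := FiniteField.exists_nonsquare (F := ZMod p) (by
      rw [ringChar.eq (ZMod p) p]; exact D.hp2)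
    have ha0 : a ≠ 0 := fun h => ha (h ▸ IsSquare.zero)
    obtain ⟨g, hg⟩ := chiQ_surjective p (Units.mk0 a ha0)
    refine ⟨rU g, ⟨g, rfl⟩, fun h => ha ?_⟩
    rw [hrU, D.det, coe_chiK, hg, ← map_pow, ← map_one (ZMod.castHom (dvd_refl p) k)] at h
    have h' := (ZMod.castHom (dvd_refl p) k).injective h
    have hodd : (p - 1) / 2 = p / 2 := by
      obtain ⟨j, hj⟩ := hp.odd_of_ne_two D.hp2; omega
    rw [Units.val_mk0, hodd] at h'
    exact (ZMod.euler_criterion p ha0).mpr h'
  obtain ⟨m, hm, hmz⟩ := isTwBoundary_of_no_stable_line (G := rU.range) (z := zb) D.hp2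
    ⟨by rintro _ ⟨g, rfl⟩; rw [hzb]; exact hzt g,
     by rintro _ ⟨g, rfl⟩ _ ⟨g', rfl⟩; rw [← map_mul, hzb, hzb, hzb, htw, hz]⟩
    hdet hns (fun v hv => by
      obtain ⟨g, hg⟩ := D.irr v hv
      exact ⟨rU g, ⟨g, rfl⟩, hg⟩)
  exact hnb ⟨m, hm, fun g => by rw [← hzb, hmz _ ⟨g, rfl⟩, htw]⟩

end FermatAgent.CFT.Selmer
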