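import Fermat.Agent.CFT.Selmer.Final
import Fermat.Agent.CFT.SelmerP.OrdBound
import Fermat.Prelude.Def_GaloisRep_StrictOrdinary

/-!
The bound on strictly ordinary local classes in the form used for auxiliary primes.
-/

set_option autoImplicit false

noncomputable section

open IsLocalRing GaloisRep

namespace FermatAgent.CFT.Selmer

open GaloisBasic SelmerP Euler Pairing Global Local LocalEuler

/-! ### What a strictly ordinary lift gives -/

section Lift

variable {p : ℕ} [hp : Fact p.Prime] {k : Type} [Field k] [CharP k p]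

/-- A basis adapted to the line of a strictly ordinary representation over dual numbers. -/
theorem exists_adapted_of_strict {N : MatRep (DualNumber k)}
    {hN : MatContinuous (DualNumber k) N} (h : (toRep N hN).IsStrictOrdinaryAt p)
    (P : ValuationSubring Qbar) (hP : P.LiesOverPrime p) :
    ∃ U : (Matrix (Fin 2) (Fin 2) (DualNumber k))ˣ,
      (∀ σ ∈ P.decompositionSubgroup ℚ, (U.1 * N σ * (U⁻¹).1) 1 0 = 0 ∧
        (U.1 * N σ * (U⁻¹).1) 0 0 =
          TrivSqZeroExt.inl (chiK k p σ : k) * (U.1 * N σ * (U⁻¹).1) 1 1) ∧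
      ∀ σ ∈ P.inertiaSubgroupIn ℚ, (U.1 * N σ * (U⁻¹).1) 1 1 = 1 := by
  obtain ⟨L, ⟨b, hb⟩, hD, hI, hs⟩ := h.2 P hP
  obtain ⟨U, hU⟩ := matConj_of_isEquiv (Pi.basisFun (DualNumber k) (Fin 2)) b
    (ρ := toRep N hN) ⟨GaloisRepAdic.Equiv.refl _⟩
  rw [matrixIn_toRep] at hU
  have hzero : ∀ v ∈ L, b.repr v 1 = 0 := by
    intro v hv
    rw [hb, Submodule.mem_span_singleton] at hv
    obtain ⟨t, rfl⟩ := hv
    simp
  have hent : ∀ σ i j, (U.1 * N σ * (U⁻¹).1) i j = b.repr ((toRep N hN).ρ σ (b j)) i :=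
    fun σ i j => by rw [← hU, matrixIn_apply, LinearMap.toMatrixAlgEquiv_apply]
  have hb0 : b 0 ∈ L := hb ▸ Submodule.mem_span_singleton_self _
  refine ⟨U, fun σ hσ => ⟨?_, ?_⟩, fun σ hσ => ?_⟩
  · rw [hent]; exact hzero _ (hD σ hσ _ hb0)
  · obtain ⟨x, z, hx, hz, hxz⟩ := hs σ hσ
    have h00 : b.repr ((toRep N hN).ρ σ (b 0)) 0 = x := by rw [hx _ hb0]; simp
    have h11 : b.repr ((toRep N hN).ρ σ (b 1)) 1 = z := by
      have := hzero _ (hz (b 1))
      rw [map_sub, Finsupp.sub_apply, sub_eq_zero] at this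
      rw [this]; simp
    have : NeZero p := ⟨hp.out.ne_zero⟩
    set a := ((chiQ p σ : ZMod p)).val
    have h1 := hxz 1 a fun _ hμ => apply_root_chiQ p σ hμ
    rw [natCast_pow_one_dual, Ideal.span_singleton_eq_bot.mpr rfl, Ideal.mem_bot, sub_eq_zero] at h1
    rw [hent, hent, h00, h11, h1, coe_chiK, ← TrivSqZeroExt.inl_natCast]
    congr 2
    rw [← map_natCast (ZMod.castHom (dvd_refl p) k), ZMod.natCast_zmod_val]
  · rw [hent]
    have := hzero _ (hI σ hσ (b 1))
    rw [map_sub, Finsupp.sub_apply, sub_eq_zero] at this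
    rw [this]; simp

omit [CharP k p] hp in
/-- A finite level on which the representation is trivial. -/
lemma exists_rep_level {r : MatRep k} {c : GQ → M22 k} {N : MatRep (DualNumber k)}
    (hN : MatContinuous (DualNumber k) N)
    (hent : ∀ g i j,
      N g i j = TrivSqZeroExt.inl (r g i j) + TrivSqZeroExt.inr ((c g * r g) i j)) :
    ∃ L : IntermediateField ℚ Qbar,
      FiniteDimensional ℚ L ∧ ∀ σ ∈ L.fixingSubgroup, r σ = 1 := by
  obtain ⟨L, hL, hM⟩ := hN 1
  refine ⟨L, hL, fun σ hσ => Matrix.ext fun i j => ?_⟩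
  have h1 := hM σ hσ i j
  rw [pow_one, IsLocalRing.mem_maximalIdeal, mem_nonunits_iff,
    TrivSqZeroExt.isUnit_iff_isUnit_fst, isUnit_iff_ne_zero, not_not, hent] at h1
  rw [Matrix.one_apply] at h1 ⊢
  by_cases hij : i = j <;> simp [hij, sub_eq_zero] at h1 ⊢ <;> exact h1

end Lift

/-- **The bound for the strictly ordinary condition.** -/
theorem localBound_strict {𝒪 : Type} [CommRing 𝒪] [IsDomain 𝒪] [IsDiscreteValuationRing 𝒪]
    [Finite (ResidueField 𝒪)] (p : ℕ) [hp : Fact p.Prime]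
    (hp2 : p ≠ 2) (hp𝒪 : (p : 𝒪) ∈ maximalIdeal 𝒪)
    (ρbar : ResidualGaloisRep (ResidueField 𝒪)) :
    LocalBoundAt p ρbar (fun _A _ _ ρ => ρ.IsStrictOrdinaryAt p) := by
  have : CharP (ResidueField 𝒪) p := (CharP.charP_iff_prime_eq_zero hp.out).mpr (by
    rw [← map_natCast (residue 𝒪), residue_eq_zero_iff]; exact hp𝒪)
  intro V _ hV hcont hlift
  obtain ⟨N₀, hN₀, hent₀, -⟩ := hlift 0 V.zero_mem
  obtain ⟨τ, hτ, hχτ⟩ := exists_inertia_chiQ_neg_one p
  let χ : GQ →* ResidueField 𝒪 := (Units.coeHom _).comp (chiK (ResidueField 𝒪) p)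
  have h2 : (-2 : ResidueField 𝒪) ≠ 0 := neg_ne_zero.mpr fun h0 => hp2
    ((Nat.prime_dvd_prime_iff_eq hp.out Nat.prime_two).mp
      ((CharP.cast_eq_zero_iff _ p 2).mp (by exact_mod_cast h0)))
  let i : RT.OrdIndex χ p := ⟨padicPlace p, liesOverPrime_padicPlace, τ, hτ, (-2)⁻¹, by
    show _ * ((chiK (ResidueField 𝒪) p τ : ResidueField 𝒪) - 1) = 1
    rw [coe_chiK, hχτ, Units.val_neg, Units.val_one, map_neg, map_one,
      show (-1 - 1 : ResidueField 𝒪) = -2 by ring, inv_mul_cancel₀ h2]⟩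
  refine SelmerP.finrank_le_strict hp2 _ (exists_rep_level hN₀ hent₀) V hV hcont (σ₀ := τ)
    (u := (-2)⁻¹) fun c hc => ?_
  obtain ⟨N, hN, hent, hord⟩ := hlift c hc
  have hw := RT.ordMatCond_of_adapted (c := χ) (M := N)
    (fun P hP => exists_adapted_of_strict hord P hP) inertiaSubgroupIn_le_decompositionSubgroup
  have hN' : ∀ g, N g = epsLift (residualMatrix ρbar) c g := fun g => Matrix.ext (hent g)
  have hπ : RT.ordProj i N = (TrivSqZeroExt.inl ((-2)⁻¹ : ResidueField 𝒪) :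
      DualNumber (ResidueField 𝒪)) • (N τ - 1) := Matrix.ext fun a b => by
    rw [RT.ordProj, Matrix.smul_apply, Matrix.smul_apply, Algebra.smul_def]; rfl
  refine ⟨N, hN', hπ ▸ ordShape_of_weakOrd (Lifting.weakOrdMatCond_of_ordMatCond hw)
    (fun σ => by rw [hN', det_epsLift (hV hc)]) i, fun σ hσ => ?_⟩
  have h := congrFun (congrFun (hw (.strict i ⟨σ, hσ⟩)) 0) 0
  simp only [RT.OrdEq.expr, Matrix.algebraMap_matrix_apply, if_pos, Matrix.zero_apply,
    Algebra.algebraMap_self, RingHom.id_apply, sub_eq_zero, hπ] at h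
  exact h

end FermatAgent.CFT.Selmer
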