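import Mathlib

/-!
Elementary facts on groups of two by two matrices of determinant one over a field of odd
characteristic.
-/

set_option autoImplicit false

noncomputable section

namespace FermatAgent.CFT.Selmer

variable {k : Type} [Field k]

/-- Two by two matrices. -/
abbrev M22 (k : Type) : Type := Matrix (Fin 2) (Fin 2) k

/-- Elements commuting with a non scalar matrix lie in the algebra it generates. -/
lemma exists_eq_add_of_commute {k : Type*} [Field k] {x y : Matrix (Fin 2) (Fin 2) k}
    (hx : ¬ (x 0 1 = 0 ∧ x 1 0 = 0 ∧ x 0 0 = x 1 1))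
    (h : x * y = y * x) : ∃ a b : k, y = a • 1 + b • x := by
  have e00 := congrFun (congrFun h 0) 0
  have e01 := congrFun (congrFun h 0) 1
  have e10 := congrFun (congrFun h 1) 0
  simp only [Matrix.mul_apply, Fin.sum_univ_two] at e00 e01 e10
  by_cases h01 : x 0 1 = 0
  · by_cases h10 : x 1 0 = 0
    · have hd : x 0 0 - x 1 1 ≠ 0 := sub_ne_zero.mpr fun e => hx ⟨h01, h10, e⟩
      rw [h01] at e01
      rw [h10] at e10
      have y01 : y 0 1 = 0 := (mul_eq_zero.mp (show (x 0 0 - x 1 1) * y 0 1 = 0 by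
        linear_combination e01)).resolve_left hd
      have y10 : y 1 0 = 0 := (mul_eq_zero.mp (show (x 0 0 - x 1 1) * y 1 0 = 0 by
        linear_combination -e10)).resolve_left hd
      refine ⟨y 0 0 - (y 0 0 - y 1 1) / (x 0 0 - x 1 1) * x 0 0,
        (y 0 0 - y 1 1) / (x 0 0 - x 1 1), ?_⟩
      ext i j; fin_cases i <;> fin_cases j <;>
        simp [Matrix.add_apply, h01, h10, y01, y10]
      field_simp
      ring
    · refine ⟨y 0 0 - y 1 0 / x 1 0 * x 0 0, y 1 0 / x 1 0, ?_⟩
      rw [h01] at e00 e01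
      have y01 : y 0 1 = 0 := (mul_eq_zero.mp (show x 1 0 * y 0 1 = 0 by
        linear_combination -e00)).resolve_left h10
      ext i j; fin_cases i <;> fin_cases j <;> simp [Matrix.add_apply, h01, y01]
      · field_simp
      · field_simp
        linear_combination -e10
  · refine ⟨y 0 0 - y 0 1 / x 0 1 * x 0 0, y 0 1 / x 0 1, ?_⟩
    ext i j; fin_cases i <;> fin_cases j <;> simp [Matrix.add_apply]
    · field_simp
    · field_simp
      linear_combination e00
    · field_simp
      linear_combination e01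

/-- Cayley–Hamilton. -/
lemma mul_self_eq (x : M22 k) : x * x = x.trace • x - x.det • 1 := by
  ext i j; fin_cases i <;> fin_cases j <;>
    simp [Matrix.mul_apply, Fin.sum_univ_two, Matrix.trace_fin_two, Matrix.det_fin_two] <;> ring

/-- The determinant of `a + b x`. -/
lemma det_add_smul (x : M22 k) (a b : k) :
    (a • 1 + b • x).det = a ^ 2 + a * b * x.trace + b ^ 2 * x.det := by
  simp [Matrix.det_fin_two, Matrix.trace_fin_two]; ring

/-- The trace of `a + b x`. -/
lemma trace_add_smul (x : M22 k) (a b : k) : (a • 1 + b • x).trace = 2 * a + b * x.trace := by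
  simp [Matrix.trace_fin_two]; ring

/-- Traces are invariant under conjugation. -/
lemma trace_conj_units (g : (M22 k)ˣ) (x : M22 k) :
    ((g : M22 k) * x * ((g⁻¹ : (M22 k)ˣ) : M22 k)).trace = x.trace := by
  rw [Matrix.trace_mul_cycle, Units.inv_mul, one_mul]

/-- Determinants are invariant under conjugation. -/
lemma det_conj_units (g : (M22 k)ˣ) (x : M22 k) :
    ((g : M22 k) * x * ((g⁻¹ : (M22 k)ˣ) : M22 k)).det = x.det := by
  rw [Matrix.det_mul, Matrix.det_mul, mul_comm, ← mul_assoc, ← Matrix.det_mul, Units.inv_mul,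
    Matrix.det_one, one_mul]

/-- Being scalar. -/
def IsScal (x : M22 k) : Prop := x 0 1 = 0 ∧ x 1 0 = 0 ∧ x 0 0 = x 1 1

/-- A scalar is its first entry. -/
lemma IsScal.eq {x : M22 k} (h : IsScal x) : x = x 0 0 • 1 := by
  ext i j; fin_cases i <;> fin_cases j <;> simp [h.1, h.2.1, h.2.2]

/-- Scalars are central. -/
lemma IsScal.commute {x : M22 k} (h : IsScal x) (y : M22 k) : x * y = y * x := by
  rw [h.eq, smul_mul_assoc, one_mul, mul_smul_comm, mul_one]

/-- Multiples of one are scalars. -/
lemma isScal_smul_one (a : k) : IsScal (a • 1 : M22 k) := by simp [IsScal]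

/-- Scalars are fixed by conjugation. -/
lemma IsScal.conj {x : M22 k} (h : IsScal x) (g : (M22 k)ˣ) :
    (g : M22 k) * x * ((g⁻¹ : (M22 k)ˣ) : M22 k) = x := by
  rw [← h.commute, mul_assoc, Units.mul_inv, mul_one]

/-- Conjugation of an upper unitriangular matrix. -/
lemma conj_unip_10 (g : (M22 k)ˣ) :
    ((g : M22 k) * (!![1, 1; 0, 1] : M22 k) * ((g⁻¹ : (M22 k)ˣ) : M22 k)) 1 0 =
      -((g : M22 k) 1 0 * (g : M22 k) 1 0) * (g : M22 k).det⁻¹ := by
  rw [Matrix.coe_units_inv, Matrix.inv_def, Matrix.adjugate_fin_two, Ring.inverse_eq_inv']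
  simp [Matrix.mul_apply, Fin.sum_univ_two]
  ring

end FermatAgent.CFT.Selmer
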