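import Fermat.Agent.CFT.Selmer.Bound

/-!
The condition of unipotent inertia for plain cocycles, and the level of a residual representation.
-/

set_option autoImplicit false

noncomputable section

open scoped Classical

namespace FermatAgent.CFT.Selmer

open Coh Euler Pairing Global Local LocalEuler GaloisBasic

variable {p : ℕ} [hp : Fact p.Prime] {k : Type} [Field k] [Finite k] [CharP k p] {r : MatRep k}

/-- **Trace two on inertia makes a cocycle a coboundary on inertia.** -/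
theorem ResDatum.exists_coboundary_of_unipotent (D : ResDatum p r) {S : Finset Nat.Primes}
    {U : Subgroup GQ} (hUn : U.Normal) (hU : U ∈ LS S) (hker : ∀ g ∈ U, r g = 1)
    (hle : U ≤ (chiQ p).ker) (hpS : ExtCitation.pPrime p ∈ S) {c : GQ → M22 k} (hc : c ∈ adCoc r)
    (hcont : ∃ L : IntermediateField ℚ Qbar, FiniteDimensional ℚ L ∧
      ∀ σ ∈ L.fixingSubgroup, c σ = 0)
    (hun : ∀ q : Nat.Primes, q ∉ S → ∀ A : ValuationSubring Qbar, A.LiesOverPrime (q : ℕ) →
      ∀ τ ∈ A.inertiaSubgroupIn ℚ, c τ = 0)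
    {q : ℕ} (hq : q.Prime) (hqp : q ≠ p) {A : ValuationSubring Qbar} (hA : A.LiesOverPrime q)
    (htr : ∀ τ ∈ A.inertiaSubgroupIn ℚ, (r τ).trace = 2 ∧ (r τ).det = 1) {τ₀ : GQ}
    (hτ₀ : τ₀ ∈ A.inertiaSubgroupIn ℚ) (hne : r τ₀ ≠ 1)
    (hcond : ∀ τ ∈ A.inertiaSubgroupIn ℚ, (c τ * r τ).trace = 0) :
    ∃ e : M22 k, ∀ τ ∈ A.inertiaSubgroupIn ℚ, c τ = r τ * e * r τ⁻¹ - e := by
  obtain ⟨T₀, hS₀, hset⟩ := exists_setting D.hp2 hUn hU hle hpS
  have T := hset T₀ subset_rfl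
  obtain ⟨z, hz⟩ := exists_Z1_of_adCoc T.level hker hc hcont fun q hq => hun q fun h => hq (hS₀ h)
  obtain ⟨z', hcls, hz'⟩ := exists_rep_of_unipotent T D (good_ad0 hker) hq hqp hA htr hτ₀ hne hker z
    (fun τ hτ => by rw [hz]; exact hcond τ hτ)
  obtain ⟨m, hm⟩ := cls1_eq_zero_iff.mp (show cls1 (LS T₀) (Ad0 r) (z - z') = 0 by
    rw [map_sub, hcls, sub_self])
  refine ⟨Ad.val m, fun τ hτ => ?_⟩
  have h1 : z.1 τ - z'.1 τ = τ • m - m := hm τ (Subgroup.mem_top τ)
  rw [hz' τ hτ, sub_zero] at h1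
  rw [← hz τ, h1, map_sub, Ad.val_smul, MonoidHom.one_apply, Units.val_one, one_smul]

omit [Finite k] in
/-- A level for a representation trivial on a finite extension and unramified outside a set. -/
theorem ResDatum.exists_level (D : ResDatum p r) {S : Finset Nat.Primes}
    (hcont : ∃ L : IntermediateField ℚ Qbar, FiniteDimensional ℚ L ∧
      ∀ σ ∈ L.fixingSubgroup, r σ = 1)
    (hun : ∀ q : Nat.Primes, q ∉ S → ∀ A : ValuationSubring Qbar, A.LiesOverPrime (q : ℕ) →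
      ∀ τ ∈ A.inertiaSubgroupIn ℚ, r τ = 1) :
    ∃ U : Subgroup GQ, U.Normal ∧ U ∈ LS S ∧ (∀ g ∈ U, r g = 1) ∧ U ≤ (chiQ p).ker := by
  obtain ⟨L, hL, hLr⟩ := hcont
  set W : Subgroup GQ := MonoidHom.ker r
  have hWQ : W ∈ LQ := ⟨L, hL, fun g hg => hLr g hg⟩
  have hfix := fixingSubgroup_fixedField_of_mem hWQ
  have hle : IntermediateField.fixedField W ≤ L := fun x hx => by
    rw [← InfiniteGalois.fixedField_fixingSubgroup L]
    exact fun g => hx ⟨g.1, hLr g.1 g.2⟩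
  refine ⟨W, inferInstance, hfix ▸ fixingSubgroup_mem_LS ⟨FiniteDimensional.of_injective
      (IntermediateField.inclusion hle).toLinearMap (IntermediateField.inclusion_injective hle),
    fun q hq A hA τ hτ => hfix.ge (hun q hq A hA τ hτ)⟩, fun g hg => hg,
    fun g hg => MonoidHom.mem_ker.mpr (D.ker_le_chiK (MonoidHom.mem_ker.mp hg))⟩

end FermatAgent.CFT.Selmer
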